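import Fermat.Agent.FFG.Flip

/-!
# FFG / Chart : charts of `Pic^g`                                               [WP CHART]

PAPER PROOFS.
* `exists_equiv_avoid` (moving lemma on the special fibre; any function field with a separating
  parameter over an algebraically closed field).  It suffices to find, for `Q ∈ T`, a function `t_Q` with
  `ord_Q t_Q = 1` and `ord_{Q'} t_Q = 0` for `Q' ∈ T \ {Q}`; then `E' := E - div (∏_{Q ∈ T} t_Q ^ (E Q))`.
  Take `Q∞ ∉ T`, `B := n Q∞` with `n` large (`exists_riemann`): `L(B - Q - Q)` and `L(B - Q - Q')` are proper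
  subspaces of `L(B - Q)` (dimensions from Riemann's theorem); a vector space over an infinite field is
  not a finite union of proper subspaces.
* `exists_lift_divisor`: `D := E.mapDomain s`, `s` a section of the surjection `r`.
* `Chart.exists_pts`: `deg (D + χ.a) = g`, so there is `φ ≠ 0` in `L(D + χ.a)` (`exists_ne_zero_mem_L`);
  `E := div φ + D + χ.a ≥ 0`, `r_* E ≥ 0` is linearly equivalent to `sumP χ.pt` (P1 + `Adapted`), and
  `ℓ(sumP χ.pt) = 1` forces `r_* E = sumP χ.pt` (see the proof of `isPrincipal_of_torsion` in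
  `RED/TorsionInj.lean`, lines `hrE` ff., where exactly this is done).  So `E = sumP P`.
* `Chart.pts_unique`: `sumP P - sumP P' = div f`, `f ∈ L(sumP P')`, and
  `ℓ(sumP P') ≤ ℓ(r_* sumP P') = ℓ(sumP χ.pt) = 1` (`ell_le_ell_mapDomain`), so `f` is constant.
* `exists_chart`: `B` := bad set of `G.param`.  Choose `pt` non-special avoiding `T ∪ B`
  (`IsSepParam.exists_nonspecial45`, `G.genus`), `E := sumP pt - r_* D`, move it away from
  `T ∪ range pt` (`exists_equiv_avoid`), lift it (`exists_lift_divisor`).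
-/

set_option autoImplicit false
set_option linter.unusedSectionVars false

open AlgebraicCurve

namespace Fermat.Agent.FFG

open Fermat.Agent.RED Fermat.Agent.S24

noncomputable section

variable {K F k Fb : Type*} [Field K] [Field F] [Algebra K F] [Field k] [Field Fb] [Algebra k Fb]
variable [IsAlgClosed K] [IsAlgClosed k]
variable {R : RedData K F k Fb} {r : Place K F → Place k Fb}

namespace ChartAux

section

variable {E E' : Type*} [Field E] [Field E'] [Algebra E E']

theorem isPrincipal_add {D D' : Divisor E E'} (h : Divisor.IsPrincipal D)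
    (h' : Divisor.IsPrincipal D') : Divisor.IsPrincipal (D + D') :=
  Divisor.principal.add_mem h h'

theorem isPrincipal_sub {D D' : Divisor E E'} (h : Divisor.IsPrincipal D)
    (h' : Divisor.IsPrincipal D') : Divisor.IsPrincipal (D - D') :=
  Divisor.principal.sub_mem h h'

theorem isPrincipal_neg {D : Divisor E E'} (h : Divisor.IsPrincipal D) :
    Divisor.IsPrincipal (-D) :=
  Divisor.principal.neg_mem h

end

end ChartAux

open ChartAux

/-- Moving lemma. -/
theorem exists_equiv_avoid {y₀ : Fb} (hy : IsSepParam k y₀) (E : Divisor k Fb)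
    (T : Set (Place k Fb)) (hT : T.Finite) :
    ∃ E' : Divisor k Fb, Divisor.IsPrincipal (E' - E) ∧ ∀ Q ∈ T, E' Q = 0 := by
  classical
  obtain ⟨c, hc⟩ := hy.exists_riemann
  haveI := hy.infinite_place45
  haveI : Infinite k := IsAlgClosed.instInfinite
  obtain ⟨Qi, hQi⟩ := hT.exists_notMem
  set T' : Finset (Place k Fb) := hT.toFinset with hT'
  set E₀ : Divisor k Fb := ∑ Q ∈ T', Finsupp.single Q (E Q) with hE₀
  have hE₀app : ∀ Q ∈ T, E₀ Q = E Q := by
    intro Q hQ
    rw [hE₀, Finsupp.finsetSum_apply, Finset.sum_eq_single Q]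
    · exact Finsupp.single_eq_same
    · intro Q' _ hne
      exact Finsupp.single_eq_of_ne' hne
    · intro h
      exact absurd (hT.mem_toFinset.2 hQ) h
  set n : ℤ := c + 1 + Divisor.degree E₀ with hn
  set B : Divisor k Fb := Finsupp.single Qi n - E₀ with hB
  have hdegB : Divisor.degree B = c + 1 := by
    rw [hB, map_sub, hy.degree_single, hn]; ring
  have hBapp : ∀ Q ∈ T, B Q = - E Q := by
    intro Q hQ
    have hne : Qi ≠ Q := fun h => hQi (by rw [h]; exact hQ)
    rw [hB, Finsupp.sub_apply, hE₀app Q hQ, Finsupp.single_eq_of_ne' hne, zero_sub]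
  have hellB : (ell B : ℤ) = c + 1 + 1 - gR k Fb := by
    rw [hc B (by rw [hdegB]; linarith), hdegB]
  have hellBQ : ∀ Q, (ell (B - Finsupp.single Q 1) : ℤ) = c + 1 - gR k Fb := by
    intro Q
    have hd : Divisor.degree (B - Finsupp.single Q 1) = c := by
      rw [map_sub, hdegB, hy.degree_single]; ring
    rw [hc _ (by rw [hd]), hd]
  have hellpos : 0 < ell B := by
    have h1 : (0 : ℤ) ≤ ell (B - Finsupp.single Qi 1) := Int.natCast_nonneg _
    rw [hellBQ] at h1
    have : (0 : ℤ) < ell B := by rw [hellB]; linarith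
    exact_mod_cast this
  -- the proper subspaces
  let p : Option T' → Subspace k (riemannRochSpace B) := fun o =>
    match o with
    | none => ⊥
    | some Q => (riemannRochSpace (B - Finsupp.single (Q : Place k Fb) 1)).comap
        (riemannRochSpace B).subtype
  haveI := hy.finite_L B
  have hp : ∀ o, p o ≠ ⊤ := by
    intro o
    cases o with
    | none =>
      intro h
      have h1 : Module.finrank k (⊥ : Subspace k (riemannRochSpace B)) =
          Module.finrank k (⊤ : Subspace k (riemannRochSpace B)) := by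
        rw [show (⊥ : Subspace k (riemannRochSpace B)) = ⊤ from h]
      rw [finrank_bot, finrank_top] at h1
      exact absurd h1 hellpos.ne
    | some Q =>
      intro h
      have hle : riemannRochSpace B ≤ riemannRochSpace (B - Finsupp.single (Q : Place k Fb) 1) := by
        intro f hf
        have : (⟨f, hf⟩ : riemannRochSpace B) ∈ p (some Q) := by rw [h]; trivial
        exact this
      haveI := hy.finite_L (B - Finsupp.single (Q : Place k Fb) 1)
      have h1 : ell B ≤ ell (B - Finsupp.single (Q : Place k Fb) 1) := Submodule.finrank_mono hle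
      have h2 : (ell B : ℤ) ≤ ell (B - Finsupp.single (Q : Place k Fb) 1) := by exact_mod_cast h1
      rw [hellB, hellBQ] at h2
      linarith
  obtain ⟨f, hf⟩ : ∃ f : riemannRochSpace B, ∀ o, f ∉ p o := by
    by_contra hcon
    push Not at hcon
    have hcov : ⋃ o, (p o : Set (riemannRochSpace B)) = Set.univ := by
      rw [Set.eq_univ_iff_forall]
      intro f
      obtain ⟨o, ho⟩ := hcon f
      exact Set.mem_iUnion.2 ⟨o, ho⟩
    obtain ⟨o, ho⟩ := Subspace.exists_eq_top_of_iUnion_eq_univ hcov
    exact hp o ho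
  have hf0 : (f : Fb) ≠ 0 := by
    intro h
    apply hf none
    have : f = 0 := Subtype.ext h
    rw [this]
    exact Submodule.zero_mem _
  have hfB := (mem_L_iff_of_ne_zero hf0).1 f.2
  have hord : ∀ Q ∈ T, Q.ord (f : Fb) = E Q := by
    intro Q hQ
    have h1 : (f : Fb) ∉ riemannRochSpace (B - Finsupp.single Q 1) := fun h =>
      hf (some ⟨Q, hT.mem_toFinset.2 hQ⟩) h
    rw [mem_L_iff_of_ne_zero hf0] at h1
    push Not at h1
    obtain ⟨v, hv⟩ := h1
    rw [Finsupp.sub_apply] at hv
    have hvQ : v = Q := by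
      by_contra hne
      rw [Finsupp.single_eq_of_ne' (fun h => hne h.symm)] at hv
      have := hfB v
      linarith
    subst hvQ
    rw [Finsupp.single_eq_same, hBapp v hQ] at hv
    have := hfB v
    rw [hBapp v hQ] at this
    linarith
  refine ⟨E - dv k (f : Fb), ?_, fun Q hQ => ?_⟩
  · have : E - dv k (f : Fb) - E = - dv k (f : Fb) := by abel
    rw [this]
    exact isPrincipal_neg (hy.isPrincipal_dv hf0)
  · rw [Finsupp.sub_apply, hy.dv_apply, hord Q hQ, sub_self]

theorem exists_lift_divisor (G : Good R r) (E : Divisor k Fb) :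
    ∃ D : Divisor K F, D.mapDomain r = E ∧ ∀ P, E (r P) = 0 → D P = 0 := by
  refine ⟨E.mapDomain (Function.surjInv G.surj), ?_, fun P hP => ?_⟩
  · rw [← Finsupp.mapDomain_comp]
    have : r ∘ Function.surjInv G.surj = id := by
      funext Q
      exact Function.surjInv_eq G.surj Q
    rw [this, Finsupp.mapDomain_id]
  · refine mapDomain_apply_eq_zero _ E P fun Q hQ => ?_
    have : Q = r P := by rw [← hQ, Function.surjInv_eq G.surj Q]
    rw [this, hP]

/-- `r_*` preserves degrees and principal divisors. -/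
theorem degree_mapDomain (G : Good R r) (D : Divisor K F) :
    Divisor.degree (D.mapDomain r) = Divisor.degree D :=
  Flip.degree_mapDomain G D

theorem isPrincipal_mapDomain (G : Good R r) {D : Divisor K F} (hD : Divisor.IsPrincipal D) :
    Divisor.IsPrincipal (D.mapDomain r) := by
  obtain ⟨f, hf, hDf⟩ := hD
  obtain ⟨c, hc, hv⟩ := G.isReduction.exists_normalise hf
  refine ⟨rd R.O R.red (f * algebraMap K F c), G.isReduction.rd_ne_zero hv, fun Q => ?_⟩
  exact (G.isReduction.ord_rd hv D (fun P => by rw [hDf P, ord_mul_const P _ hc]) Q).symm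

theorem gN_eq (G : Good R r) : (gN K F : ℤ) = gR K F := by
  obtain ⟨x₀, hx⟩ := G.sep
  exact Int.toNat_of_nonneg hx.gR_nonneg

theorem Chart.exists_pts (G : Good R r) (χ : Chart R r) {D : Divisor K F}
    (hD : Divisor.degree D = 0) (h : χ.Adapted D) :
    ∃ P : Fin (gN K F) → Place K F, (∀ i, r (P i) = χ.pt i) ∧
      Divisor.IsPrincipal (sumP P - χ.a - D) := by
  classical
  obtain ⟨x₀, hx⟩ := G.sep
  obtain ⟨y₀, hy⟩ := G.sepb
  obtain ⟨φ, hφ, hφ0⟩ := hx.exists_ne_zero_mem_L (A := D + χ.a)
    (by rw [map_add, hD, χ.deg_a, zero_add, gN_eq G])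
  rw [mem_L_iff_of_ne_zero hφ0] at hφ
  set E : Divisor K F := dv K φ + (D + χ.a) with hE
  have hEnn : ∀ P, 0 ≤ E P := by
    intro P
    rw [hE, Finsupp.add_apply, hx.dv_apply]
    exact hφ P
  -- `r_* E ∼ sumP χ.pt`
  have hpr : Divisor.IsPrincipal (E.mapDomain r - sumP χ.pt) := by
    have e : E.mapDomain r - sumP χ.pt =
        (dv K φ).mapDomain r + ((D + χ.a).mapDomain r - sumP χ.pt) := by
      rw [hE, Finsupp.mapDomain_add]; abel
    rw [e]
    exact isPrincipal_add (isPrincipal_mapDomain G (hx.isPrincipal_dv hφ0)) h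
  obtain ⟨δ, hδ0, hδ⟩ := hpr
  have hδc : δ ∈ Set.range (algebraMap k Fb) := by
    refine hy.mem_range_of_ell_eq_one45 (Flip.sumP_nonneg χ.pt) χ.ns fun Q => ?_
    rw [← hδ Q, Finsupp.sub_apply]
    have := mapDomain_apply_nonneg r E Q fun P _ => hEnn P
    linarith
  have hrE : E.mapDomain r = sumP χ.pt := by
    ext Q
    have := hδ Q
    rw [ord_of_mem_range Q hδc, Finsupp.sub_apply] at this
    linarith
  have hEi : ∀ i, ∃ P', r P' = χ.pt i ∧ E P' = 1 ∧ ∀ P, r P = χ.pt i → P ≠ P' → E P = 0 :=
    fun i => exists_unique_of_mapDomain_apply_eq_one r E _ (fun P _ => hEnn P)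
      (by rw [hrE, Flip.sumP_apply_self χ.pt χ.inj])
  choose P' hP'r hP'1 hP'0 using hEi
  have hP'inj : Function.Injective P' := by
    intro i j hij
    apply χ.inj
    rw [← hP'r i, ← hP'r j, hij]
  have hEeq : E = sumP P' := by
    ext Q
    rw [Flip.sumP_apply P' hP'inj]
    split_ifs with hQ
    · obtain ⟨i, rfl⟩ := hQ
      exact hP'1 i
    · by_cases hrQ : r Q ∈ Set.range χ.pt
      · obtain ⟨i, hi⟩ := hrQ
        exact hP'0 i Q hi.symm fun h => hQ ⟨i, h.symm⟩
      · refine eq_zero_of_mapDomain_apply_eq_zero r E (r Q) (fun P _ => hEnn P) ?_ Q rfl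
        rw [hrE, Flip.sumP_apply χ.pt χ.inj, if_neg hrQ]
  refine ⟨P', hP'r, ?_⟩
  have e : sumP P' - χ.a - D = dv K φ := by
    rw [← hEeq, hE]; abel
  rw [e]
  exact hx.isPrincipal_dv hφ0

theorem Chart.adapted_of_pts (G : Good R r) (χ : Chart R r) {D : Divisor K F}
    {P : Fin (gN K F) → Place K F} (hP : ∀ i, r (P i) = χ.pt i)
    (h : Divisor.IsPrincipal (sumP P - χ.a - D)) : χ.Adapted D := by
  have h1 := isPrincipal_neg (isPrincipal_mapDomain G h)
  have e : -((sumP P - χ.a - D).mapDomain r) = (D + χ.a).mapDomain r - sumP χ.pt := by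
    rw [Flip.mapDomain_sub', Flip.mapDomain_sub', Flip.mapDomain_sumP, Finsupp.mapDomain_add,
      show (fun i => r (P i)) = χ.pt from funext hP]
    abel
  rw [e] at h1
  exact h1

theorem Chart.pts_unique (G : Good R r) (χ : Chart R r) {P P' : Fin (gN K F) → Place K F}
    (hP : ∀ i, r (P i) = χ.pt i) (hP' : ∀ i, r (P' i) = χ.pt i)
    (h : Divisor.IsPrincipal (sumP P - sumP P')) : P = P' := by
  classical
  obtain ⟨x₀, hx⟩ := G.sep
  have hPinj : Function.Injective P := by
    intro i j hij
    apply χ.inj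
    rw [← hP i, ← hP j, hij]
  have hP'inj : Function.Injective P' := by
    intro i j hij
    apply χ.inj
    rw [← hP' i, ← hP' j, hij]
  have hell : ell (sumP P') = 1 := by
    apply le_antisymm
    · have h1 := ell_le_ell_mapDomain G (sumP P')
      rw [Flip.mapDomain_sumP, show (fun i => r (P' i)) = χ.pt from funext hP', χ.ns] at h1
      exact h1
    · have h1 := hx.ell_mono (Flip.sumP_nonneg P')
      rwa [hx.ell_zero] at h1
  obtain ⟨f, hf0, hf⟩ := h
  have hfc : f ∈ Set.range (algebraMap K F) := by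
    refine hx.mem_range_of_ell_eq_one45 (Flip.sumP_nonneg P') hell fun Q => ?_
    rw [← hf Q, Finsupp.sub_apply]
    have := Flip.sumP_nonneg P Q
    simp only [Finsupp.coe_zero, Pi.zero_apply] at this
    linarith
  have heq : ∀ Q, sumP P Q = sumP P' Q := by
    intro Q
    have := hf Q
    rw [ord_of_mem_range Q hfc, Finsupp.sub_apply] at this
    linarith
  funext i
  have h1 := heq (P i)
  rw [Flip.sumP_apply_self P hPinj, Flip.sumP_apply P' hP'inj] at h1
  split_ifs at h1 with hmem
  · obtain ⟨j, hj⟩ := hmem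
    have : j = i := by
      apply χ.inj
      rw [← hP' j, hj, hP i]
    rw [← hj, this]
  · exact absurd h1 one_ne_zero

/-- Existence of charts adapted to a class, in general position with respect to a finite set. -/
theorem exists_chart (G : Good R r) (D : Divisor K F) (hD : Divisor.degree D = 0)
    (T : Set (Place k Fb)) (hT : T.Finite) :
    ∃ χ : Chart R r, χ.Adapted D ∧ (∀ i, χ.pt i ∉ T) ∧ ∀ P, r P ∈ T → χ.a P = 0 := by
  classical
  obtain ⟨y₀, hy⟩ := G.sepb
  obtain ⟨B, hB, hpar⟩ := G.param
  have hgen : (gN K F : ℤ) ≤ gR k Fb := by rw [gN_eq G]; exact G.genus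
  obtain ⟨pt, hinj, hptT, hns⟩ := hy.exists_nonspecial45 (T ∪ B) (hT.union hB) (gN K F) hgen
  obtain ⟨E', hE', hE'av⟩ := exists_equiv_avoid hy (sumP pt - D.mapDomain r)
    (T ∪ Set.range pt) (hT.union (Set.finite_range _))
  obtain ⟨a, ha, haav⟩ := exists_lift_divisor G E'
  have hdeg : Divisor.degree a = gN K F := by
    rw [← degree_mapDomain G a, ha]
    have h0 := hy.degree_eq_zero_of_isPrincipal hE'
    rw [map_sub, map_sub, Flip.degree_sumP hy, degree_mapDomain G, hD] at h0
    linarith
  refine ⟨⟨pt, hinj, hns, fun i => hpar _ fun h => hptT i (Or.inr h), a, hdeg,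
    fun P i h => haav P (by rw [h]; exact hE'av _ (Or.inr ⟨i, rfl⟩))⟩, ?_,
    fun i h => hptT i (Or.inl h), fun P hP => haav P (hE'av _ (Or.inl hP))⟩
  change Divisor.IsPrincipal ((D + a).mapDomain r - sumP pt)
  have e : (D + a).mapDomain r - sumP pt = E' - (sumP pt - D.mapDomain r) := by
    rw [Finsupp.mapDomain_add, ha]; abel
  rw [e]
  exact hE'

end

end Fermat.Agent.FFG
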