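import Fermat.Agent.FFG.Eqv

/-!
# FFG / Core : the Hopf order of a finite subgroup of `Pic⁰`  (output of the geometric part)

No `sorry` of its own: assembly of `HA.lean` and `Eqv.lean`.
-/

set_option autoImplicit false
set_option linter.unusedSectionVars false

open AlgebraicCurve

namespace Fermat.Agent.FFG

open Fermat.Agent.RED Fermat.Agent.S24

noncomputable section

variable {K F k Fb : Type*} [Field K] [Field F] [Algebra K F] [Field k] [Field Fb] [Algebra k Fb]
variable [IsAlgClosed K] [IsAlgClosed k]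
variable {R : RedData K F k Fb} {r : Place K F → Place k Fb}

/-- **FFG, main output.**  `V` a finite abelian group, `y : V → Div⁰` additive and injective modulo principal divisors.
`H := HA R r y` is a Hopf order of `V → K` over `A = constRing R`, two points of `V` are congruent modulo the maximal ideal
iff they have the same reduction, and `H` is generated by finitely many functions equivariant under `II`. -/
theorem core (G : Good R r) (II : Set (SemilinearAut K F))
    (hr : ∀ γ ∈ II, ∀ P, r (γ • P) = r P)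
    (hpar : ∃ B : Set (Place k Fb), B.Finite ∧ ∀ Q, Q ∉ B →
      ∃ T : F, IsLocalParam R.O R.red r Q T ∧ ∀ γ ∈ II, γ • T = T)
    {V : Type*} [AddCommGroup V] [Finite V] (y : V → Divisor K F)
    (hy : ∀ v, Divisor.degree (y v) = 0)
    (hinj : ∀ v w, Divisor.IsPrincipal (y v - y w) → v = w)
    (hadd : ∀ v w, Divisor.IsPrincipal (y v + y w - y (v + w))) :
    IsOrd (constRing R) (HA R r y) ∧
    (∀ φ ∈ HA R r y, (fun p : V × V => φ (p.1 + p.2)) ∈ prodOrd (HA R r y) (HA R r y)) ∧
    (∀ φ ∈ HA R r y, (fun v => φ (-v)) ∈ HA R r y) ∧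
    (∀ v w, (∀ φ ∈ HA R r y, (constRing R).valuation (φ v - φ w) < 1) ↔ SameRed r (y v) (y w)) ∧
    ∃ X : Set (V → K), X.Finite ∧ HA R r y = genOrd (constRing R) X ∧
      ∀ φ ∈ X, ∀ γ ∈ II, ∀ a : V → V, (∀ v, Divisor.IsPrincipal (y (a v) - γ • y v)) →
        ∀ v, φ (a v) = SemilinearAut.baseAut γ (φ v) := by
  refine ⟨isOrd_HA G hy hinj, HA_add G hy hy hy hinj hinj (fun p => p.1 + p.2) (fun p => hadd p.1 p.2),
    HA_neg G hy hy hinj (fun v => -v) (fun v => ?_), HA_residue G hy,
    HA_eq_genOrd_fixed G II hr hpar hy hinj⟩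
  -- `- y v ∼ y (-v)`
  have h1 := hadd v (-v)
  have h2 := hadd 0 0
  rw [add_neg_cancel] at h1
  rw [add_zero] at h2
  have e : - y v - y (-v) = - (y v + y (-v) - y 0) - (y 0 + y 0 - y 0) := by abel
  rw [e]
  exact (Divisor.principal (K := K) (F := F)).sub_mem
    ((Divisor.principal (K := K) (F := F)).neg_mem h1) h2

end

end Fermat.Agent.FFG
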