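import Fermat.Agent.FFG.Order
import Fermat.Agent.RED.NonSpecial
import Fermat.Agent.RED.S18.Kummer
import Fermat.Agent.RED.GalEq.Abstract

/-!
# FFG / Defs : the abstract setting of the finite flat model of a finite subgroup of `Pic⁰`

`F / K` a function field with a good constant reduction `(R, r)` (`R : RedData K F k Fb`,
`r : Place K F → Place k Fb` Deuring's reduction of places).  `A := constRing R` is the valuation
ring of the constants.

* `ev P f`        : the value of `f` at the place `P`;
* `RegFib R r Q f`: `f` is Gauss-integral and has no pole in the residue disc `r⁻¹ Q`;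
* `IsFam R r S Q P`: `P : Z → Place K F` is a family of points of the residue disc of `Q` which is
                    "`S`-integral": all regular functions evaluated along `P` lie in the order `S`;
* `Chart R r`     : `g` distinct points of the special fibre forming a non-special divisor, with
                    local parameters, and a base divisor `a` of degree `g` (away from these discs);
* `IsIntFam S χ y`: the family of degree zero divisors `y z` is `∼ ∑ P_i z - χ.a` with `S`-integral
                    families `P_i` over the points of the chart.
-/

set_option autoImplicit false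

open AlgebraicCurve

namespace Fermat.Agent.FFG

open Fermat.Agent.RED Fermat.Agent.S24

noncomputable section

variable {K F k Fb : Type*} [Field K] [Field F] [Algebra K F] [Field k] [Field Fb] [Algebra k Fb]

/-- The valuation ring of the constants. -/
def constRing (R : RedData K F k Fb) : ValuationSubring K := R.O.comap (algebraMap K F)

theorem mem_constRing {R : RedData K F k Fb} {a : K} :
    a ∈ constRing R ↔ algebraMap K F a ∈ R.O := Iff.rfl

open Classical in
/-- The value of `f` at the place `P` (junk value `0` if `f` has a pole at `P`). -/
def ev (P : Place K F) (f : F) : K :=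
  if h : ∃ c : K, f = algebraMap K F c ∨ 0 < P.ord (f - algebraMap K F c) then h.choose else 0

/-- `f` is Gauss-integral and regular along the residue disc of `Q`. -/
def RegFib (R : RedData K F k Fb) (r : Place K F → Place k Fb) (Q : Place k Fb) (f : F) : Prop :=
  f ∈ R.O ∧ ∀ P, r P = Q → 0 ≤ P.ord f

/-- An `S`-integral family of points of the residue disc of `Q`. -/
structure IsFam (R : RedData K F k Fb) (r : Place K F → Place k Fb) {Z : Type*}
    (S : Subring (Z → K)) (Q : Place k Fb) (P : Z → Place K F) : Prop where
  fib : ∀ z, r (P z) = Q
  mem : ∀ f, RegFib R r Q f → (fun z => ev (P z) f) ∈ S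

/-- Good reduction, abstract form. -/
structure Good (R : RedData K F k Fb) (r : Place K F → Place k Fb) : Prop where
  sep : ∃ x₀ : F, IsSepParam K x₀
  sepb : ∃ y₀ : Fb, IsSepParam k y₀
  p1 : GalEq.IsP1 R r
  surj : Function.Surjective r
  on : ∀ V : Submodule K F, FiniteDimensional K V →
    Module.finrank K V ≤ Module.finrank k (R.redSub V)
  genus : gR K F ≤ gR k Fb
  arch : IsArch (constRing R)
  param : ∃ B : Set (Place k Fb), B.Finite ∧
    ∀ Q, Q ∉ B → ∃ T : F, IsLocalParam R.O R.red r Q T

variable (K F) in
/-- The genus as a natural number. -/
def gN : ℕ := (gR K F).toNat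

/-- The reduced effective divisor attached to a family of places. -/
def sumP {E E' : Type*} [Field E] [Field E'] [Algebra E E'] {n : ℕ} (P : Fin n → Place E E') :
    Divisor E E' := ∑ i, Finsupp.single (P i) (1 : ℤ)

/-- A chart of `Pic^g` around a non-special reduced divisor of the special fibre. -/
structure Chart (R : RedData K F k Fb) (r : Place K F → Place k Fb) where
  pt : Fin (gN K F) → Place k Fb
  inj : Function.Injective pt
  ns : ell (sumP pt) = 1
  par : ∀ i, ∃ T : F, IsLocalParam R.O R.red r (pt i) T
  a : Divisor K F
  deg_a : Divisor.degree a = gN K F
  avoid : ∀ P i, r P = pt i → a P = 0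

variable {R : RedData K F k Fb} {r : Place K F → Place k Fb}

/-- The chart `χ` is adapted to the degree zero divisor `D`: the class of `D + χ.a` reduces to the
class of the centre of the chart. -/
def Chart.Adapted (χ : Chart R r) (D : Divisor K F) : Prop :=
  Divisor.IsPrincipal ((D + χ.a).mapDomain r - sumP χ.pt)

/-- `y` is an `S`-integral family of divisor classes, in the chart `χ`. -/
def IsIntFam {Z : Type*} (S : Subring (Z → K)) (χ : Chart R r) (y : Z → Divisor K F) : Prop :=
  ∃ P : Fin (gN K F) → Z → Place K F, (∀ i, IsFam R r S (χ.pt i) (P i)) ∧
    ∀ z, Divisor.IsPrincipal (sumP (fun i => P i z) - χ.a - y z)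

end

end Fermat.Agent.FFG
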