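import Fermat.Agent.FFG.HA

/-!
# FFG / Eqv : `HA` is generated by equivariant functions                              [WP EQV]

`II` is a set of semilinear automorphisms of `F / K` acting trivially on the special fibre (`hr : r (γ • P) = r P`; for the
modular function fields: the inertia group, `GalEq.placeMap_smul` with `γb = 1`), and almost every point of the special
fibre has an `II`-fixed local parameter (`T = j - c`, `c` an `II`-fixed lift).

PAPER PROOFS.
* `ev_smul`: `ord_{γ P} (γ f - γ c) = ord_P (f - c)` (`SemilinearAut.ord_smul`, `smul_algebraMap`) and uniqueness of the value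
  (`ev_eq_of_van` in Eval).  Case of a pole: both sides are the junk value `0`.
* `exists_fixed_place`: `P` := the point of the disc of `Q` with `ev P T = 0` (`exists_place_ev_eq`);
  `ev (γ • P) T = ev (γ • P) (γ • T) = γ 0 = 0` and `r (γ • P) = Q`, so `γ • P = P` (`eq_of_ev_param_eq`).
* `exists_chart_fixed`: the proof of `exists_chart`, with the bad set `B` of `hpar` added to `T` in the choice of `pt`
  AND in the moving lemma (`E'` avoids `T ∪ range pt ∪ B`), and the lift `χ.a := E'.mapDomain s`, `s Q` := the fixed place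
  over `Q` for `Q ∉ B` (anything for `Q ∈ B`).  `γ • χ.a = χ.a` because `γ` fixes every point of the support.
* `HA_eq_genOrd_fixed`: for every `z₀` choose (`exists_chart_fixed`) a fixed chart `χ_{z₀}` adapted to `y z₀`, fixed parameters
  `T_{z₀,i}` and the points `P_{z₀} i z` of `freeze r y z₀ z`.
  `X := {clsInd r y z₀} ∪ {clsInd r y z₀ * (z ↦ ev (P_{z₀} i z) T_{z₀,i})}`.
  `genOrd X ≤ HA y`: products of generators.  `HA y ≤ genOrd X =: S`: `S` is an order (`isOrd_genOrd`, separation as in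
  `isOrd_HA`), `z ↦ ev (P_{z₀} i z) T = e * (..) + (1 - e) * const ∈ S`, so `IsFam` by `isFam_of_param`, so `IsInt R r S y`; `HA_le`.
  Equivariance: let `y (a z) ∼ γ • y z`.  `(γ • D).mapDomain r = D.mapDomain r` (`GalEq.mapDomain_smul_of_placeMap` with `γb = 1`), so
  `SameRed (y (a z)) (y z)`: `a` preserves the classes and `clsInd (a z) = clsInd z ∈ {0,1}`.  On the class of `z₀`:
  `∑ γ • P i z - χ.a ∼ γ • y z ∼ y (a z)`, `r (γ • P i z) = χ.pt i`, so `P i (a z) = γ • P i z` (`Chart.pts_unique`) and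
  `ev (P i (a z)) T = ev (γ • P i z) (γ • T) = γ (ev (P i z) T)`.
-/

set_option autoImplicit false
set_option linter.unusedSectionVars false

open AlgebraicCurve

namespace Fermat.Agent.FFG

open Fermat.Agent.RED Fermat.Agent.S24

noncomputable section

variable {K F k Fb : Type*} [Field K] [Field F] [Algebra K F] [Field k] [Field Fb] [Algebra k Fb]
variable [IsAlgClosed K] [IsAlgClosed k]
variable {R : RedData K F k Fb} {r : Place K F → Place k Fb}
variable {Z : Type*} [Finite Z]

namespace EqvAux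

theorem hasVal_smul_iff (γ : SemilinearAut K F) (P : Place K F) (f : F) (c : K) :
    (γ • f = algebraMap K F (SemilinearAut.baseAut γ c) ∨
      0 < (γ • P).ord (γ • f - algebraMap K F (SemilinearAut.baseAut γ c))) ↔
    (f = algebraMap K F c ∨ 0 < P.ord (f - algebraMap K F c)) := by
  rw [← SemilinearAut.smul_algebraMap, ← smul_sub, SemilinearAut.ord_smul]
  exact or_congr (MulAction.injective γ).eq_iff Iff.rfl

theorem smul_sumP (γ : SemilinearAut K F) {n : ℕ} (p : Fin n → Place K F) :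
    γ • sumP p = sumP (fun i => γ • p i) := by
  unfold sumP
  rw [Finset.smul_sum]
  exact Finset.sum_congr rfl fun i _ => SemilinearAut.smul_single γ _ _

theorem mapDomain_smul_eq {γ : SemilinearAut K F} (hr : ∀ P, r (γ • P) = r P) (D : Divisor K F) :
    (γ • D).mapDomain r = D.mapDomain r := by
  rw [SemilinearAut.divisor_smul_def, ← Finsupp.mapDomain_comp]
  congr 1
  funext P
  exact hr P

theorem sameRed_smul {γ : SemilinearAut K F} (hr : ∀ P, r (γ • P) = r P) (D : Divisor K F) :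
    SameRed r (γ • D) D := by
  unfold SameRed
  rw [Flip.mapDomain_sub', mapDomain_smul_eq hr, sub_self]
  exact Divisor.principal.zero_mem

theorem cl_smul_eq_zero (γ : SemilinearAut K F) {D : Divisor K F} (h : TransAux.cl D = 0) :
    TransAux.cl (γ • D) = 0 := by
  rw [TransAux.cl_eq_zero] at h ⊢
  exact SemilinearAut.smul_mem_principal γ h

end EqvAux

open EqvAux TransAux

theorem ev_smul (γ : SemilinearAut K F) (P : Place K F) (f : F) :
    ev (γ • P) (γ • f) = SemilinearAut.baseAut γ (ev P f) := by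
  by_cases h : ∃ c : K, f = algebraMap K F c ∨ 0 < P.ord (f - algebraMap K F c)
  · obtain ⟨c, hc⟩ := h
    rw [ev_eq_of P hc]
    exact ev_eq_of _ ((hasVal_smul_iff γ P f c).2 hc)
  · have h' : ¬ ∃ c : K, γ • f = algebraMap K F c ∨ 0 < (γ • P).ord (γ • f - algebraMap K F c) := by
      rintro ⟨c, hc⟩
      apply h
      refine ⟨(SemilinearAut.baseAut γ).symm c, (hasVal_smul_iff γ P f _).1 ?_⟩
      rwa [RingEquiv.apply_symm_apply]
    rw [ev, dif_neg h', ev, dif_neg h, map_zero]

theorem exists_fixed_place (G : Good R r) (II : Set (SemilinearAut K F))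
    (hr : ∀ γ ∈ II, ∀ P, r (γ • P) = r P) {Q : Place k Fb} {T : F}
    (hT : IsLocalParam R.O R.red r Q T) (hfix : ∀ γ ∈ II, γ • T = T) :
    ∃ P : Place K F, r P = Q ∧ ∀ γ ∈ II, γ • P = P := by
  obtain ⟨P, hP, hev⟩ := exists_place_ev_eq G hT (a := 0) (by simp)
  refine ⟨P, hP, fun γ hγ => ?_⟩
  refine eq_of_ev_param_eq G hT (by rw [hr γ hγ, hP]) hP ?_
  have h1 := ev_smul γ P T
  rw [hfix γ hγ, hev, map_zero] at h1
  rw [h1, hev]

theorem exists_chart_fixed (G : Good R r) (II : Set (SemilinearAut K F))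
    (hr : ∀ γ ∈ II, ∀ P, r (γ • P) = r P)
    (hpar : ∃ B : Set (Place k Fb), B.Finite ∧ ∀ Q, Q ∉ B →
      ∃ T : F, IsLocalParam R.O R.red r Q T ∧ ∀ γ ∈ II, γ • T = T)
    (D : Divisor K F) (hD : Divisor.degree D = 0) (T : Set (Place k Fb)) (hT : T.Finite) :
    ∃ χ : Chart R r, χ.Adapted D ∧ (∀ i, χ.pt i ∉ T) ∧ (∀ P, r P ∈ T → χ.a P = 0) ∧
      (∀ γ ∈ II, γ • χ.a = χ.a) ∧
      ∀ i, ∃ T : F, IsLocalParam R.O R.red r (χ.pt i) T ∧ ∀ γ ∈ II, γ • T = T := by
  classical
  obtain ⟨y₀, hy⟩ := G.sepb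
  obtain ⟨B, hB, hpar⟩ := hpar
  have hgen : (gN K F : ℤ) ≤ gR k Fb := by rw [gN_eq G]; exact G.genus
  obtain ⟨pt, hinj, hptT, hns⟩ := hy.exists_nonspecial45 (T ∪ B) (hT.union hB) (gN K F) hgen
  obtain ⟨E', hE', hE'av⟩ := exists_equiv_avoid hy (sumP pt - D.mapDomain r)
    (T ∪ Set.range pt ∪ B) ((hT.union (Set.finite_range _)).union hB)
  -- the section
  have hsec : ∀ Q : Place k Fb, ∃ P : Place K F, r P = Q ∧ (Q ∉ B → ∀ γ ∈ II, γ • P = P) := by
    intro Q
    by_cases hQ : Q ∈ B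
    · obtain ⟨P, hP⟩ := G.surj Q
      exact ⟨P, hP, fun h => absurd hQ h⟩
    · obtain ⟨T', hT', hfix⟩ := hpar Q hQ
      obtain ⟨P, hP, hPfix⟩ := exists_fixed_place G II hr hT' hfix
      exact ⟨P, hP, fun _ => hPfix⟩
  choose s hs hsfix using hsec
  set a : Divisor K F := E'.mapDomain s with ha_def
  have ha : a.mapDomain r = E' := by
    rw [ha_def, ← Finsupp.mapDomain_comp]
    have : r ∘ s = id := funext hs
    rw [this, Finsupp.mapDomain_id]
  have haav : ∀ P, E' (r P) = 0 → a P = 0 := by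
    intro P hP
    refine mapDomain_apply_eq_zero _ E' P fun Q hQ => ?_
    have : Q = r P := by rw [← hQ, hs Q]
    rw [this, hP]
  have hafix : ∀ γ ∈ II, γ • a = a := by
    intro γ hγ
    rw [SemilinearAut.divisor_smul_def, ha_def, ← Finsupp.mapDomain_comp]
    refine Finsupp.mapDomain_congr fun Q hQ => ?_
    have hQB : Q ∉ B := fun h => (Finsupp.mem_support_iff.1 hQ) (hE'av Q (Or.inr h))
    exact hsfix Q hQB γ hγ
  have hdeg : Divisor.degree a = gN K F := by
    rw [← degree_mapDomain G a, ha]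
    have h0 := hy.degree_eq_zero_of_isPrincipal hE'
    rw [map_sub, map_sub, Flip.degree_sumP hy, degree_mapDomain G, hD] at h0
    linarith
  have hptB : ∀ i, pt i ∉ B := fun i h => hptT i (Or.inr h)
  refine ⟨⟨pt, hinj, hns, fun i => (hpar _ (hptB i)).imp fun _ h => h.1, a, hdeg,
    fun P i h => haav P (by rw [h]; exact hE'av _ (Or.inl (Or.inr ⟨i, rfl⟩)))⟩, ?_,
    fun i h => hptT i (Or.inl h), fun P hP => haav P (hE'av _ (Or.inl (Or.inl hP))), hafix,
    fun i => hpar _ (hptB i)⟩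
  change Divisor.IsPrincipal ((D + a).mapDomain r - sumP pt)
  have e : (D + a).mapDomain r - sumP pt = E' - (sumP pt - D.mapDomain r) := by
    rw [Finsupp.mapDomain_add, ha]; abel
  rw [e]
  exact hE'

/-- `HA` is generated by `II`-equivariant functions. -/
theorem HA_eq_genOrd_fixed (G : Good R r) (II : Set (SemilinearAut K F))
    (hr : ∀ γ ∈ II, ∀ P, r (γ • P) = r P)
    (hpar : ∃ B : Set (Place k Fb), B.Finite ∧ ∀ Q, Q ∉ B →
      ∃ T : F, IsLocalParam R.O R.red r Q T ∧ ∀ γ ∈ II, γ • T = T)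
    {y : Z → Divisor K F} (hy : ∀ z, Divisor.degree (y z) = 0)
    (hinj : ∀ z z', Divisor.IsPrincipal (y z - y z') → z = z') :
    ∃ X : Set (Z → K), X.Finite ∧ HA R r y = genOrd (constRing R) X ∧
      ∀ φ ∈ X, ∀ γ ∈ II, ∀ a : Z → Z, (∀ z, Divisor.IsPrincipal (y (a z) - γ • y z)) →
        ∀ z, φ (a z) = SemilinearAut.baseAut γ (φ z) := by
  classical
  -- the fixed charts
  have hch : ∀ z₀ : Z, ∃ χ : Chart R r, χ.Adapted (y z₀) ∧ (∀ γ ∈ II, γ • χ.a = χ.a) ∧
      ∀ i, ∃ T : F, IsLocalParam R.O R.red r (χ.pt i) T ∧ ∀ γ ∈ II, γ • T = T := by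
    intro z₀
    obtain ⟨χ, h1, -, -, h2, h3⟩ := exists_chart_fixed G II hr hpar (y z₀) (hy z₀) ∅
      Set.finite_empty
    exact ⟨χ, h1, h2, h3⟩
  choose χ hχad hχfix hχT using hch
  choose T hT hTfix using hχT
  have hpts : ∀ z₀ z : Z, ∃ P : Fin (gN K F) → Place K F, (∀ i, r (P i) = (χ z₀).pt i) ∧
      Divisor.IsPrincipal (sumP P - (χ z₀).a - freeze r y z₀ z) := fun z₀ z =>
    (χ z₀).exists_pts G (IntAux.degree_freeze hy z₀ z)
      ((hχad z₀).of_sameRed (sameRed_freeze y z₀ z).symm)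
  choose Pt hPtr hPtpr using hpts
  -- coordinates
  set co : Z → Fin (gN K F) → Z → K := fun z₀ i z => ev (Pt z₀ z i) (T z₀ i) with hco
  set X : Set (Z → K) := Set.range (fun z₀ => clsInd r y z₀) ∪
    Set.range (fun p : Z × Fin (gN K F) => clsInd r y p.1 * co p.1 p.2) with hX
  have hXfin : X.Finite := (Set.finite_range _).union (Set.finite_range _)
  have hcoA : ∀ z₀ i z, co z₀ i z ∈ constRing R := fun z₀ i z =>
    ev_mem_constRing G (regFib_of_param (hT z₀ i)) (hPtr z₀ z i)
  have hclsA : ∀ z₀ z, clsInd r y z₀ z ∈ constRing R := by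
    intro z₀ z
    unfold clsInd
    split_ifs
    · exact (constRing R).one_mem
    · exact (constRing R).zero_mem
  -- off the class the points are those of `z₀`
  have hoff : ∀ z₀ z, ¬ SameRed r (y z) (y z₀) → Pt z₀ z = Pt z₀ z₀ := by
    intro z₀ z hz
    refine (χ z₀).pts_unique G (hPtr z₀ z) (hPtr z₀ z₀) ?_
    have h1 := hPtpr z₀ z
    have h2 := hPtpr z₀ z₀
    rw [IntAux.freeze_of_not hz, ← cl_eq_zero, map_sub, map_sub] at h1
    rw [IntAux.freeze_of_sameRed (SameRed.refl _), ← cl_eq_zero, map_sub, map_sub] at h2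
    rw [← cl_eq_zero, map_sub]
    linear_combination (norm := abel) h1 - h2
  have hSord : IsOrd (constRing R) (genOrd (constRing R) X) := by
    refine isOrd_genOrd X ?_ ?_
    · rintro φ (⟨z₀, rfl⟩ | ⟨⟨z₀, i⟩, rfl⟩) z
      · exact hclsA z₀ z
      · exact (constRing R).mul_mem _ _ (hclsA z₀ z) (hcoA z₀ i z)
    · intro z z' hzz'
      by_cases hs : SameRed r (y z') (y z)
      · by_contra hcon
        push Not at hcon
        apply hzz'
        apply hinj
        have hPeq : Pt z z = Pt z z' := by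
          funext i
          refine eq_of_ev_param_eq G (hT z i) (hPtr z z i) (hPtr z z' i) ?_
          have := hcon (clsInd r y z * co z i) (Or.inr ⟨(z, i), rfl⟩)
          rw [Pi.mul_apply, Pi.mul_apply, IntAux.clsInd_of_sameRed (SameRed.refl _),
            IntAux.clsInd_of_sameRed hs, one_mul, one_mul] at this
          exact this
        have h1 := hPtpr z z
        have h2 := hPtpr z z'
        rw [IntAux.freeze_of_sameRed (SameRed.refl _), ← cl_eq_zero, map_sub, map_sub] at h1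
        rw [IntAux.freeze_of_sameRed hs, ← hPeq, ← cl_eq_zero, map_sub, map_sub] at h2
        rw [← cl_eq_zero, map_sub]
        linear_combination (norm := abel) h2 - h1
      · refine ⟨clsInd r y z, Or.inl ⟨z, rfl⟩, ?_⟩
        rw [IntAux.clsInd_of_sameRed (SameRed.refl _), IntAux.clsInd_of_not hs]
        exact one_ne_zero
  have hXmem : ∀ φ ∈ X, φ ∈ genOrd (constRing R) X := fun φ h =>
    Subring.subset_closure (Or.inr h)
  have hcoS : ∀ z₀ i, co z₀ i ∈ genOrd (constRing R) X := by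
    intro z₀ i
    have e : co z₀ i = clsInd r y z₀ * co z₀ i +
        (1 - clsInd r y z₀) * (fun _ => co z₀ i z₀) := by
      funext z
      rw [Pi.add_apply, Pi.mul_apply, Pi.mul_apply, Pi.sub_apply, Pi.one_apply]
      by_cases hz : SameRed r (y z) (y z₀)
      · rw [IntAux.clsInd_of_sameRed hz]; ring
      · rw [IntAux.clsInd_of_not hz]
        have : co z₀ i z = co z₀ i z₀ := by
          rw [hco]
          show ev (Pt z₀ z i) (T z₀ i) = ev (Pt z₀ z₀ i) (T z₀ i)
          rw [hoff z₀ z hz]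
        rw [this]; ring
    rw [e]
    exact Subring.add_mem _ (hXmem _ (Or.inr ⟨(z₀, i), rfl⟩))
      (Subring.mul_mem _ (Subring.sub_mem _ (Subring.one_mem _) (hXmem _ (Or.inl ⟨z₀, rfl⟩)))
        (hSord.const _ (hcoA z₀ i z₀)))
  have hInt : IsInt R r (genOrd (constRing R) X) y := by
    refine ⟨fun z₀ => hXmem _ (Or.inl ⟨z₀, rfl⟩), fun z₀ => ⟨χ z₀, fun i z => Pt z₀ z i,
      fun i => isFam_of_param G hSord (hT z₀ i) _ (fun z => hPtr z₀ z i) (hcoS z₀ i),
      fun z => hPtpr z₀ z⟩⟩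
  refine ⟨X, hXfin, le_antisymm (HA_le G hy hSord hInt) ?_, ?_⟩
  · refine genOrd_le (isOrd_HA G hy hinj) ?_
    have hcl : ∀ z₀, clsInd r y z₀ ∈ HA R r y := fun z₀ =>
      Subring.subset_closure (Or.inr (Or.inl ⟨z₀, rfl⟩))
    rintro φ (⟨z₀, rfl⟩ | ⟨⟨z₀, i⟩, rfl⟩)
    · exact hcl z₀
    · refine Subring.mul_mem _ (hcl z₀) (Subring.subset_closure (Or.inr (Or.inr ?_)))
      exact ⟨z₀, χ z₀, fun i z => Pt z₀ z i, i, T z₀ i, fun i z => hPtr z₀ z i,
        fun z => hPtpr z₀ z, regFib_of_param (hT z₀ i), rfl⟩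
  · intro φ hφ γ hγ a ha z
    have hsame : SameRed r (y (a z)) (y z) :=
      (sameRed_of_isPrincipal G (ha z)).trans (sameRed_smul (hr γ hγ) (y z))
    have hcls : ∀ z₀, clsInd r y z₀ (a z) = clsInd r y z₀ z := by
      intro z₀
      by_cases hz : SameRed r (y z) (y z₀)
      · rw [IntAux.clsInd_of_sameRed hz, IntAux.clsInd_of_sameRed (hsame.trans hz)]
      · rw [IntAux.clsInd_of_not hz, IntAux.clsInd_of_not fun h => hz (hsame.symm.trans h)]
    have hclsγ : ∀ z₀, SemilinearAut.baseAut γ (clsInd r y z₀ z) = clsInd r y z₀ z := by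
      intro z₀
      unfold clsInd
      split_ifs
      · exact map_one _
      · exact map_zero _
    rcases hφ with ⟨z₀, rfl⟩ | ⟨⟨z₀, i⟩, rfl⟩
    · show clsInd r y z₀ (a z) = _
      rw [hcls, hclsγ]
    · show clsInd r y z₀ (a z) * co z₀ i (a z) =
        SemilinearAut.baseAut γ (clsInd r y z₀ z * co z₀ i z)
      rw [map_mul, hclsγ, hcls]
      by_cases hz : SameRed r (y z) (y z₀)
      · congr 1
        have hPeq : (fun i => γ • Pt z₀ z i) = Pt z₀ (a z) := by
          refine (χ z₀).pts_unique G (fun i => by rw [hr γ hγ, hPtr z₀ z i]) (hPtr z₀ (a z)) ?_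
          have h1 := hPtpr z₀ z
          have h2 := hPtpr z₀ (a z)
          have h3 := ha z
          rw [IntAux.freeze_of_sameRed hz, ← cl_eq_zero] at h1
          have h1' := cl_smul_eq_zero γ h1
          rw [smul_sub, smul_sub, smul_sumP, hχfix z₀ γ hγ, map_sub, map_sub] at h1'
          rw [IntAux.freeze_of_sameRed (hsame.trans hz), ← cl_eq_zero, map_sub, map_sub] at h2
          rw [← cl_eq_zero, map_sub] at h3
          rw [← cl_eq_zero, map_sub]
          linear_combination (norm := abel) h1' - h2 - h3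
        show ev (Pt z₀ (a z) i) (T z₀ i) = SemilinearAut.baseAut γ (ev (Pt z₀ z i) (T z₀ i))
        rw [← ev_smul, hTfix z₀ i γ hγ, ← hPeq]
      · rw [IntAux.clsInd_of_not hz, zero_mul, zero_mul]

end

end Fermat.Agent.FFG
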