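import Fermat.Agent.FFG.Defs

/-!
# FFG / Eval : evaluation at places, Taylor expansion with integral remainder     [WP EV]

Setting of `FFG/Defs.lean`.  All proofs are short consequences of helper45's `RED/TorsionInj.lean`
((A) `ord_rd_nonneg`, (B) `val_value_le_one`, `rd_sub_value`, (C) `IsLocalParam.exists_shift`).

PAPER PROOFS.
* `ev` is the residue map of the DVR of `P` followed by `residue field = K`; uniqueness of the value:
  a nonzero constant has `ord = 0`.
* `exists_place_ev_eq`: `T - a` is a Gauss unit with reduction `rd T`, so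
  `∑_{r P = Q} ord_P (T - a) = ord_Q (rd T) = 1` with nonnegative terms (`div_red`,
  `exists_unique_of_mapDomain_apply_eq_one`).
* `exists_taylor`: let `P₀` be the place of the disc with `ev P₀ T = 0`.  If `f` is regular along the
  disc, `c := ev P₀ f ∈ A` by (B) and `w := (f - c) / T` is again regular along the disc: `T` is a Gauss
  unit, its only zero in the disc is the simple zero `P₀`, where `f - c` vanishes.  Iterate.
* `isFam_of_param`: `t z := ev (P z) T` lies in the maximal ideal; pick `π` (`exists_bound`) with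
  `t z ∈ π A`.  `ev (P z) f = ∑_{i<n} c_i (t z)^i + (t z)^n * ev (P z) (w n)`, the last factor is in
  `A` by (B): conclude by `IsOrd.mem_of_approx`.
-/

set_option autoImplicit false
set_option linter.unusedSectionVars false

open AlgebraicCurve

namespace Fermat.Agent.FFG

open Fermat.Agent.RED Fermat.Agent.S24

noncomputable section

variable {K F k Fb : Type*} [Field K] [Field F] [Algebra K F] [Field k] [Field Fb] [Algebra k Fb]
variable [IsAlgClosed K] [IsAlgClosed k]
variable {R : RedData K F k Fb} {r : Place K F → Place k Fb}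

theorem Good.isReduction (G : Good R r) : IsReduction R.O R.red r := by
  obtain ⟨x₀, hx⟩ := G.sep
  exact R.isReduction hx r G.p1

section Van

variable {E E' : Type*} [Field E] [Field E'] [Algebra E E']

/-- `x` vanishes at the place `P`. -/
def Van (P : Place E E') (x : E') : Prop := x = 0 ∨ 0 < P.ord x

theorem Van.zero (P : Place E E') : Van P (0 : E') := Or.inl rfl

theorem Van.ord_nonneg {P : Place E E'} {x : E'} (h : Van P x) : 0 ≤ P.ord x := by
  rcases h with rfl | h
  · simp
  · exact h.le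

theorem Van.add {P : Place E E'} {x y : E'} (hx : Van P x) (hy : Van P y) : Van P (x + y) := by
  rcases hx with rfl | hx
  · simpa using hy
  rcases hy with rfl | hy
  · rw [add_zero]; exact Or.inr hx
  by_cases h0 : x + y = 0
  · exact Or.inl h0
  · right
    have hx0 : x ≠ 0 := ne_zero_of_ord_ne_zero P hx.ne'
    have hy0 : y ≠ 0 := ne_zero_of_ord_ne_zero P hy.ne'
    exact lt_of_lt_of_le (lt_min hx hy) (S24.Place.ord_add_ge P hx0 hy0 h0)

theorem Van.neg {P : Place E E'} {x : E'} (hx : Van P x) : Van P (-x) := by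
  rcases hx with rfl | hx
  · simpa using Van.zero P
  · right; rwa [S24.Place.ord_neg]

theorem Van.sub {P : Place E E'} {x y : E'} (hx : Van P x) (hy : Van P y) : Van P (x - y) := by
  rw [sub_eq_add_neg]; exact hx.add hy.neg

theorem Van.mul_right {P : Place E E'} {x y : E'} (hx : Van P x) (hy : 0 ≤ P.ord y) :
    Van P (x * y) := by
  rcases hx with rfl | hx
  · left; simp
  by_cases hy0 : y = 0
  · left; simp [hy0]
  · right
    rw [P.ord_mul (ne_zero_of_ord_ne_zero P hx.ne') hy0]
    omega

theorem Van.mul_left {P : Place E E'} {x y : E'} (hx : Van P x) (hy : 0 ≤ P.ord y) :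
    Van P (y * x) := by
  rw [mul_comm]; exact hx.mul_right hy

theorem Van.const_eq_zero {P : Place E E'} {c : E} (h : Van P (algebraMap E E' c)) : c = 0 := by
  rcases h with h | h
  · simpa using h
  · rw [S24.Place.ord_algebraMap] at h
    exact absurd h (lt_irrefl _)

theorem van_sub_iff {P : Place E E'} {f : E'} {c : E} :
    Van P (f - algebraMap E E' c) ↔ (f = algebraMap E E' c ∨ 0 < P.ord (f - algebraMap E E' c)) := by
  unfold Van
  rw [sub_eq_zero]

theorem ord_const_nonneg (P : Place E E') (c : E) : 0 ≤ P.ord (algebraMap E E' c) := by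
  rw [S24.Place.ord_algebraMap]

theorem ord_add_nonneg (P : Place E E') {x y : E'} (hx : 0 ≤ P.ord x) (hy : 0 ≤ P.ord y) :
    0 ≤ P.ord (x + y) := ord_add_ge' P le_rfl hx hy

theorem ord_neg_nonneg (P : Place E E') {x : E'} (hx : 0 ≤ P.ord x) : 0 ≤ P.ord (-x) := by
  rwa [S24.Place.ord_neg]

theorem ord_pow_nonneg (P : Place E E') {x : E'} (hx : 0 ≤ P.ord x) (n : ℕ) :
    0 ≤ P.ord (x ^ n) := by
  rw [S24.Place.ord_pow]; positivity

end Van

section ev

theorem ev_eq_of (P : Place K F) {f : F} {c : K}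
    (h : f = algebraMap K F c ∨ 0 < P.ord (f - algebraMap K F c)) : ev P f = c := by
  have hex : ∃ c : K, f = algebraMap K F c ∨ 0 < P.ord (f - algebraMap K F c) := ⟨c, h⟩
  rw [ev, dif_pos hex]
  have h1 := van_sub_iff.2 hex.choose_spec
  have h2 := van_sub_iff.2 h
  have h3 : Van P (algebraMap K F (hex.choose - c)) := by
    have : algebraMap K F (hex.choose - c) =
        (f - algebraMap K F c) - (f - algebraMap K F hex.choose) := by
      rw [map_sub]; ring
    rw [this]
    exact h2.sub h1
  exact sub_eq_zero.1 h3.const_eq_zero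

theorem ev_spec (G : Good R r) (P : Place K F) {f : F} (hf : 0 ≤ P.ord f) :
    f = algebraMap K F (ev P f) ∨ 0 < P.ord (f - algebraMap K F (ev P f)) := by
  have hmem : f ∈ P.toValuationSubring := by
    rcases eq_or_ne f 0 with rfl | h0
    · exact P.toValuationSubring.zero_mem
    · exact (S24.Place.mem_iff_ord_nonneg P h0).mpr hf
  obtain ⟨c, hc⟩ := G.isReduction.exists_value P f hmem
  rw [ev_eq_of P hc]
  exact hc

theorem van_sub_ev (G : Good R r) (P : Place K F) {f : F} (hf : 0 ≤ P.ord f) :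
    Van P (f - algebraMap K F (ev P f)) := van_sub_iff.2 (ev_spec G P hf)

theorem ev_eq_of_van (P : Place K F) {f : F} {c : K} (h : Van P (f - algebraMap K F c)) :
    ev P f = c := ev_eq_of P (van_sub_iff.1 h)

@[simp] theorem ev_algebraMap (P : Place K F) (c : K) : ev P (algebraMap K F c) = c :=
  ev_eq_of P (Or.inl rfl)

theorem ev_add (G : Good R r) (P : Place K F) {f g : F} (hf : 0 ≤ P.ord f) (hg : 0 ≤ P.ord g) :
    ev P (f + g) = ev P f + ev P g := by
  apply ev_eq_of_van
  have : f + g - algebraMap K F (ev P f + ev P g) =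
      (f - algebraMap K F (ev P f)) + (g - algebraMap K F (ev P g)) := by
    rw [map_add]; ring
  rw [this]
  exact (van_sub_ev G P hf).add (van_sub_ev G P hg)

theorem ev_mul (G : Good R r) (P : Place K F) {f g : F} (hf : 0 ≤ P.ord f) (hg : 0 ≤ P.ord g) :
    ev P (f * g) = ev P f * ev P g := by
  apply ev_eq_of_van
  have : f * g - algebraMap K F (ev P f * ev P g) =
      (f - algebraMap K F (ev P f)) * g + algebraMap K F (ev P f) * (g - algebraMap K F (ev P g)) := by
    rw [map_mul]; ring
  rw [this]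
  exact ((van_sub_ev G P hf).mul_right hg).add
    ((van_sub_ev G P hg).mul_left (ord_const_nonneg P _))

theorem ev_neg (G : Good R r) (P : Place K F) {f : F} (hf : 0 ≤ P.ord f) :
    ev P (-f) = - ev P f := by
  apply ev_eq_of_van
  have : -f - algebraMap K F (-ev P f) = -(f - algebraMap K F (ev P f)) := by
    rw [map_neg]; ring
  rw [this]
  exact (van_sub_ev G P hf).neg

theorem ev_sub (G : Good R r) (P : Place K F) {f g : F} (hf : 0 ≤ P.ord f) (hg : 0 ≤ P.ord g) :
    ev P (f - g) = ev P f - ev P g := by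
  rw [sub_eq_add_neg, ev_add G P hf (ord_neg_nonneg P hg), ev_neg G P hg, sub_eq_add_neg]

theorem ev_pow (G : Good R r) (P : Place K F) {f : F} (hf : 0 ≤ P.ord f) (n : ℕ) :
    ev P (f ^ n) = ev P f ^ n := by
  induction n with
  | zero =>
    rw [pow_zero, pow_zero, ← map_one (algebraMap K F), ev_algebraMap]
  | succ n ih =>
    rw [pow_succ, pow_succ, ev_mul G P (ord_pow_nonneg P hf n) hf, ih]

theorem ord_sum_nonneg (P : Place K F) {ι : Type*} (s : Finset ι) (f : ι → F)
    (hf : ∀ i ∈ s, 0 ≤ P.ord (f i)) : 0 ≤ P.ord (∑ i ∈ s, f i) := by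
  classical
  induction s using Finset.induction_on with
  | empty => simp
  | insert a s ha ih =>
    rw [Finset.sum_insert ha]
    exact ord_add_nonneg P (hf a (Finset.mem_insert_self a s))
      (ih fun i hi => hf i (Finset.mem_insert_of_mem hi))

theorem ev_sum (G : Good R r) (P : Place K F) {ι : Type*} (s : Finset ι) (f : ι → F)
    (hf : ∀ i ∈ s, 0 ≤ P.ord (f i)) : ev P (∑ i ∈ s, f i) = ∑ i ∈ s, ev P (f i) := by
  classical
  induction s using Finset.induction_on with
  | empty =>
    rw [Finset.sum_empty, Finset.sum_empty, ← map_zero (algebraMap K F), ev_algebraMap]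
  | insert a s ha ih =>
    rw [Finset.sum_insert ha, Finset.sum_insert ha,
      ev_add G P (hf a (Finset.mem_insert_self a s))
        (ord_sum_nonneg P s f fun i hi => hf i (Finset.mem_insert_of_mem hi)),
      ih fun i hi => hf i (Finset.mem_insert_of_mem hi)]

theorem ev_eq_zero_iff (G : Good R r) (P : Place K F) {f : F} (hf : 0 ≤ P.ord f) :
    ev P f = 0 ↔ f = 0 ∨ 0 < P.ord f := by
  constructor
  · intro h
    have := ev_spec G P hf
    rwa [h, map_zero, sub_zero] at this
  · intro h
    apply ev_eq_of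
    rwa [map_zero, sub_zero]

end ev

section RegFib

variable {Q : Place k Fb}

theorem RegFib.const {a : K} (ha : a ∈ constRing R) : RegFib R r Q (algebraMap K F a) :=
  ⟨ha, fun P _ => ord_const_nonneg P a⟩

theorem RegFib.zero : RegFib R r Q (0 : F) := ⟨R.O.zero_mem, fun P _ => by simp⟩

theorem RegFib.one : RegFib R r Q (1 : F) := ⟨R.O.one_mem, fun P _ => by simp⟩

theorem RegFib.add {f g : F} (hf : RegFib R r Q f) (hg : RegFib R r Q g) :
    RegFib R r Q (f + g) :=
  ⟨R.O.add_mem _ _ hf.1 hg.1, fun P hP => ord_add_nonneg P (hf.2 P hP) (hg.2 P hP)⟩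

theorem RegFib.neg {f : F} (hf : RegFib R r Q f) : RegFib R r Q (-f) :=
  ⟨R.O.neg_mem _ hf.1, fun P hP => ord_neg_nonneg P (hf.2 P hP)⟩

theorem RegFib.sub {f g : F} (hf : RegFib R r Q f) (hg : RegFib R r Q g) :
    RegFib R r Q (f - g) := by
  rw [sub_eq_add_neg]; exact hf.add hg.neg

theorem RegFib.mul {f g : F} (hf : RegFib R r Q f) (hg : RegFib R r Q g) :
    RegFib R r Q (f * g) :=
  ⟨R.O.mul_mem _ _ hf.1 hg.1, fun P hP => ord_mul_nonneg P (hf.2 P hP) (hg.2 P hP)⟩

theorem RegFib.pow {f : F} (hf : RegFib R r Q f) (n : ℕ) : RegFib R r Q (f ^ n) :=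
  ⟨R.O.pow_mem hf.1 n, fun P hP => ord_pow_nonneg P (hf.2 P hP) n⟩

theorem RegFib.sum {ι : Type*} (s : Finset ι) (f : ι → F) (hf : ∀ i ∈ s, RegFib R r Q (f i)) :
    RegFib R r Q (∑ i ∈ s, f i) := by
  classical
  induction s using Finset.induction_on with
  | empty => rw [Finset.sum_empty]; exact RegFib.zero
  | insert a s ha ih =>
    rw [Finset.sum_insert ha]
    exact (hf a (Finset.mem_insert_self a s)).add
      (ih fun i hi => hf i (Finset.mem_insert_of_mem hi))

theorem regFib_of_param {T : F} (hT : IsLocalParam R.O R.red r Q T) : RegFib R r Q T :=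
  ⟨hT.mem, hT.reg⟩

/-- (B): values of regular functions are integral. -/
theorem ev_mem_constRing (G : Good R r) {f : F} (hf : RegFib R r Q f) {P : Place K F}
    (hP : r P = Q) : ev P f ∈ constRing R :=
  mem_constRing.2
    (mem_of_val_le (G.isReduction.val_value_le_one hf.1 hf.2 hP (ev_spec G P (hf.2 P hP))))

theorem val_lt_one_iff_inv_not_mem {E : Type*} [Field E] (A : ValuationSubring E) (a : E) :
    A.valuation a < 1 ↔ a = 0 ∨ a⁻¹ ∉ A := by
  rcases eq_or_ne a 0 with rfl | ha
  · simp
  · rw [← A.valuation_le_one_iff, map_inv₀, not_le, or_iff_right ha,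
      one_lt_inv₀ ((Valuation.pos_iff _).2 ha)]

theorem val_const_lt_one_iff {a : K} :
    (constRing R).valuation a < 1 ↔ R.O.valuation (algebraMap K F a) < 1 := by
  rw [val_lt_one_iff_inv_not_mem, val_lt_one_iff_inv_not_mem, mem_constRing, map_inv₀,
    map_eq_zero]

theorem val_const_le_one_iff {a : K} :
    (constRing R).valuation a ≤ 1 ↔ R.O.valuation (algebraMap K F a) ≤ 1 := by
  rw [ValuationSubring.valuation_le_one_iff, ValuationSubring.valuation_le_one_iff, mem_constRing]

theorem val_const_eq_one_iff {a : K} :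
    (constRing R).valuation a = 1 ↔ R.O.valuation (algebraMap K F a) = 1 := by
  have h1 := val_const_le_one_iff (R := R) (a := a)
  have h2 := val_const_lt_one_iff (R := R) (a := a)
  constructor
  · intro h
    exact le_antisymm (h1.1 h.le) (not_lt.1 fun h3 => (h2.2 h3).ne h)
  · intro h
    exact le_antisymm (h1.2 h.le) (not_lt.1 fun h3 => (h2.1 h3).ne h)

/-- a constant of `A` is a non-unit iff its reduction vanishes -/
theorem val_const_lt_one_iff_rd (G : Good R r) {a : K} (ha : a ∈ constRing R) :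
    (constRing R).valuation a < 1 ↔ rd R.O R.red (algebraMap K F a) = 0 := by
  rw [val_const_lt_one_iff, G.isReduction.rd_eq_zero_iff ha]

/-- the reduction of a constant vanishes at a place iff it is zero -/
theorem rd_const_eq_zero_of_van (G : Good R r) {a : K}
    (h : Van Q (rd R.O R.red (algebraMap K F a))) : rd R.O R.red (algebraMap K F a) = 0 := by
  obtain ⟨c, hc⟩ := G.isReduction.rd_const a
  rw [← hc] at h ⊢
  rw [h.const_eq_zero, map_zero]

/-- More precisely: `rd f - (ev P f)‾` vanishes at `Q`. -/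
theorem rd_sub_ev (G : Good R r) {f : F} (hf : RegFib R r Q f) {P : Place K F} (hP : r P = Q) :
    rd R.O R.red f = rd R.O R.red (algebraMap K F (ev P f)) ∨
      0 < Q.ord (rd R.O R.red f - rd R.O R.red (algebraMap K F (ev P f))) :=
  G.isReduction.rd_sub_value hf.1 hf.2 hP (ev_spec G P (hf.2 P hP))

/-- (B'): evaluation commutes with reduction. -/
theorem val_ev_lt_one_iff (G : Good R r) {f : F} (hf : RegFib R r Q f) {P : Place K F}
    (hP : r P = Q) : (constRing R).valuation (ev P f) < 1 ↔
      (rd R.O R.red f = 0 ∨ 0 < Q.ord (rd R.O R.red f)) := by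
  rw [val_const_lt_one_iff_rd G (ev_mem_constRing G hf hP)]
  have h1 : Van Q (rd R.O R.red f - rd R.O R.red (algebraMap K F (ev P f))) := by
    have := rd_sub_ev G hf hP
    unfold Van
    rwa [sub_eq_zero]
  constructor
  · intro h
    rw [h, sub_zero] at h1
    exact h1
  · intro h
    apply rd_const_eq_zero_of_van (Q := Q) G
    have h2 : Van Q (rd R.O R.red f) := h
    have := h2.sub h1
    rwa [sub_sub_cancel] at this

end RegFib

section Param

variable {Q : Place k Fb} {T : F}

theorem val_ev_param_lt_one (G : Good R r) (hT : IsLocalParam R.O R.red r Q T) {P : Place K F}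
    (hP : r P = Q) : (constRing R).valuation (ev P T) < 1 := by
  rw [val_ev_lt_one_iff G (regFib_of_param hT) hP, hT.ord]
  exact Or.inr one_pos

/-- (C) -/
theorem ord_sub_ev_param (G : Good R r) (hT : IsLocalParam R.O R.red r Q T) {P : Place K F}
    (hP : r P = Q) : P.ord (T - algebraMap K F (ev P T)) = 1 ∧
      ∀ P', r P' = Q → P' ≠ P → P'.ord (T - algebraMap K F (ev P T)) = 0 := by
  obtain ⟨a, -, ha1, ha0⟩ := hT.exists_shift G.isReduction hP
  have : ev P T = a := ev_eq_of P (Or.inr (by rw [ha1]; exact one_pos))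
  rw [this]
  exact ⟨ha1, ha0⟩

/-- The parameter is injective on the residue disc. -/
theorem eq_of_ev_param_eq (G : Good R r) (hT : IsLocalParam R.O R.red r Q T) {P P' : Place K F}
    (hP : r P = Q) (hP' : r P' = Q) (h : ev P T = ev P' T) : P = P' := by
  by_contra hne
  have h1 := (ord_sub_ev_param G hT hP).2 P' hP' (Ne.symm hne)
  have h2 := (ord_sub_ev_param G hT hP').1
  rw [h, h2] at h1
  exact one_ne_zero h1

theorem rd_param_ne_zero (hT : IsLocalParam R.O R.red r Q T) : rd R.O R.red T ≠ 0 :=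
  ne_zero_of_ord_ne_zero Q (by rw [hT.ord]; norm_num)

theorem val_param_eq_one (G : Good R r) (hT : IsLocalParam R.O R.red r Q T) :
    R.O.valuation T = 1 := G.isReduction.val_eq_one_of_rd_ne_zero (rd_param_ne_zero hT)

/-- The parameter maps the residue disc onto the maximal ideal. -/
theorem exists_place_ev_eq (G : Good R r) (hT : IsLocalParam R.O R.red r Q T) {a : K}
    (ha : (constRing R).valuation a < 1) : ∃ P, r P = Q ∧ ev P T = a := by
  have h := G.isReduction
  have ha' : R.O.valuation (algebraMap K F a) < 1 := val_const_lt_one_iff.1 ha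
  have hrX : rd R.O R.red (T - algebraMap K F a) = rd R.O R.red T := by
    rw [rd_sub hT.mem (mem_of_val_le ha'.le), h.rd_eq_zero ha', sub_zero]
  have hvX : R.O.valuation (T - algebraMap K F a) = 1 :=
    h.val_eq_one_of_rd_ne_zero (by rw [hrX]; exact rd_param_ne_zero hT)
  obtain ⟨D, hD⟩ := h.exists_div _ (h.ne_zero_of_val_eq_one hvX)
  have hsum : D.mapDomain r Q = 1 := by
    rw [← h.ord_rd hvX D hD Q, hrX, hT.ord]
  obtain ⟨P0, hP0, hP01, -⟩ := exists_unique_of_mapDomain_apply_eq_one r D Q
    (fun P' hP' => by rw [hD]; exact ord_sub_const_nonneg _ (hT.reg P' hP') a) hsum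
  refine ⟨P0, hP0, ev_eq_of P0 (Or.inr ?_)⟩
  rw [← hD, hP01]
  exact one_pos

/-- One step of the Taylor expansion. -/
theorem RegFib.exists_step (G : Good R r) (hT : IsLocalParam R.O R.red r Q T) {f : F}
    (hf : RegFib R r Q f) :
    ∃ (c : K) (w : F), c ∈ constRing R ∧ RegFib R r Q w ∧ f = algebraMap K F c + T * w := by
  obtain ⟨P₀, hP₀, hev⟩ := exists_place_ev_eq G hT (a := 0) (by simp)
  have hord := ord_sub_ev_param G hT hP₀
  rw [hev, map_zero, sub_zero] at hord
  have hT0 : T ≠ 0 := ne_zero_of_ord_ne_zero P₀ (by rw [hord.1]; norm_num)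
  have hc := ev_mem_constRing G hf hP₀
  have hfc : RegFib R r Q (f - algebraMap K F (ev P₀ f)) := hf.sub (RegFib.const hc)
  refine ⟨ev P₀ f, (f - algebraMap K F (ev P₀ f)) / T, hc, ⟨?_, fun P hP => ?_⟩, ?_⟩
  · apply mem_of_val_le
    rw [map_div₀, val_param_eq_one G hT, div_one]
    exact val_le_of_mem hfc.1
  · rcases eq_or_ne (f - algebraMap K F (ev P₀ f)) 0 with h0 | h0
    · rw [h0, zero_div]; simp
    rw [ord_div P h0 hT0]
    by_cases hPP : P = P₀
    · subst hPP
      have h1 := (van_sub_ev G P (hf.2 P hP)).resolve_left h0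
      rw [hord.1]
      omega
    · rw [hord.2 P hP hPP, sub_zero]
      exact hfc.2 P hP
  · field_simp
    ring

/-- **Taylor expansion with integral remainder.** -/
theorem exists_taylor (G : Good R r) (hT : IsLocalParam R.O R.red r Q T) {f : F}
    (hf : RegFib R r Q f) :
    ∃ (c : ℕ → K) (w : ℕ → F), (∀ i, c i ∈ constRing R) ∧ (∀ n, RegFib R r Q (w n)) ∧
      ∀ n, f = ∑ i ∈ Finset.range n, algebraMap K F (c i) * T ^ i + T ^ n * w n := by
  choose cf wf hc hw hcw using fun x : {x : F // RegFib R r Q x} => x.2.exists_step G hT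
  let seq : ℕ → {x : F // RegFib R r Q x} := fun n =>
    Nat.rec ⟨f, hf⟩ (fun _ x => ⟨wf x, hw x⟩) n
  have hseq : ∀ n, ((seq n).1 : F) = algebraMap K F (cf (seq n)) + T * ((seq (n + 1)).1 : F) :=
    fun n => hcw (seq n)
  refine ⟨fun i => cf (seq i), fun n => (seq n).1, fun i => hc _, fun n => (seq n).2, fun n => ?_⟩
  beta_reduce
  induction n with
  | zero =>
    rw [Finset.sum_range_zero, pow_zero, zero_add, one_mul]
    rfl
  | succ n ih =>
    rw [Finset.sum_range_succ]
    refine ih.trans ?_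
    rw [hseq n]
    ring

theorem van_rd_param (hT : IsLocalParam R.O R.red r Q T) : Van Q (rd R.O R.red T) :=
  Or.inr (by rw [hT.ord]; exact one_pos)

theorem ord_rd_nonneg_of_regFib (G : Good R r) {w : F} (hw : RegFib R r Q w) :
    0 ≤ Q.ord (rd R.O R.red w) := G.isReduction.ord_rd_nonneg hw.1 Q hw.2

/-- The constant Taylor coefficient is a non-unit iff the reduction vanishes at `Q`. -/
theorem taylor_c0 (G : Good R r) (hT : IsLocalParam R.O R.red r Q T) {f w : F} {c₀ : K}
    (hc₀ : c₀ ∈ constRing R) (hw : RegFib R r Q w) (h : f = algebraMap K F c₀ + T * w) :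
    (constRing R).valuation c₀ < 1 ↔ (rd R.O R.red f = 0 ∨ 0 < Q.ord (rd R.O R.red f)) := by
  rw [val_const_lt_one_iff_rd G hc₀]
  have hrd : rd R.O R.red f = rd R.O R.red (algebraMap K F c₀) + rd R.O R.red T * rd R.O R.red w := by
    rw [h, rd_add (mem_constRing.1 hc₀) (R.O.mul_mem _ _ hT.mem hw.1), rd_mul hT.mem hw.1]
  have hv : Van Q (rd R.O R.red T * rd R.O R.red w) :=
    (van_rd_param hT).mul_right (ord_rd_nonneg_of_regFib G hw)
  constructor
  · intro h0
    rw [hrd, h0, zero_add]
    exact hv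
  · intro h0
    apply rd_const_eq_zero_of_van (Q := Q) G
    have h1 : Van Q (rd R.O R.red f) := h0
    have := h1.sub hv
    rwa [hrd, add_sub_cancel_right] at this

/-- The linear Taylor coefficient is a unit if the reduction has a simple zero at `Q`. -/
theorem taylor_c1 (G : Good R r) (hT : IsLocalParam R.O R.red r Q T) {f w : F} {c₀ c₁ : K}
    (hc₀ : c₀ ∈ constRing R) (hc₁ : c₁ ∈ constRing R) (hw : RegFib R r Q w)
    (h : f = algebraMap K F c₀ + algebraMap K F c₁ * T + T ^ 2 * w)
    (hord : Q.ord (rd R.O R.red f) = 1) : (constRing R).valuation c₁ = 1 := by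
  have hw' : RegFib R r Q (algebraMap K F c₁ + T * w) :=
    (RegFib.const hc₁).add ((regFib_of_param hT).mul hw)
  have h' : f = algebraMap K F c₀ + T * (algebraMap K F c₁ + T * w) := by rw [h]; ring
  have h0 : rd R.O R.red (algebraMap K F c₀) = 0 :=
    (val_const_lt_one_iff_rd G hc₀).1 ((taylor_c0 G hT hc₀ hw' h').2
      (Or.inr (by rw [hord]; exact one_pos)))
  refine le_antisymm ((ValuationSubring.valuation_le_one_iff _ _).2 hc₁) (not_lt.1 fun hlt => ?_)
  have h1 : rd R.O R.red (algebraMap K F c₁) = 0 := (val_const_lt_one_iff_rd G hc₁).1 hlt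
  have hrd : rd R.O R.red f = rd R.O R.red T ^ 2 * rd R.O R.red w := by
    have hc₀' := mem_constRing.1 hc₀
    have hc₁' := mem_constRing.1 hc₁
    rw [h, rd_add (R.O.add_mem _ _ hc₀' (R.O.mul_mem _ _ hc₁' hT.mem))
      (R.O.mul_mem _ _ (R.O.pow_mem hT.mem 2) hw.1), rd_add hc₀' (R.O.mul_mem _ _ hc₁' hT.mem),
      rd_mul hc₁' hT.mem, rd_mul (R.O.pow_mem hT.mem 2) hw.1, rd_pow hT.mem, h0, h1]
    ring
  rcases eq_or_ne (rd R.O R.red w) 0 with hw0 | hw0
  · rw [hrd, hw0, mul_zero] at hord
    simp at hord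
  · rw [hrd, Q.ord_mul (pow_ne_zero 2 (rd_param_ne_zero hT)) hw0, S24.Place.ord_pow, hT.ord] at hord
    have := ord_rd_nonneg_of_regFib G hw
    push_cast at hord
    omega

/-- A family of points of a residue disc is `S`-integral as soon as ONE local parameter has its
values in `S`. -/
theorem isFam_of_param (G : Good R r) {Z : Type*} [Finite Z] {S : Subring (Z → K)}
    (hS : IsOrd (constRing R) S) (hT : IsLocalParam R.O R.red r Q T) (P : Z → Place K F)
    (hP : ∀ z, r (P z) = Q) (hTS : (fun z => ev (P z) T) ∈ S) : IsFam R r S Q P := by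
  refine ⟨hP, fun f hf => ?_⟩
  obtain ⟨π, hπ, hb⟩ := exists_bound (A := constRing R) (fun z => ev (P z) T)
    (fun z => val_ev_param_lt_one G hT (hP z))
  choose b hbA hb using hb
  obtain ⟨c, w, hc, hw, hcw⟩ := exists_taylor G hT hf
  refine hS.mem_of_approx G.arch hπ _ fun n => ?_
  refine ⟨∑ i ∈ Finset.range n, (fun _ => c i) * (fun z => ev (P z) T) ^ i,
    Subring.sum_mem _ fun i _ => S.mul_mem (hS.const _ (hc i)) (S.pow_mem hTS i), fun z => ?_⟩
  refine ⟨b z ^ n * ev (P z) (w n),
    (constRing R).mul_mem _ _ ((constRing R).pow_mem (hbA z) n) (ev_mem_constRing G (hw n) (hP z)), ?_⟩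
  have hTz : 0 ≤ (P z).ord T := hT.reg _ (hP z)
  have hterm : ∀ i ∈ Finset.range n, 0 ≤ (P z).ord (algebraMap K F (c i) * T ^ i) := fun i _ =>
    ord_mul_nonneg _ (ord_const_nonneg _ _) (ord_pow_nonneg _ hTz i)
  have hev : ev (P z) f = ∑ i ∈ Finset.range n, c i * ev (P z) T ^ i
      + ev (P z) T ^ n * ev (P z) (w n) := by
    conv_lhs => rw [hcw n]
    rw [ev_add G _ (ord_sum_nonneg _ _ _ hterm)
      (ord_mul_nonneg _ (ord_pow_nonneg _ hTz n) ((hw n).2 _ (hP z))),
      ev_sum G _ _ _ hterm, ev_mul G _ (ord_pow_nonneg _ hTz n) ((hw n).2 _ (hP z)),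
      ev_pow G _ hTz]
    congr 1
    refine Finset.sum_congr rfl fun i _ => ?_
    rw [ev_mul G _ (ord_const_nonneg _ _) (ord_pow_nonneg _ hTz i), ev_algebraMap, ev_pow G _ hTz]
  show ev (P z) f - _ = _
  rw [hev, Finset.sum_apply]
  simp only [Pi.mul_apply, Pi.pow_apply]
  rw [add_sub_cancel_left, hb z, mul_pow]
  ring

end Param

end

end Fermat.Agent.FFG
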