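import Fermat.Agent.FFG.Eval

/-!
# FFG / Flip : the FLIP lemma                                                   [WP FLIP]

**Statement.**  `Qs` (`s` points) and `Rs` (`g` points, non-special, with local parameters) are
disjoint systems of distinct points of the special fibre, `D` a divisor of `F` whose support avoids
their residue discs, with `r_* D ∼ ∑ Qs + ∑ Rs`.  If `P_l : Z → disc (Qs l)` are `S`-integral families,
then the unique points `P'_i z ∈ disc (Rs i)` with `∑_l P_l z + ∑_i P'_i z ∼ D` form `S`-integral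
families.

**Proof.**  Put `Db := r_* D`, `n := s + 1`.
(1) `ℓ(Db - ∑ Qs) = ℓ(∑ Rs) = 1` (linear equivalence), `ℓ(Db) ≤ 1 + s` (`ell_le_of_le` / one point at a
    time) and upstairs `ℓ(D) ≥ deg D + 1 - g = s + 1` (Riemann inequality, `deg D = deg Db = s + g`).
    `R.redSub (L(D)) ⊆ L(Db)` by (P1), and `dim R.redSub (L D) ≥ ℓ(D)` by `G.on`.  Hence
    `R.redSub (L D) = L(Db)` has dimension exactly `s + 1`: EVERY element of `L(Db)` is the reduction of
    an element of `L(D) ∩ O`.
(2) The evaluation map `L(Db) → k^s` at the `Qs l` (which are not in the support of `Db`) has kernel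
    `L(Db - ∑ Qs)` of dimension `1`, so it is onto.  Choose `ub₀ ≠ 0` in the kernel and `ub_j` with
    `ub_j (Qs l) = δ_{jl}`; lift them to `u₀, u_j ∈ L(D) ∩ O`.  They are `RegFib` at all `Qs l`, `Rs i`.
    `div ub₀ = ∑ Qs + ∑ Rs - Db` (the effective divisor `div ub₀ + Db - ∑ Qs` is `∼ ∑ Rs`, and
    `ℓ(∑ Rs) = 1` forces equality).
(3) `N l j := (z ↦ ev (P l z) (u_j)) ∈ S` is `≡ δ_{lj}`, `b l := (z ↦ ev (P l z) u₀) ∈ S` is `≡ 0`
    (`val_ev_lt_one_iff`, `rd_sub_ev`).  `IsOrd.exists_solve` gives `c_j ∈ S`, `≡ 0`, with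
    `u_z := u₀ - ∑_j c_j z • u_j` vanishing at all `P l z`.  `rd u_z = ub₀`.  So
    `M_z := div u_z + D - ∑_l P l z ≥ 0` and `r_* M_z = ∑ Rs` by (P1): `M_z = ∑_i P' i z` with
    `r (P' i z) = Rs i`.
(4) Fix `i`, a local parameter `T'` at `Rs i`, `ρ z := ev (P' i z) T'`.  Taylor-expand `u₀, u_j`
    (`exists_taylor`): with `γ_m := c⁰_m - ∑_j c_j * c^j_m ∈ S` one gets for all `n`:
    `0 = ev (P' i z) u_z = ∑_{m<n} γ_m z * (ρ z)^m + (ρ z)^n * ω`, `ω ∈ A`.  `γ_1` is a unit because
    `ub₀` has a simple zero at `Rs i` (`taylor_c1`) and `c_j ≡ 0`.  `IsOrd.newton` gives `ρ ∈ S`, and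
    `isFam_of_param` concludes.
-/

set_option autoImplicit false
set_option linter.unusedSectionVars false

open AlgebraicCurve

namespace Fermat.Agent.FFG

open Fermat.Agent.RED Fermat.Agent.S24

noncomputable section

namespace Flip

section Down

variable {k Fb : Type*} [Field k] [Field Fb] [Algebra k Fb] [IsAlgClosed k] {y₀ : Fb}

open Classical in
theorem sumP_apply {n : ℕ} (q : Fin n → Place k Fb) (hq : Function.Injective q) (Q : Place k Fb) :
    sumP q Q = if Q ∈ Set.range q then 1 else 0 :=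
  sum_single_apply_of_injective q hq Q

theorem sumP_apply_self {n : ℕ} (q : Fin n → Place k Fb) (hq : Function.Injective q) (i : Fin n) :
    sumP q (q i) = 1 := by
  classical
  rw [sumP_apply q hq, if_pos ⟨i, rfl⟩]

theorem sumP_apply_of_forall_ne {n : ℕ} (q : Fin n → Place k Fb) (Q : Place k Fb)
    (h : ∀ i, q i ≠ Q) : sumP q Q = 0 := by
  classical
  unfold sumP
  rw [Finsupp.finsetSum_apply]
  exact Finset.sum_eq_zero fun i _ => Finsupp.single_eq_of_ne' (h i)

theorem sumP_nonneg {n : ℕ} (q : Fin n → Place k Fb) : 0 ≤ sumP q :=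
  Finset.sum_nonneg fun _ _ => Finsupp.single_nonneg.2 zero_le_one

theorem degree_sumP (hy : IsSepParam k y₀) {n : ℕ} (q : Fin n → Place k Fb) :
    Divisor.degree (sumP q) = n := by
  unfold sumP
  rw [map_sum]
  simp [hy.degree_single]

theorem single_le_sumP {n : ℕ} (q : Fin n → Place k Fb) (j : Fin n) :
    Finsupp.single (q j) (1 : ℤ) ≤ sumP q :=
  Finset.single_le_sum (f := fun i => Finsupp.single (q i) (1 : ℤ))
    (fun _ _ => Finsupp.single_nonneg.2 zero_le_one) (Finset.mem_univ j)

open Classical in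
theorem exists_dual (hy : IsSepParam k y₀) {s : ℕ} (Qs : Fin s → Place k Fb)
    (hQ : Function.Injective Qs) (Db : Divisor k Fb) (hDb : ∀ l, Db (Qs l) = 0)
    (h1 : ell (Db - sumP Qs) = 1) (h2 : s + 1 ≤ ell Db) (j : Fin s) :
    ∃ ub ∈ riemannRochSpace Db, ∀ l, (ub - (if l = j then 1 else 0) = 0 ∨
      0 < (Qs l).ord (ub - (if l = j then 1 else 0))) := by
  set E := Db - sumP Qs + Finsupp.single (Qs j) 1 with hE
  have hEapp : ∀ Q, E Q = (Db - sumP Qs) Q + (if Q = Qs j then 1 else 0) := by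
    intro Q
    rw [hE, Finsupp.add_apply, Finsupp.single_apply]
    simp only [eq_comm]
  have hle : E ≤ Db := by
    have := single_le_sumP Qs j
    rw [hE]
    intro Q
    have h3 := this Q
    rw [Finsupp.add_apply, Finsupp.sub_apply]
    linarith
  have hdeg : Divisor.degree Db - Divisor.degree E = s - 1 := by
    rw [hE, map_add, map_sub, degree_sumP hy, hy.degree_single]
    ring
  have h3 := hy.ell_le_of_le hle
  have h4 : 2 ≤ ell E := by
    have : ((s : ℤ) + 1) ≤ ell Db := by exact_mod_cast h2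
    have : (2 : ℤ) ≤ ell E := by linarith
    exact_mod_cast this
  have h5 : ¬ (riemannRochSpace E ≤ riemannRochSpace (Db - sumP Qs)) := fun hcon => by
    have := hy.finite_L (Db - sumP Qs)
    have h6 : ell E ≤ ell (Db - sumP Qs) := Submodule.finrank_mono hcon
    omega
  obtain ⟨ub, hubE, hubn⟩ := SetLike.not_le_iff_exists.1 h5
  have hub0 : ub ≠ 0 := fun h => hubn (h ▸ Submodule.zero_mem _)
  have hubD : ub ∈ riemannRochSpace Db := L_mono hle hubE
  rw [mem_L_iff_of_ne_zero hub0] at hubE hubn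
  push Not at hubn
  obtain ⟨Q, hQ'⟩ := hubn
  have hQj : Q = Qs j := by
    by_contra hne
    have := hubE Q
    rw [hEapp, if_neg hne] at this
    omega
  subst hQj
  have hord0 : (Qs j).ord ub = 0 := by
    have := hubE (Qs j)
    rw [hEapp, if_pos rfl] at this
    rw [Finsupp.sub_apply, hDb, sumP_apply_self Qs hQ] at this hQ'
    omega
  obtain ⟨c, hc⟩ := hy.exists_value (Qs j) ((Place.mem_iff_ord_nonneg _ hub0).2 hord0.ge)
  have hc0 : c ≠ 0 := by
    rintro rfl
    rcases hc with hc | hc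
    · exact hub0 (by simpa using hc)
    · rw [map_zero, sub_zero] at hc
      omega
  refine ⟨c⁻¹ • ub, Submodule.smul_mem _ _ hubD, fun l => ?_⟩
  by_cases hl : l = j
  · subst hl
    rw [if_pos rfl]
    rcases hc with hc | hc
    · left
      rw [hc, Algebra.smul_def, ← map_mul, inv_mul_cancel₀ hc0, map_one, sub_self]
    · right
      have : c⁻¹ • ub - 1 = (ub - algebraMap k Fb c) * algebraMap k Fb c⁻¹ := by
        rw [Algebra.smul_def, sub_mul, ← map_mul, mul_inv_cancel₀ hc0, map_one, mul_comm]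
      rw [this, ord_mul_const _ _ (inv_ne_zero hc0)]
      exact hc
  · rw [if_neg hl, sub_zero]
    right
    rw [Algebra.smul_def, mul_comm, ord_mul_const _ _ (inv_ne_zero hc0)]
    have := hubE (Qs l)
    rw [hEapp, Finsupp.sub_apply, hDb, sumP_apply_self Qs hQ, if_neg (fun h => hl (hQ h))] at this
    omega

/-- the section with divisor `∑ Qs + ∑ Rs - Db`, and the dimensions -/
theorem exists_base (hy : IsSepParam k y₀) {s g : ℕ} (Qs : Fin s → Place k Fb)
    (Rs : Fin g → Place k Fb) (Db : Divisor k Fb) (hns : ell (sumP Rs) = 1)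
    (hD : Divisor.IsPrincipal (Db - sumP Qs - sumP Rs)) :
    (∃ ub : Fb, ub ≠ 0 ∧ dv k ub = sumP Qs + sumP Rs - Db) ∧ ell (Db - sumP Qs) = 1 ∧
      (ell Db : ℤ) ≤ s + 1 ∧ Divisor.degree Db = s + g := by
  obtain ⟨w, hw, hDw⟩ := hy.eq_dv_of_isPrincipal hD
  have h1 : ell (Db - sumP Qs) = 1 := by
    have : Db - sumP Qs = sumP Rs + dv k w := by
      rw [← hDw]
      abel
    rw [this, hy.ell_add_dv hw, hns]
  refine ⟨⟨w⁻¹, inv_ne_zero hw, ?_⟩, h1, ?_, ?_⟩
  · rw [hy.dv_inv, ← hDw]
    abel
  · have h2 : Db - sumP Qs ≤ Db := sub_le_self _ (sumP_nonneg Qs)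
    have h3 := hy.ell_le_of_le h2
    rw [h1, map_sub, degree_sumP hy] at h3
    push_cast at h3
    linarith
  · have h2 := hy.degree_eq_zero_of_isPrincipal hD
    rw [map_sub, map_sub, degree_sumP hy, degree_sumP hy] at h2
    linarith

end Down

end Flip

variable {K F k Fb : Type*} [Field K] [Field F] [Algebra K F] [Field k] [Field Fb] [Algebra k Fb]
variable [IsAlgClosed K] [IsAlgClosed k]
variable {R : RedData K F k Fb} {r : Place K F → Place k Fb}

namespace Flip

theorem degree_mapDomain (G : Good R r) (D : Divisor K F) :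
    Divisor.degree (D.mapDomain r) = Divisor.degree D := by
  obtain ⟨x₀, hx⟩ := G.sep
  obtain ⟨y₀, hy⟩ := G.sepb
  exact degree_mapDomain_of_deg_eq_one r hx.deg_eq_one hy.deg_eq_one D

/-- (P1) in the form of divisors. -/
theorem mapDomain_dv (G : Good R r) {x₀ : F} (hx : IsSepParam K x₀) {y₀ : Fb}
    (hy : IsSepParam k y₀) {u : F} (hu : R.O.valuation u = 1) :
    (dv K u).mapDomain r = dv k (rd R.O R.red u) := by
  ext Q
  rw [hy.dv_apply, G.isReduction.ord_rd hu (dv K u) (fun P => hx.dv_apply u P) Q]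

theorem redSub_L_le (G : Good R r) (D : Divisor K F) :
    R.redSub (riemannRochSpace D) ≤ riemannRochSpace (D.mapDomain r) := by
  obtain ⟨x₀, hx⟩ := G.sep
  rintro ub ⟨x, hxD, rfl⟩
  rcases eq_or_ne (R.red x) 0 with h0 | h0
  · rw [h0]
    exact Submodule.zero_mem _
  have hx0 : (x : F) ≠ 0 := by
    intro h
    apply h0
    have : x = 0 := Subtype.ext h
    rw [this, map_zero]
  rw [mem_L_iff_of_ne_zero h0]
  rw [mem_L_iff_of_ne_zero hx0] at hxD
  intro Q
  have h1 := G.p1 x h0 (dv K (x : F)) (fun v => hx.dv_apply _ v) Q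
  rw [← h1, ← Finsupp.add_apply, ← Finsupp.mapDomain_add]
  refine mapDomain_apply_nonneg r _ Q fun P _ => ?_
  rw [Finsupp.add_apply, hx.dv_apply]
  exact hxD P


theorem mapDomain_sumP {n : ℕ} (p : Fin n → Place K F) :
    (sumP p).mapDomain r = sumP (fun i => r (p i)) := by
  unfold sumP
  rw [Finsupp.mapDomain_finsetSum]
  exact Finset.sum_congr rfl fun i _ => Finsupp.mapDomain_single

theorem mapDomain_sub' (D D' : Divisor K F) :
    (D - D').mapDomain r = D.mapDomain r - D'.mapDomain r := by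
  rw [← Finsupp.mapDomain.addMonoidHom_apply r (D - D'), map_sub,
    Finsupp.mapDomain.addMonoidHom_apply, Finsupp.mapDomain.addMonoidHom_apply]

/-- the residual divisor of a section vanishing at the points `p l` -/
theorem exists_residual (G : Good R r) {s g : ℕ} (Qs : Fin s → Place k Fb)
    (Rs : Fin g → Place k Fb) (hQ : Function.Injective Qs) (hR : Function.Injective Rs)
    (hdisj : ∀ l i, Qs l ≠ Rs i) (D : Divisor K F)
    (havQ : ∀ P l, r P = Qs l → D P = 0) (havR : ∀ P i, r P = Rs i → D P = 0)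
    {ub₀ : Fb} (hub : dv k ub₀ = sumP Qs + sumP Rs - D.mapDomain r)
    (p : Fin s → Place K F) (hp : ∀ l, r (p l) = Qs l) {u : F}
    (huD : u ∈ riemannRochSpace D) (huv : R.O.valuation u = 1) (hru : rd R.O R.red u = ub₀)
    (hzero : ∀ l, 0 < (p l).ord u) :
    ∃ p' : Fin g → Place K F, (∀ i, r (p' i) = Rs i) ∧ (∀ i, 0 < (p' i).ord u) ∧
      sumP p + sumP p' - D = dv K u := by
  classical
  obtain ⟨x₀, hx⟩ := G.sep
  obtain ⟨y₀, hy⟩ := G.sepb
  have hu0 : u ≠ 0 := G.isReduction.ne_zero_of_val_eq_one huv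
  have hpinj : Function.Injective p := fun a b hab => hQ (by rw [← hp a, ← hp b, hab])
  set M : Divisor K F := dv K u + D - sumP p with hM
  have hMapp : ∀ P, M P = P.ord u + D P - sumP p P := by
    intro P
    rw [hM, Finsupp.sub_apply, Finsupp.add_apply, hx.dv_apply]
  rw [mem_L_iff_of_ne_zero hu0] at huD
  have hM0 : ∀ P, 0 ≤ M P := by
    intro P
    rw [hMapp]
    by_cases hP : ∃ l, p l = P
    · obtain ⟨l, rfl⟩ := hP
      rw [sumP_apply_self p hpinj, havQ _ l (hp l)]
      have := hzero l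
      omega
    · push Not at hP
      rw [sumP_apply_of_forall_ne p P hP, sub_zero]
      exact huD P
  have hMr : M.mapDomain r = sumP Rs := by
    rw [hM, mapDomain_sub', Finsupp.mapDomain_add, mapDomain_dv G hx hy huv, hru, hub,
      mapDomain_sumP]
    simp only [hp]
    abel
  have h1 : ∀ i, M.mapDomain r (Rs i) = 1 := fun i => by
    rw [hMr, sumP_apply_self Rs hR]
  choose p' hp'1 hp'2 hp'3 using fun i =>
    exists_unique_of_mapDomain_apply_eq_one r M (Rs i) (fun P _ => hM0 P) (h1 i)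
  have hp'inj : Function.Injective p' := fun a b hab => hR (by rw [← hp'1 a, ← hp'1 b, hab])
  have hMeq : M = sumP p' := by
    ext P
    by_cases hP : ∃ i, r P = Rs i
    · obtain ⟨i, hi⟩ := hP
      by_cases hPi : P = p' i
      · rw [hPi, hp'2, sumP_apply_self p' hp'inj]
      · rw [hp'3 i P hi hPi, sumP_apply_of_forall_ne]
        intro i' hi'
        apply hPi
        have : i' = i := hR (by rw [← hi, ← hi', hp'1])
        rw [← hi', this]
    · push Not at hP
      rw [sumP_apply_of_forall_ne p' P (fun i hi => hP i (by rw [← hi, hp'1]))]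
      refine eq_zero_of_mapDomain_apply_eq_zero r M (r P) (fun P' _ => hM0 P') ?_ P rfl
      rw [hMr]
      exact sumP_apply_of_forall_ne Rs _ fun i hi => hP i hi.symm
  refine ⟨p', hp'1, fun i => ?_, ?_⟩
  · have h2 := hp'2 i
    rw [hMapp, havR _ i (hp'1 i), sumP_apply_of_forall_ne p (p' i)] at h2
    · omega
    · intro l hl
      apply hdisj l i
      rw [← hp l, hl, hp'1]
  · rw [← hMeq, hM]
    abel

theorem regFib_of_mem_L {D : Divisor K F} {u : F} (huD : u ∈ riemannRochSpace D) (huO : u ∈ R.O)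
    {Q : Place k Fb} (hav : ∀ P, r P = Q → D P = 0) : RegFib R r Q u := by
  refine ⟨huO, fun P hP => ?_⟩
  rcases eq_or_ne u 0 with rfl | hu0
  · simp
  rw [mem_L_iff_of_ne_zero hu0] at huD
  have := huD P
  rw [hav P hP] at this
  omega

/-- comparison of the valuations of the constants -/
theorem val_lt_one_iff' {E : Type*} [Field E] (B : ValuationSubring E) (x : E) :
    B.valuation x < 1 ↔ x = 0 ∨ x⁻¹ ∉ B := by
  rcases eq_or_ne x 0 with rfl | hx
  · simp
  rw [← B.valuation_le_one_iff, map_inv₀, not_le, or_iff_right hx,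
    one_lt_inv₀ (by rw [zero_lt_iff]; exact (B.valuation.ne_zero_iff).2 hx)]

theorem val_const_lt_one_iff (a : K) :
    (constRing R).valuation a < 1 ↔ R.O.valuation (algebraMap K F a) < 1 := by
  rw [val_lt_one_iff', val_lt_one_iff', mem_constRing, map_inv₀, map_eq_zero]

theorem mem_constRing_of_val_lt {a : K} (ha : (constRing R).valuation a < 1) : a ∈ constRing R :=
  ((constRing R).valuation_le_one_iff a).1 ha.le

/-- integrality of the residual points -/
theorem isFam_residual (G : Good R r) {Z : Type*} [Finite Z] {S : Subring (Z → K)}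
    (hS : IsOrd (constRing R) S) {s : ℕ} {Q : Place k Fb} {T : F}
    (hT : IsLocalParam R.O R.red r Q T) (u₀ : F) (uj : Fin s → F) (hu₀ : RegFib R r Q u₀)
    (huj : ∀ j, RegFib R r Q (uj j)) (hord : Q.ord (rd R.O R.red u₀) = 1)
    (c : Fin s → Z → K) (hc : ∀ j, c j ∈ S) (hc1 : ∀ j z, (constRing R).valuation (c j z) < 1)
    (p' : Z → Place K F) (hp' : ∀ z, r (p' z) = Q)
    (hzero : ∀ z, 0 < (p' z).ord (u₀ - ∑ j, algebraMap K F (c j z) * uj j)) :
    IsFam R r S Q p' := by
  obtain ⟨c0, w0, hc0, hw0, e0⟩ := exists_taylor G hT hu₀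
  choose cj wj hcj hwj ej using fun j => exists_taylor G hT (huj j)
  set ρ : Z → K := fun z => ev (p' z) T with hρdef
  set γ : ℕ → Z → K := fun m z => c0 m - ∑ j, c j z * cj j m with hγdef
  have hTreg : RegFib R r Q T := regFib_of_param hT
  have hρ : ∀ z, (constRing R).valuation (ρ z) < 1 := fun z => val_ev_param_lt_one G hT (hp' z)
  have hγ : ∀ m, γ m ∈ S := by
    intro m
    have : γ m = (fun _ => c0 m) - ∑ j, c j * (fun _ => cj j m) := by
      funext z
      simp [hγdef, Finset.sum_apply]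
    rw [this]
    exact S.sub_mem (hS.const _ (hc0 m))
      (S.sum_mem fun j _ => S.mul_mem (hc j) (hS.const _ (hcj j m)))
  have hγA : ∀ m z, γ m z ∈ constRing R := fun m z => hS.int _ (hγ m) z
  have hγ1 : ∀ z, (constRing R).valuation (γ 1 z) = 1 := by
    intro z
    have h1 : (constRing R).valuation (c0 1) = 1 := by
      refine taylor_c1 G hT (hc0 0) (hc0 1) (hw0 2) ?_ hord
      have := e0 2
      rw [Finset.sum_range_succ, Finset.sum_range_succ, Finset.sum_range_zero, zero_add,
        pow_zero, mul_one, pow_one] at this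
      exact this
    have h2 : (constRing R).valuation (∑ j, c j z * cj j 1) < 1 := by
      refine Valuation.map_sum_lt _ one_ne_zero fun j _ => ?_
      rw [map_mul]
      exact lt_of_le_of_lt
        (mul_le_of_le_one_right' (((constRing R).valuation_le_one_iff _).2 (hcj j 1))) (hc1 j z)
    show (constRing R).valuation (c0 1 - ∑ j, c j z * cj j 1) = 1
    rw [Valuation.map_sub_eq_of_lt_left _ (by rw [h1]; exact h2), h1]
  have heq : ∀ (n : ℕ) (z : Z), ∃ ω ∈ constRing R,
      ∑ i ∈ Finset.range n, γ i z * ρ z ^ i + ρ z ^ n * ω = 0 := by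
    intro n z
    set P := p' z with hPdef
    have hP : r P = Q := hp' z
    set W : F := w0 n - ∑ j, algebraMap K F (c j z) * wj j n with hW
    have hWreg : RegFib R r Q W :=
      (hw0 n).sub (RegFib.sum _ _ fun j _ =>
        (RegFib.const (mem_constRing_of_val_lt (hc1 j z))).mul (hwj j n))
    have hid : u₀ - ∑ j, algebraMap K F (c j z) * uj j
        = ∑ m ∈ Finset.range n, algebraMap K F (γ m z) * T ^ m + T ^ n * W := by
      have h1 : ∑ j, algebraMap K F (c j z) * uj j
          = ∑ j, algebraMap K F (c j z) *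
            (∑ m ∈ Finset.range n, algebraMap K F (cj j m) * T ^ m + T ^ n * wj j n) :=
        Finset.sum_congr rfl fun j _ => by rw [← ej j n]
      rw [h1]
      conv_lhs => rw [e0 n]
      simp only [hγdef, hW, map_sub, map_sum, map_mul, sub_mul, Finset.sum_mul, mul_add,
        mul_sub, Finset.mul_sum, Finset.sum_add_distrib, Finset.sum_sub_distrib]
      rw [Finset.sum_comm]
      have h2 : ∀ j : Fin s, ∀ m : ℕ, algebraMap K F (c j z) * (algebraMap K F (cj j m) * T ^ m)
          = algebraMap K F (c j z) * algebraMap K F (cj j m) * T ^ m := fun j m => by ring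
      have h3 : ∀ j : Fin s, algebraMap K F (c j z) * (T ^ n * wj j n)
          = T ^ n * (algebraMap K F (c j z) * wj j n) := fun j => by ring
      simp only [h2, h3]
      ring
    have hterm : ∀ m, RegFib R r Q (algebraMap K F (γ m z) * T ^ m) := fun m =>
      (RegFib.const (hγA m z)).mul (hTreg.pow m)
    have hsumreg : RegFib R r Q (∑ m ∈ Finset.range n, algebraMap K F (γ m z) * T ^ m) :=
      RegFib.sum _ _ fun m _ => hterm m
    have hTW : RegFib R r Q (T ^ n * W) := (hTreg.pow n).mul hWreg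
    have hev0 : ev P (u₀ - ∑ j, algebraMap K F (c j z) * uj j) = 0 :=
      (ev_eq_zero_iff G P (hzero z).le).2 (Or.inr (hzero z))
    refine ⟨ev P W, ev_mem_constRing G hWreg hP, ?_⟩
    rw [hid, ev_add G P (hsumreg.2 P hP) (hTW.2 P hP),
      ev_sum G P _ _ (fun m _ => (hterm m).2 P hP),
      ev_mul G P ((hTreg.pow n).2 P hP) (hWreg.2 P hP), ev_pow G P (hTreg.2 P hP)] at hev0
    rw [← hev0]
    congr 1
    refine Finset.sum_congr rfl fun m _ => ?_
    rw [ev_mul G P ((RegFib.const (r := r) (Q := Q) (hγA m z)).2 P hP) ((hTreg.pow m).2 P hP),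
      ev_algebraMap, ev_pow G P (hTreg.2 P hP)]
  exact isFam_of_param G hS hT p' hp' (hS.newton G.arch ρ hρ γ hγ hγ1 heq)

end Flip

open Flip

/-- `ℓ(D) ≤ ℓ(r_* D)`. -/
theorem ell_le_ell_mapDomain (G : Good R r) (D : Divisor K F) :
    ell D ≤ ell (D.mapDomain r) := by
  obtain ⟨x₀, hx⟩ := G.sep
  obtain ⟨y₀, hy⟩ := G.sepb
  have := hx.finite_L D
  have := hy.finite_L (D.mapDomain r)
  exact (G.on _ inferInstance).trans (Submodule.finrank_mono (redSub_L_le G D))

/-- Lifting of sections: if `ℓ(r_* D) ≤ deg D + 1 - g`, every element of `L(r_* D)` is the reduction of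
an element of `L(D) ∩ O`. -/
theorem exists_lift_section (G : Good R r) (D : Divisor K F)
    (hD : (ell (D.mapDomain r) : ℤ) ≤ Divisor.degree D + 1 - gR K F) {ub : Fb}
    (hub : ub ∈ riemannRochSpace (D.mapDomain r)) :
    ∃ u : F, u ∈ riemannRochSpace D ∧ u ∈ R.O ∧ rd R.O R.red u = ub := by
  obtain ⟨x₀, hx⟩ := G.sep
  obtain ⟨y₀, hy⟩ := G.sepb
  have := hx.finite_L D
  have := hy.finite_L (D.mapDomain r)
  have h1 := hx.riemann_inequality D
  have h2 : ell D ≤ Module.finrank k (R.redSub (riemannRochSpace D)) := G.on _ inferInstance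
  have h3 : Module.finrank k (riemannRochSpace (D.mapDomain r))
      ≤ Module.finrank k (R.redSub (riemannRochSpace D)) := by
    have : (ell (D.mapDomain r) : ℤ) ≤ Module.finrank k (R.redSub (riemannRochSpace D)) := by
      have : (ell D : ℤ) ≤ Module.finrank k (R.redSub (riemannRochSpace D)) := by
        exact_mod_cast h2
      linarith
    exact_mod_cast this
  have h4 := Submodule.eq_of_le_of_finrank_le (redSub_L_le G D) h3
  rw [← h4] at hub
  obtain ⟨x, hxD, rfl⟩ := hub
  exact ⟨x, hxD, x.2, rd_of_mem x.2⟩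

/-- **The FLIP lemma.** -/
theorem flip (G : Good R r) {Z : Type*} [Finite Z] {S : Subring (Z → K)}
    (hS : IsOrd (constRing R) S) {s : ℕ} (Qs : Fin s → Place k Fb)
    (Rs : Fin (gN K F) → Place k Fb) (hQ : Function.Injective Qs) (hR : Function.Injective Rs)
    (hdisj : ∀ l i, Qs l ≠ Rs i)
    (hpar : ∀ i, ∃ T : F, IsLocalParam R.O R.red r (Rs i) T)
    (hns : ell (sumP Rs) = 1) (D : Divisor K F)
    (havQ : ∀ P l, r P = Qs l → D P = 0) (havR : ∀ P i, r P = Rs i → D P = 0)
    (hD : Divisor.IsPrincipal (D.mapDomain r - sumP Qs - sumP Rs))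
    (P : Fin s → Z → Place K F) (hP : ∀ l, IsFam R r S (Qs l) (P l)) :
    ∃ P' : Fin (gN K F) → Z → Place K F, (∀ i, IsFam R r S (Rs i) (P' i)) ∧
      ∀ z, Divisor.IsPrincipal (sumP (fun l => P l z) + sumP (fun i => P' i z) - D) := by
  classical
  obtain ⟨x₀, hx⟩ := G.sep
  obtain ⟨y₀, hy⟩ := G.sepb
  have h := G.isReduction
  set Db := D.mapDomain r with hDb
  have hDbQ : ∀ l, Db (Qs l) = 0 := fun l =>
    mapDomain_apply_eq_zero r D (Qs l) (fun P hP => havQ P l hP)
  have hDbR : ∀ i, Db (Rs i) = 0 := fun i =>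
    mapDomain_apply_eq_zero r D (Rs i) (fun P hP => havR P i hP)
  obtain ⟨⟨ub₀, hub0, hdv⟩, hell1, hellle, hdegDb⟩ := exists_base hy Qs Rs Db hns hD
  have hdegD : Divisor.degree D = s + gN K F := by
    rw [← degree_mapDomain G D]
    exact hdegDb
  have hg : (gN K F : ℤ) = gR K F := Int.toNat_of_nonneg hx.gR_nonneg
  have hlift : (ell (D.mapDomain r) : ℤ) ≤ Divisor.degree D + 1 - gR K F := by
    rw [hdegD, hg]
    linarith
  have hge : s + 1 ≤ ell Db := by
    have h1 := hx.riemann_inequality D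
    have h2 : (ell D : ℤ) ≤ ell Db := by exact_mod_cast ell_le_ell_mapDomain G D
    rw [hdegD, hg] at h1
    have : ((s : ℤ) + 1) ≤ ell Db := by linarith
    exact_mod_cast this
  have hordub : ∀ Q, Q.ord ub₀ = sumP Qs Q + sumP Rs Q - Db Q := by
    intro Q
    rw [← hy.dv_apply ub₀ Q, hdv, Finsupp.sub_apply, Finsupp.add_apply]
  have hub₀mem : ub₀ ∈ riemannRochSpace (D.mapDomain r) := by
    rw [mem_L_iff_of_ne_zero hub0]
    intro Q
    rw [hordub]
    have h1 := sumP_nonneg Qs Q
    have h2 := sumP_nonneg Rs Q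
    simp only [Finsupp.coe_zero, Pi.zero_apply] at h1 h2
    linarith
  have hordQ : ∀ l, (Qs l).ord ub₀ = 1 := by
    intro l
    rw [hordub, sumP_apply_self Qs hQ, hDbQ,
      sumP_apply_of_forall_ne Rs _ (fun i hi => hdisj l i hi.symm)]
    norm_num
  have hordR : ∀ i, (Rs i).ord ub₀ = 1 := by
    intro i
    rw [hordub, sumP_apply_self Rs hR, hDbR,
      sumP_apply_of_forall_ne Qs _ (fun l hl => hdisj l i hl)]
    norm_num
  choose ubj hubjmem hubj using exists_dual hy Qs hQ Db hDbQ hell1 hge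
  obtain ⟨u₀, hu₀D, hu₀O, hru₀⟩ := exists_lift_section G D hlift hub₀mem
  choose uj hujD hujO hruj using fun j => exists_lift_section G D hlift (hubjmem j)
  have hregQ₀ : ∀ l, RegFib R r (Qs l) u₀ := fun l =>
    regFib_of_mem_L hu₀D hu₀O (fun P hP => havQ P l hP)
  have hregQ : ∀ l j, RegFib R r (Qs l) (uj j) := fun l j =>
    regFib_of_mem_L (hujD j) (hujO j) (fun P hP => havQ P l hP)
  have hregR₀ : ∀ i, RegFib R r (Rs i) u₀ := fun i =>
    regFib_of_mem_L hu₀D hu₀O (fun P hP => havR P i hP)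
  have hregR : ∀ i j, RegFib R r (Rs i) (uj j) := fun i j =>
    regFib_of_mem_L (hujD j) (hujO j) (fun P hP => havR P i hP)
  -- the linear system
  set N : Fin s → Fin s → Z → K := fun l j z => ev (P l z) (uj j) with hNdef
  set b : Fin s → Z → K := fun l z => ev (P l z) u₀ with hbdef
  have hN : ∀ l j, N l j ∈ S := fun l j => (hP l).mem (uj j) (hregQ l j)
  have hb : ∀ l, b l ∈ S := fun l => (hP l).mem u₀ (hregQ₀ l)
  have hN1 : ∀ l j z, (constRing R).valuation (N l j z - if l = j then 1 else 0) < 1 := by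
    intro l j z
    have hcst : (if l = j then (1 : K) else 0) ∈ constRing R := by
      split_ifs
      · exact (constRing R).one_mem
      · exact (constRing R).zero_mem
    have hreg1 : RegFib R r (Qs l) (algebraMap K F (if l = j then 1 else 0)) := RegFib.const hcst
    have hf : RegFib R r (Qs l) (uj j - algebraMap K F (if l = j then 1 else 0)) :=
      (hregQ l j).sub hreg1
    have hPl := (hP l).fib z
    have e1 : ev (P l z) (uj j - algebraMap K F (if l = j then 1 else 0))
        = N l j z - if l = j then 1 else 0 := by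
      rw [ev_sub G _ ((hregQ l j).2 _ hPl) (hreg1.2 _ hPl), ev_algebraMap]
    rw [← e1, val_ev_lt_one_iff G hf hPl, rd_sub (hujO j) hreg1.1, hruj]
    have e2 : rd R.O R.red (algebraMap K F (if l = j then 1 else 0))
        = if l = j then 1 else 0 := by
      split_ifs
      · rw [map_one, rd_one]
      · rw [map_zero, rd_of_mem R.O.zero_mem]
        exact map_zero R.red
    rw [e2]
    exact hubj j l
  have hb0 : ∀ l z, (constRing R).valuation (b l z) < 1 := by
    intro l z
    rw [hbdef]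
    simp only
    rw [val_ev_lt_one_iff G (hregQ₀ l) ((hP l).fib z), hru₀, hordQ]
    right
    norm_num
  obtain ⟨c, hcS, hc1, hsolve⟩ := hS.exists_solve N hN hN1 b hb hb0
  set u : Z → F := fun z => u₀ - ∑ j, algebraMap K F (c j z) * uj j with hudef
  have hsmall : ∀ z, R.O.valuation (∑ j, algebraMap K F (c j z) * uj j) < 1 := by
    intro z
    refine Valuation.map_sum_lt _ one_ne_zero fun j _ => ?_
    rw [map_mul]
    exact lt_of_le_of_lt (mul_le_of_le_one_right' (val_le_of_mem (hujO j)))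
      ((Flip.val_const_lt_one_iff _).1 (hc1 j z))
  have huD : ∀ z, u z ∈ riemannRochSpace D := by
    intro z
    refine Submodule.sub_mem _ hu₀D (Submodule.sum_mem _ fun j _ => ?_)
    rw [← Algebra.smul_def]
    exact Submodule.smul_mem _ _ (hujD j)
  have hru : ∀ z, rd R.O R.red (u z) = ub₀ := by
    intro z
    rw [hudef]
    simp only
    rw [rd_sub hu₀O (mem_of_val_le (hsmall z).le), h.rd_eq_zero (hsmall z), sub_zero, hru₀]
  have huv : ∀ z, R.O.valuation (u z) = 1 := fun z =>
    h.val_eq_one_of_rd_ne_zero (by rw [hru]; exact hub0)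
  have hu0 : ∀ z, u z ≠ 0 := fun z => h.ne_zero_of_val_eq_one (huv z)
  have hzero : ∀ z l, 0 < (P l z).ord (u z) := by
    intro z l
    have hPl := (hP l).fib z
    have hcreg : ∀ j, RegFib R r (Qs l) (algebraMap K F (c j z)) := fun j =>
      RegFib.const (mem_constRing_of_val_lt (hc1 j z))
    have hterm : ∀ j, RegFib R r (Qs l) (algebraMap K F (c j z) * uj j) := fun j =>
      (hcreg j).mul (hregQ l j)
    have hsum : RegFib R r (Qs l) (∑ j, algebraMap K F (c j z) * uj j) :=
      RegFib.sum _ _ fun j _ => hterm j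
    have hureg : RegFib R r (Qs l) (u z) := (hregQ₀ l).sub hsum
    have e1 : ev (P l z) (u z) = 0 := by
      rw [hudef]
      simp only
      rw [ev_sub G _ ((hregQ₀ l).2 _ hPl) (hsum.2 _ hPl),
        ev_sum G _ _ _ (fun j _ => (hterm j).2 _ hPl)]
      have e2 : ∑ j, ev (P l z) (algebraMap K F (c j z) * uj j) = ∑ j, N l j z * c j z :=
        Finset.sum_congr rfl fun j _ => by
          rw [ev_mul G _ ((hcreg j).2 _ hPl) ((hregQ l j).2 _ hPl), ev_algebraMap, mul_comm]
      rw [e2, hsolve l z, sub_self]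
    exact ((ev_eq_zero_iff G _ (hureg.2 _ hPl)).1 e1).resolve_left (hu0 z)
  choose P' hP'1 hP'2 hP'3 using fun z =>
    exists_residual G Qs Rs hQ hR hdisj D havQ havR hdv (fun l => P l z)
      (fun l => (hP l).fib z) (huD z) (huv z) (hru z) (hzero z)
  refine ⟨fun i z => P' z i, fun i => ?_, fun z => ?_⟩
  · obtain ⟨T, hT⟩ := hpar i
    exact isFam_residual G hS hT u₀ uj (hregR₀ i) (hregR i) (by rw [hru₀, hordR]) c hcS hc1
      (fun z => P' z i) (fun z => hP'1 z i) (fun z => hP'2 z i)
  · rw [hP'3 z]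
    exact hx.isPrincipal_dv (hu0 z)

end

end Fermat.Agent.FFG
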