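import Fermat.Agent.FFG.Int

/-!
# FFG / HA : the canonical order attached to a finite family of divisor classes        [WP HA]

`HA R r y` is the `A`-algebra of functions on `Z` generated by the indicators of the residue classes and by ALL
coordinate functions `z ↦ f (P_i z)` (all adapted charts `χ`, all `f` regular on the residue disc of `χ.pt i`), where
`∑_i P_i z - χ.a ∼ y z`.  It is the affine algebra of the schematic closure of `{y z}` in the Néron model.

PAPER PROOFS.
* `isInt_HA`: indicators are generators.  Given `z₀` take `χ` adapted to `y z₀` (`exists_chart`); it is adapted to all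
  `freeze r y z₀ z` (`sameRed_freeze`, `Adapted.of_sameRed`); `Chart.exists_pts` gives `P i z`; `IsFam.mem` holds because the
  functions `z ↦ ev (P i z) f` are generators.
* `isOrd_HA`: `isOrd_genOrd`.  Values in `A`: `ev_mem_constRing`.  Separation of `z ≠ z'`: if not `SameRed`, the indicator
  of the class of `z`.  Otherwise take `χ`, `P` as above for `z₀ := z`; if `ev (P i z) T_i = ev (P i z') T_i` for all `i`
  (`T_i` the local parameters `χ.par i`, which are `RegFib`), then `P i z = P i z'` (`eq_of_ev_param_eq`), so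
  `y z ∼ y z'` and `z = z'` by `hinj`.
* `HA_comp_mem`: the set of `φ` with `φ ∘ ν ∈ S'` is a subring containing the constants; check the generators.
  - `clsInd r y z₀ ∘ ν` is the indicator of a set saturated for `y ∘ ν`: `ind_mem_of_saturated`.
  - `φ = (z ↦ ev (P i z) f)` for `(z₀, χ, P)`.  Let `e := clsInd r y z₀ ∘ ν ∈ S'`.  If no `ν z'` is in the class of `z₀`, then
    `φ ∘ ν` is the constant `ev (P i z₀) f ∈ A` (uniqueness `Chart.pts_unique`: `P i z = P i z₀` off the class).
    Otherwise pick `z₀'` with `ν z₀'` in the class of `z₀`; `χ` is adapted to `y (ν z₀')`; `IsInt.fam_all` gives `P'` over `Z'`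
    integral for `freeze r (y ∘ ν) z₀'`; on the class `P' i z' = P i (ν z')` by `Chart.pts_unique`.  So
    `φ ∘ ν = e * (z' ↦ ev (P' i z') f) + (1 - e) * const`.
* `HA_add`: `S := prodOrd (HA y₁) (HA y₂)` is an order (`isOrd_prodOrd`).  `IsInt S (y₁ ∘ fst)`, `IsInt S (y₂ ∘ snd)`
  (`isInt_HA` + `IsInt.comp`), `IsInt.add`, `IsInt.congr`, `HA_comp_mem` with `ν := μ`.
* `HA_neg`: `IsInt.neg`, `HA_comp_mem`.
* `HA_residue`: `←`: it suffices to check generators (the set of `φ` with `v(φ z - φ z') < 1`, values in `A`, is a subring):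
  indicators take the same value; coordinates: `ev (P i z) f` and `ev (P i z') f` both reduce to the value of `rd f` at
  `χ.pt i` (`rd_sub_ev`, `val_ev_lt_one_iff` applied to `f - ev (P i z) f`).  `→`: the indicator of the class of `z'`.
* `HA_restrict_surj`: the image of `HA y` under `φ ↦ φ ∘ ν` is a subring containing the constants and the generators of
  `HA (y ∘ ν)`: `clsInd r (y ∘ ν) z₀' = clsInd r y (ν z₀') ∘ ν`, `freeze r (y ∘ ν) z₀' = freeze r y (ν z₀') ∘ ν` (rfl), and for a
  generator `(z₀', χ, P', i, f)` take `P` over `Z` for `(ν z₀', χ)` (`Chart.adapted_of_pts`, `Chart.exists_pts`); `P' = P ∘ ν` by uniqueness.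
-/

set_option autoImplicit false
set_option linter.unusedSectionVars false

open AlgebraicCurve

namespace Fermat.Agent.FFG

open Fermat.Agent.RED Fermat.Agent.S24

noncomputable section

variable {K F k Fb : Type*} [Field K] [Field F] [Algebra K F] [Field k] [Field Fb] [Algebra k Fb]

/-- The generators of `HA`. -/
def coordSet (R : RedData K F k Fb) (r : Place K F → Place k Fb) {Z : Type*}
    (y : Z → Divisor K F) : Set (Z → K) :=
  {φ | ∃ z₀, φ = clsInd r y z₀} ∪
  {φ | ∃ (z₀ : Z) (χ : Chart R r) (P : Fin (gN K F) → Z → Place K F) (i : Fin (gN K F)) (f : F),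
    (∀ i z, r (P i z) = χ.pt i) ∧
    (∀ z, Divisor.IsPrincipal (sumP (fun i => P i z) - χ.a - freeze r y z₀ z)) ∧
    RegFib R r (χ.pt i) f ∧ φ = fun z => ev (P i z) f}

/-- The canonical order of the family `y`. -/
def HA (R : RedData K F k Fb) (r : Place K F → Place k Fb) {Z : Type*} (y : Z → Divisor K F) :
    Subring (Z → K) :=
  genOrd (constRing R) (coordSet R r y)

variable [IsAlgClosed K] [IsAlgClosed k]
variable {R : RedData K F k Fb} {r : Place K F → Place k Fb}
variable {Z : Type*} [Finite Z]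

namespace HAaux

theorem prin_sub {D E : Divisor K F} (h : Divisor.IsPrincipal D) (h' : Divisor.IsPrincipal E) :
    Divisor.IsPrincipal (D - E) := (Divisor.principal (K := K) (F := F)).sub_mem h h'

theorem freeze_self (y : Z → Divisor K F) (z₀ : Z) : freeze r y z₀ z₀ = y z₀ := by
  unfold freeze
  split_ifs <;> rfl

theorem freeze_of_sameRed {y : Z → Divisor K F} {z₀ z : Z} (h : SameRed r (y z) (y z₀)) :
    freeze r y z₀ z = y z := by
  unfold freeze
  rw [if_pos h]

theorem freeze_of_not_sameRed {y : Z → Divisor K F} {z₀ z : Z} (h : ¬ SameRed r (y z) (y z₀)) :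
    freeze r y z₀ z = y z₀ := by
  unfold freeze
  rw [if_neg h]

theorem degree_freeze {y : Z → Divisor K F} (hy : ∀ z, Divisor.degree (y z) = 0) (z₀ z : Z) :
    Divisor.degree (freeze r y z₀ z) = 0 := by
  unfold freeze
  split_ifs
  · exact hy z
  · exact hy z₀

theorem clsInd_of_sameRed {y : Z → Divisor K F} {z₀ z : Z} (h : SameRed r (y z) (y z₀)) :
    clsInd r y z₀ z = 1 := by
  unfold clsInd
  rw [if_pos h]

theorem clsInd_of_not_sameRed {y : Z → Divisor K F} {z₀ z : Z} (h : ¬ SameRed r (y z) (y z₀)) :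
    clsInd r y z₀ z = 0 := by
  unfold clsInd
  rw [if_neg h]

/-- points of a chart for a whole frozen family -/
theorem exists_pts_freeze (G : Good R r) {y : Z → Divisor K F}
    (hy : ∀ z, Divisor.degree (y z) = 0) (z₀ : Z) (χ : Chart R r) (hχ : χ.Adapted (y z₀)) :
    ∃ P : Fin (gN K F) → Z → Place K F, (∀ i z, r (P i z) = χ.pt i) ∧
      ∀ z, Divisor.IsPrincipal (sumP (fun i => P i z) - χ.a - freeze r y z₀ z) := by
  have h : ∀ z, ∃ P : Fin (gN K F) → Place K F, (∀ i, r (P i) = χ.pt i) ∧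
      Divisor.IsPrincipal (sumP P - χ.a - freeze r y z₀ z) := fun z =>
    χ.exists_pts G (degree_freeze hy z₀ z) (hχ.of_sameRed (sameRed_freeze y z₀ z).symm)
  choose P hP hP' using h
  exact ⟨fun i z => P z i, fun i z => hP z i, fun z => hP' z⟩

/-- uniqueness of the points of a chart representing a given class -/
theorem pts_eq (G : Good R r) (χ : Chart R r) {P P' : Fin (gN K F) → Place K F} {D : Divisor K F}
    (hP : ∀ i, r (P i) = χ.pt i) (hP' : ∀ i, r (P' i) = χ.pt i)
    (h : Divisor.IsPrincipal (sumP P - χ.a - D)) (h' : Divisor.IsPrincipal (sumP P' - χ.a - D)) :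
    P = P' := by
  refine χ.pts_unique G hP hP' ?_
  have := prin_sub h h'
  have e : sumP P - χ.a - D - (sumP P' - χ.a - D) = sumP P - sumP P' := by abel
  rwa [e] at this

theorem mem_HA_clsInd (y : Z → Divisor K F) (z₀ : Z) : clsInd r y z₀ ∈ HA R r y :=
  Subring.subset_closure (Or.inr (Or.inl ⟨z₀, rfl⟩))

theorem mem_HA_coord {y : Z → Divisor K F} (z₀ : Z) (χ : Chart R r)
    (P : Fin (gN K F) → Z → Place K F) (i : Fin (gN K F)) (f : F)
    (h1 : ∀ i z, r (P i z) = χ.pt i)
    (h2 : ∀ z, Divisor.IsPrincipal (sumP (fun i => P i z) - χ.a - freeze r y z₀ z))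
    (h3 : RegFib R r (χ.pt i) f) : (fun z => ev (P i z) f) ∈ HA R r y :=
  Subring.subset_closure (Or.inr (Or.inr ⟨z₀, χ, P, i, f, h1, h2, h3, rfl⟩))

/-- two points of the same residue disc have congruent coordinates -/
theorem val_ev_sub_ev_lt_one (G : Good R r) {Q : Place k Fb} {f : F} (hf : RegFib R r Q f)
    {P P' : Place K F} (hP : r P = Q) (hP' : r P' = Q) :
    (constRing R).valuation (ev P f - ev P' f) < 1 := by
  have hc : RegFib R r Q (algebraMap K F (ev P' f)) := RegFib.const (ev_mem_constRing G hf hP')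
  have hf' : RegFib R r Q (f - algebraMap K F (ev P' f)) := hf.sub hc
  have e1 : ev P' (f - algebraMap K F (ev P' f)) = 0 := by
    rw [ev_sub G P' (hf.2 P' hP') (hc.2 P' hP'), ev_algebraMap, sub_self]
  have e2 : ev P (f - algebraMap K F (ev P' f)) = ev P f - ev P' f := by
    rw [ev_sub G P (hf.2 P hP) (hc.2 P hP), ev_algebraMap]
  have h1 := (val_ev_lt_one_iff G hf' hP').1 (by rw [e1, map_zero]; exact zero_lt_one)
  have h2 := (val_ev_lt_one_iff G hf' hP).2 h1
  rwa [e2] at h2

end HAaux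

open HAaux

theorem isInt_HA (G : Good R r) {y : Z → Divisor K F} (hy : ∀ z, Divisor.degree (y z) = 0) :
    IsInt R r (HA R r y) y := by
  refine ⟨fun z₀ => mem_HA_clsInd y z₀, fun z₀ => ?_⟩
  obtain ⟨χ, hχ, -, -⟩ := exists_chart G (y z₀) (hy z₀) ∅ Set.finite_empty
  obtain ⟨P, hP, hP'⟩ := exists_pts_freeze G hy z₀ χ hχ
  exact ⟨χ, P, fun i => ⟨fun z => hP i z, fun f hf => mem_HA_coord z₀ χ P i f hP hP' hf⟩, hP'⟩

theorem isOrd_HA (G : Good R r) {y : Z → Divisor K F} (hy : ∀ z, Divisor.degree (y z) = 0)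
    (hinj : ∀ z z', Divisor.IsPrincipal (y z - y z') → z = z') :
    IsOrd (constRing R) (HA R r y) := by
  refine isOrd_genOrd _ ?_ ?_
  · rintro φ (⟨z₀, rfl⟩ | ⟨z₀, χ, P, i, f, h1, h2, h3, rfl⟩) z
    · unfold clsInd
      split_ifs
      · exact (constRing R).one_mem
      · exact (constRing R).zero_mem
    · exact ev_mem_constRing G h3 (h1 i z)
  · intro z z' hzz'
    by_cases hs : SameRed r (y z') (y z)
    · obtain ⟨χ, hχ, -, -⟩ := exists_chart G (y z) (hy z) ∅ Set.finite_empty
      obtain ⟨P, hP, hP'⟩ := exists_pts_freeze G hy z χ hχ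
      by_contra hcon
      push Not at hcon
      apply hzz'
      have hPP : (fun i => P i z) = fun i => P i z' := by
        funext i
        obtain ⟨T, hT⟩ := χ.par i
        refine eq_of_ev_param_eq G hT (hP i z) (hP i z') ?_
        exact hcon _ (Or.inr ⟨z, χ, P, i, T, hP, hP', regFib_of_param hT, rfl⟩)
      have h1 := hP' z
      have h2 := hP' z'
      rw [freeze_self] at h1
      rw [freeze_of_sameRed hs, ← hPP] at h2
      have h3 := prin_sub h2 h1
      have e : sumP (fun i => P i z) - χ.a - y z' - (sumP (fun i => P i z) - χ.a - y z)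
          = y z - y z' := by abel
      rw [e] at h3
      exact hinj z z' h3
    · refine ⟨clsInd r y z, Or.inl ⟨z, rfl⟩, ?_⟩
      rw [clsInd_of_sameRed (SameRed.refl _), clsInd_of_not_sameRed hs]
      exact one_ne_zero

/-- composition with `ν`, as a ring homomorphism -/
def compHom {Z Z' : Type*} (ν : Z' → Z) : (Z → K) →+* (Z' → K) :=
  RingHom.pi fun z' => Pi.evalRingHom _ (ν z')

theorem compHom_apply {Z Z' : Type*} (ν : Z' → Z) (φ : Z → K) :
    compHom ν φ = fun z' => φ (ν z') := rfl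

/-- **Universal property.** -/
theorem HA_comp_mem (G : Good R r) {y : Z → Divisor K F} (hy : ∀ z, Divisor.degree (y z) = 0)
    {Z' : Type*} [Finite Z'] {S' : Subring (Z' → K)} (hS' : IsOrd (constRing R) S') (ν : Z' → Z)
    (h : IsInt R r S' (fun z' => y (ν z'))) :
    ∀ φ ∈ HA R r y, (fun z' => φ (ν z')) ∈ S' := by
  classical
  have key : HA R r y ≤ S'.comap (compHom ν) := by
    refine Subring.closure_le.2 ?_
    -- the indicators
    have hind : ∀ z₀ : Z, (fun z' => clsInd r y z₀ (ν z')) ∈ S' := by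
      intro z₀
      have := ind_mem_of_saturated (S := S') (y := fun z' => y (ν z')) h.ind
        {z' | SameRed r (y (ν z')) (y z₀)} (fun z z' hz hzz' => SameRed.trans hzz' hz)
      convert this using 2 with z'
      by_cases hz : SameRed r (y (ν z')) (y z₀)
      · rw [clsInd_of_sameRed hz, if_pos (show z' ∈ {z' | SameRed r (y (ν z')) (y z₀)} from hz)]
      · rw [clsInd_of_not_sameRed hz,
          if_neg (show z' ∉ {z' | SameRed r (y (ν z')) (y z₀)} from hz)]
    rintro φ (⟨a, ha, rfl⟩ | ⟨z₀, rfl⟩ | ⟨z₀, χ, P, i, f, h1, h2, h3, rfl⟩)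
    · exact hS'.const a ha
    · exact hind z₀
    · show (fun z' => ev (P i (ν z')) f) ∈ S'
      -- off the class, the points are those of `z₀`
      have hoff : ∀ z, ¬ SameRed r (y z) (y z₀) → (fun i => P i z) = fun i => P i z₀ := by
        intro z hz
        refine pts_eq G χ (fun i => h1 i z) (fun i => h1 i z₀) (D := y z₀) ?_ ?_
        · have := h2 z
          rwa [freeze_of_not_sameRed hz] at this
        · have := h2 z₀
          rwa [freeze_self] at this
      have hc : ev (P i z₀) f ∈ constRing R := ev_mem_constRing G h3 (h1 i z₀)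
      by_cases hU : ∃ z₀' : Z', SameRed r (y (ν z₀')) (y z₀)
      · obtain ⟨z₀', hz₀'⟩ := hU
        have hχ₀ : χ.Adapted (y z₀) := by
          have := χ.adapted_of_pts G (fun i => h1 i z₀) (h2 z₀)
          rwa [freeze_self] at this
        have hχ' : χ.Adapted (y (ν z₀')) := hχ₀.of_sameRed hz₀'.symm
        obtain ⟨P', hP', hP''⟩ := h.fam_all G hS' (fun z' => hy (ν z')) z₀' χ hχ'
        have hon : ∀ z', SameRed r (y (ν z')) (y z₀) →
            (fun i => P i (ν z')) = fun i => P' i z' := by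
          intro z' hz'
          refine pts_eq G χ (fun i => h1 i (ν z')) (fun i => (hP' i).fib z') (D := y (ν z')) ?_ ?_
          · have := h2 (ν z')
            rwa [freeze_of_sameRed hz'] at this
          · have := hP'' z'
            rwa [freeze_of_sameRed (y := fun z' => y (ν z')) (hz'.trans hz₀'.symm)] at this
        have heq : (fun z' => ev (P i (ν z')) f) =
            (fun z' => clsInd r y z₀ (ν z')) * (fun z' => ev (P' i z') f) +
              (1 - fun z' => clsInd r y z₀ (ν z')) * (fun _ => ev (P i z₀) f) := by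
          funext z'
          simp only [Pi.add_apply, Pi.mul_apply, Pi.sub_apply, Pi.one_apply]
          by_cases hz : SameRed r (y (ν z')) (y z₀)
          · rw [clsInd_of_sameRed hz, congrFun (hon z' hz) i]
            ring
          · rw [clsInd_of_not_sameRed hz, congrFun (hoff (ν z') hz) i]
            ring
        rw [heq]
        exact S'.add_mem (S'.mul_mem (hind z₀) ((hP' i).mem f h3))
          (S'.mul_mem (S'.sub_mem S'.one_mem (hind z₀)) (hS'.const _ hc))
      · push Not at hU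
        have heq : (fun z' => ev (P i (ν z')) f) = fun _ => ev (P i z₀) f := by
          funext z'
          rw [congrFun (hoff (ν z') (hU z')) i]
        rw [heq]
        exact hS'.const _ hc
  exact fun φ hφ => key hφ

theorem HA_le (G : Good R r) {y : Z → Divisor K F} (hy : ∀ z, Divisor.degree (y z) = 0)
    {S : Subring (Z → K)} (hS : IsOrd (constRing R) S) (h : IsInt R r S y) : HA R r y ≤ S :=
  fun φ hφ => HA_comp_mem G hy hS id h φ hφ

/-- **Comultiplication.** -/
theorem HA_add (G : Good R r) {Z₁ Z₂ Z₃ : Type*} [Finite Z₁] [Finite Z₂] [Finite Z₃]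
    {y₁ : Z₁ → Divisor K F} {y₂ : Z₂ → Divisor K F} {y₃ : Z₃ → Divisor K F}
    (h₁ : ∀ z, Divisor.degree (y₁ z) = 0) (h₂ : ∀ z, Divisor.degree (y₂ z) = 0)
    (h₃ : ∀ z, Divisor.degree (y₃ z) = 0)
    (i₁ : ∀ z z', Divisor.IsPrincipal (y₁ z - y₁ z') → z = z')
    (i₂ : ∀ z z', Divisor.IsPrincipal (y₂ z - y₂ z') → z = z')
    (μ : Z₁ × Z₂ → Z₃) (hμ : ∀ p, Divisor.IsPrincipal (y₁ p.1 + y₂ p.2 - y₃ (μ p))) :
    ∀ φ ∈ HA R r y₃, (fun p => φ (μ p)) ∈ prodOrd (HA R r y₁) (HA R r y₂) := by
  have hS := isOrd_prodOrd (isOrd_HA G h₁ i₁) (isOrd_HA G h₂ i₂)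
  have a₁ : IsInt R r (prodOrd (HA R r y₁) (HA R r y₂)) (fun p : Z₁ × Z₂ => y₁ p.1) :=
    (isInt_HA G h₁).comp Prod.fst
      (fun φ hφ => Subring.subset_closure (Or.inl ⟨φ, hφ, rfl⟩))
  have a₂ : IsInt R r (prodOrd (HA R r y₁) (HA R r y₂)) (fun p : Z₁ × Z₂ => y₂ p.2) :=
    (isInt_HA G h₂).comp Prod.snd
      (fun φ hφ => Subring.subset_closure (Or.inr ⟨φ, hφ, rfl⟩))
  exact HA_comp_mem G h₃ hS μ
    ((a₁.add G hS (fun p => h₁ p.1) (fun p => h₂ p.2) a₂).congr G hμ)

/-- **Antipode.** -/
theorem HA_neg (G : Good R r) {Z₁ Z₂ : Type*} [Finite Z₁] [Finite Z₂]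
    {y₁ : Z₁ → Divisor K F} {y₂ : Z₂ → Divisor K F}
    (h₁ : ∀ z, Divisor.degree (y₁ z) = 0) (h₂ : ∀ z, Divisor.degree (y₂ z) = 0)
    (i₁ : ∀ z z', Divisor.IsPrincipal (y₁ z - y₁ z') → z = z')
    (ν : Z₁ → Z₂) (hν : ∀ z, Divisor.IsPrincipal (- y₁ z - y₂ (ν z))) :
    ∀ φ ∈ HA R r y₂, (fun z => φ (ν z)) ∈ HA R r y₁ :=
  HA_comp_mem G h₂ (isOrd_HA G h₁ i₁) ν
    (((isInt_HA G h₁).neg G (isOrd_HA G h₁ i₁) h₁).congr G hν)

/-- Translation by a fixed class / any map compatible with the classes up to a constant. -/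
theorem HA_translate (G : Good R r) {Z₁ Z₂ : Type*} [Finite Z₁] [Finite Z₂]
    {y₁ : Z₁ → Divisor K F} {y₂ : Z₂ → Divisor K F}
    (h₁ : ∀ z, Divisor.degree (y₁ z) = 0) (h₂ : ∀ z, Divisor.degree (y₂ z) = 0)
    (i₁ : ∀ z z', Divisor.IsPrincipal (y₁ z - y₁ z') → z = z')
    (C : Divisor K F) (hC : Divisor.degree C = 0)
    (ν : Z₁ → Z₂) (hν : ∀ z, Divisor.IsPrincipal (y₁ z + C - y₂ (ν z))) :
    ∀ φ ∈ HA R r y₂, (fun z => φ (ν z)) ∈ HA R r y₁ :=
  HA_comp_mem G h₂ (isOrd_HA G h₁ i₁) ν
    (((isInt_HA G h₁).add G (isOrd_HA G h₁ i₁) h₁ (fun _ => hC)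
      (IsInt.const G (isOrd_HA G h₁ i₁) hC)).congr G hν)

/-- **The special fibre**: two points are congruent modulo the maximal ideal iff they have the same reduction. -/
theorem HA_residue (G : Good R r) {y : Z → Divisor K F} (hy : ∀ z, Divisor.degree (y z) = 0)
    (z z' : Z) :
    (∀ φ ∈ HA R r y, (constRing R).valuation (φ z - φ z') < 1) ↔ SameRed r (y z) (y z') := by
  constructor
  · intro h
    by_contra hs
    have := h _ (mem_HA_clsInd y z')
    rw [clsInd_of_not_sameRed hs, clsInd_of_sameRed (SameRed.refl _), zero_sub, Valuation.map_neg,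
      map_one] at this
    exact lt_irrefl _ this
  · intro hs
    set A := constRing R with hA
    let T : Subring (Z → K) :=
      { carrier := {φ | φ z ∈ A ∧ φ z' ∈ A ∧ A.valuation (φ z - φ z') < 1}
        mul_mem' := by
          rintro φ ψ ⟨a1, a2, a3⟩ ⟨b1, b2, b3⟩
          refine ⟨A.mul_mem _ _ a1 b1, A.mul_mem _ _ a2 b2, ?_⟩
          have e : (φ * ψ) z - (φ * ψ) z' = φ z * (ψ z - ψ z') + (φ z - φ z') * ψ z' := by
            simp only [Pi.mul_apply]; ring
          rw [e]
          refine Valuation.map_add_lt _ ?_ ?_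
          · rw [map_mul]
            exact lt_of_le_of_lt (mul_le_of_le_one_left' ((A.valuation_le_one_iff _).2 a1)) b3
          · rw [map_mul]
            exact lt_of_le_of_lt (mul_le_of_le_one_right' ((A.valuation_le_one_iff _).2 b2)) a3
        one_mem' := ⟨A.one_mem, A.one_mem, by simp⟩
        add_mem' := by
          rintro φ ψ ⟨a1, a2, a3⟩ ⟨b1, b2, b3⟩
          refine ⟨A.add_mem _ _ a1 b1, A.add_mem _ _ a2 b2, ?_⟩
          have e : (φ + ψ) z - (φ + ψ) z' = (φ z - φ z') + (ψ z - ψ z') := by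
            simp only [Pi.add_apply]; ring
          rw [e]
          exact Valuation.map_add_lt _ a3 b3
        zero_mem' := ⟨A.zero_mem, A.zero_mem, by simp⟩
        neg_mem' := by
          rintro φ ⟨a1, a2, a3⟩
          refine ⟨A.neg_mem _ a1, A.neg_mem _ a2, ?_⟩
          have e : (-φ) z - (-φ) z' = -(φ z - φ z') := by
            simp only [Pi.neg_apply]; ring
          rw [e, Valuation.map_neg]
          exact a3 }
    have key : HA R r y ≤ T := by
      refine Subring.closure_le.2 ?_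
      rintro φ (⟨a, ha, rfl⟩ | ⟨z₀, rfl⟩ | ⟨z₀, χ, P, i, f, h1, h2, h3, rfl⟩)
      · exact ⟨ha, ha, by simp⟩
      · by_cases hz : SameRed r (y z) (y z₀)
        · have hz' : SameRed r (y z') (y z₀) := hs.symm.trans hz
          refine ⟨?_, ?_, ?_⟩
          · rw [clsInd_of_sameRed hz]; exact A.one_mem
          · rw [clsInd_of_sameRed hz']; exact A.one_mem
          · rw [clsInd_of_sameRed hz, clsInd_of_sameRed hz']; simp
        · have hz' : ¬ SameRed r (y z') (y z₀) := fun h => hz (hs.trans h)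
          refine ⟨?_, ?_, ?_⟩
          · rw [clsInd_of_not_sameRed hz]; exact A.zero_mem
          · rw [clsInd_of_not_sameRed hz']; exact A.zero_mem
          · rw [clsInd_of_not_sameRed hz, clsInd_of_not_sameRed hz']; simp
      · exact ⟨ev_mem_constRing G h3 (h1 i z), ev_mem_constRing G h3 (h1 i z'),
          val_ev_sub_ev_lt_one G h3 (h1 i z) (h1 i z')⟩
    exact fun φ hφ => (key hφ).2.2

/-- **Closed subschemes**: restriction of functions is onto. -/
theorem HA_restrict_surj (G : Good R r) {y : Z → Divisor K F}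
    (hy : ∀ z, Divisor.degree (y z) = 0) {Z' : Type*} [Finite Z'] (ν : Z' → Z) :
    ∀ ψ ∈ HA R r (fun z' => y (ν z')), ∃ φ ∈ HA R r y, ψ = fun z' => φ (ν z') := by
  have key : HA R r (fun z' => y (ν z')) ≤ (HA R r y).map (compHom ν) := by
    refine Subring.closure_le.2 ?_
    rintro ψ (⟨a, ha, rfl⟩ | ⟨z₀', rfl⟩ | ⟨z₀', χ, P', i, f, h1, h2, h3, rfl⟩)
    · exact ⟨fun _ => a, Subring.subset_closure (Or.inl ⟨a, ha, rfl⟩), rfl⟩
    · exact ⟨clsInd r y (ν z₀'), mem_HA_clsInd y (ν z₀'), rfl⟩
    · have hχ : χ.Adapted (y (ν z₀')) := by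
        have := χ.adapted_of_pts G (fun i => h1 i z₀') (h2 z₀')
        rwa [freeze_self (y := fun z' => y (ν z'))] at this
      obtain ⟨P, hP, hP'⟩ := exists_pts_freeze G hy (ν z₀') χ hχ
      refine ⟨fun z => ev (P i z) f, mem_HA_coord (ν z₀') χ P i f hP hP' h3, ?_⟩
      rw [compHom_apply]
      funext z'
      have : (fun i => P i (ν z')) = fun i => P' i z' :=
        pts_eq G χ (fun i => hP i (ν z')) (fun i => h1 i z') (hP' (ν z')) (h2 z')
      rw [congrFun this i]
  intro ψ hψ
  obtain ⟨φ, hφ, rfl⟩ := key hψ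
  exact ⟨φ, hφ, rfl⟩

end

end Fermat.Agent.FFG
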