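import Fermat.Agent.FFG.Trans

/-!
# FFG / Int : integral families of divisor classes over several residue classes      [WP INT]

`IsIntFam S χ y` (Defs) only makes sense when all `y z` lie in ONE residue class of `Pic⁰` (the one of the chart).
For a general finite family `y : Z → Div⁰` we cut `Z` into the residue classes
`{z | SameRed r (y z) (y z₀)}`; no subtypes: `freeze r y z₀` is the family `y` on the class of `z₀` and the constant
`y z₀` outside.  `IsInt R r S y`: the indicators of the classes are in `S` and every frozen family is `S`-integral in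
some (equivalently: any adapted, `IsInt.fam_all`) chart.

PAPER PROOFS.
* `SameRed` is an equivalence relation, compatible with `+`, `-`, and contains linear equivalence
  (`Finsupp.mapDomain_add/neg`, `isPrincipal_mapDomain`).  `Chart.Adapted` only depends on the `SameRed`-class.
* `IsIntFam.glue`: `P i z := P^{c z} i z`; `ev (P i z) f = ∑_j 1_{c z = j} * ev (P^j i z) f` (finite sum in `S`).
* `ind_mem_of_saturated`: the indicator of `U` is the sum of the DISTINCT class indicators contained in `U`
  (sum over the finite set `{clsInd r y z₀ | z₀ ∈ U}` of functions, or induction on `U`).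
* `IsInt.fam_all`: `IsIntFam.change`.
* `IsInt.add`: put `z ≈ z'` iff `SameRed (y z) (y z')` and `SameRed (y' z) (y' z')`; its class indicators are the products
  `clsInd r y z₁ * clsInd r y' z₁ ∈ S`.  The class of `z₀` for `y + y'` is `≈`-saturated, so its indicator is a sum of
  such products.  Integrality: let `χ''` be adapted to `y z₀ + y' z₀` (`exists_chart`).  For every `z₁` in the class of
  `z₀`, `freeze r y z₁ + freeze r y' z₁` is integral in `χ''` (`IsIntFam.add` + `fam_all`); for `z₁` outside use the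
  constant family `y z₀ + y' z₀` (`IsIntFam.const`).  Glue along `c z := ` the `≈`-class of `z` (as an element of the
  finite type `Set Z`, with a chosen representative).
* `IsInt.neg`, `IsInt.const`, `IsInt.congr`, `IsInt.comp`: same classes, `IsIntFam.neg/const/congr/comp`.
-/

set_option autoImplicit false
set_option linter.unusedSectionVars false

open AlgebraicCurve

namespace Fermat.Agent.FFG

open Fermat.Agent.RED Fermat.Agent.S24

noncomputable section

variable {K F k Fb : Type*} [Field K] [Field F] [Algebra K F] [Field k] [Field Fb] [Algebra k Fb]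

/-- `D` and `D'` have the same reduction class. -/
def SameRed (r : Place K F → Place k Fb) (D D' : Divisor K F) : Prop :=
  Divisor.IsPrincipal ((D - D').mapDomain r)

open Classical in
/-- The indicator function of the residue class of `y z₀`. -/
def clsInd {Z : Type*} (r : Place K F → Place k Fb) (y : Z → Divisor K F) (z₀ : Z) : Z → K :=
  fun z => if SameRed r (y z) (y z₀) then 1 else 0

open Classical in
/-- The family `y` on the residue class of `y z₀`, frozen to the constant `y z₀` outside. -/
def freeze {Z : Type*} (r : Place K F → Place k Fb) (y : Z → Divisor K F) (z₀ : Z) :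
    Z → Divisor K F :=
  fun z => if SameRed r (y z) (y z₀) then y z else y z₀

/-- `y` is an `S`-integral family of divisor classes ("an `S`-valued point of the Néron model"). -/
structure IsInt (R : RedData K F k Fb) (r : Place K F → Place k Fb) {Z : Type*}
    (S : Subring (Z → K)) (y : Z → Divisor K F) : Prop where
  ind : ∀ z₀, clsInd r y z₀ ∈ S
  fam : ∀ z₀, ∃ χ : Chart R r, IsIntFam S χ (freeze r y z₀)

variable [IsAlgClosed K] [IsAlgClosed k]
variable {R : RedData K F k Fb} {r : Place K F → Place k Fb}
variable {Z : Type*} [Finite Z] {S : Subring (Z → K)}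

/-- `r_*` as an additive map (auxiliary). -/
def IntAux.md (r : Place K F → Place k Fb) : Divisor K F →+ Divisor k Fb :=
  Finsupp.mapDomain.addMonoidHom r

theorem IntAux.md_apply (r : Place K F → Place k Fb) (D : Divisor K F) :
    IntAux.md r D = D.mapDomain r := rfl

theorem IntAux.sameRed_iff {D D' : Divisor K F} :
    SameRed r D D' ↔ IntAux.md r D - IntAux.md r D' ∈ Divisor.principal (K := k) (F := Fb) := by
  rw [← map_sub]
  exact Iff.rfl

theorem IntAux.adapted_iff {χ : Chart R r} {D : Divisor K F} :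
    χ.Adapted D ↔ IntAux.md r D + IntAux.md r χ.a - sumP χ.pt ∈
      Divisor.principal (K := k) (F := Fb) := by
  rw [← map_add]
  exact Iff.rfl

theorem SameRed.refl (D : Divisor K F) : SameRed r D D := by
  rw [IntAux.sameRed_iff, sub_self]
  exact AddSubgroup.zero_mem _

theorem SameRed.symm {D D' : Divisor K F} (h : SameRed r D D') : SameRed r D' D := by
  rw [IntAux.sameRed_iff] at h ⊢
  rw [← neg_sub]
  exact AddSubgroup.neg_mem _ h

theorem SameRed.trans {D D' D'' : Divisor K F} (h : SameRed r D D') (h' : SameRed r D' D'') :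
    SameRed r D D'' := by
  rw [IntAux.sameRed_iff] at h h' ⊢
  have := AddSubgroup.add_mem _ h h'
  rwa [sub_add_sub_cancel] at this

theorem SameRed.add {D D' E E' : Divisor K F} (h : SameRed r D D') (h' : SameRed r E E') :
    SameRed r (D + E) (D' + E') := by
  rw [IntAux.sameRed_iff] at h h' ⊢
  have := AddSubgroup.add_mem _ h h'
  rwa [map_add, map_add, add_sub_add_comm]

theorem SameRed.neg {D D' : Divisor K F} (h : SameRed r D D') : SameRed r (-D) (-D') := by
  rw [IntAux.sameRed_iff] at h ⊢
  have := AddSubgroup.neg_mem _ h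
  rwa [map_neg, map_neg, ← neg_sub', ]

theorem sameRed_of_isPrincipal (G : Good R r) {D D' : Divisor K F}
    (h : Divisor.IsPrincipal (D - D')) : SameRed r D D' :=
  isPrincipal_mapDomain G h

theorem Chart.Adapted.of_sameRed {χ : Chart R r} {D D' : Divisor K F} (h : χ.Adapted D)
    (h' : SameRed r D D') : χ.Adapted D' := by
  rw [IntAux.adapted_iff] at h ⊢
  rw [IntAux.sameRed_iff] at h'
  have := AddSubgroup.sub_mem _ h h'
  convert this using 1
  abel

theorem Chart.Adapted.sameRed {χ : Chart R r} {D D' : Divisor K F} (h : χ.Adapted D)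
    (h' : χ.Adapted D') : SameRed r D D' := by
  rw [IntAux.adapted_iff] at h h'
  rw [IntAux.sameRed_iff]
  have := AddSubgroup.sub_mem _ h h'
  convert this using 1
  abel

theorem sameRed_freeze (y : Z → Divisor K F) (z₀ z : Z) : SameRed r (freeze r y z₀ z) (y z₀) := by
  unfold freeze
  split_ifs with h
  · exact h
  · exact SameRed.refl _

theorem IntAux.freeze_of_sameRed {y : Z → Divisor K F} {z₀ z : Z}
    (h : SameRed r (y z) (y z₀)) : freeze r y z₀ z = y z := by
  unfold freeze
  rw [if_pos h]

theorem IntAux.freeze_of_not {y : Z → Divisor K F} {z₀ z : Z}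
    (h : ¬ SameRed r (y z) (y z₀)) : freeze r y z₀ z = y z₀ := by
  unfold freeze
  rw [if_neg h]

theorem IntAux.degree_freeze {y : Z → Divisor K F} (hy : ∀ z, Divisor.degree (y z) = 0)
    (z₀ z : Z) : Divisor.degree (freeze r y z₀ z) = 0 := by
  unfold freeze
  split_ifs
  · exact hy z
  · exact hy z₀

theorem IntAux.clsInd_of_sameRed {y : Z → Divisor K F} {z₀ z : Z}
    (h : SameRed r (y z) (y z₀)) : clsInd r y z₀ z = 1 := by
  unfold clsInd
  rw [if_pos h]

theorem IntAux.clsInd_of_not {y : Z → Divisor K F} {z₀ z : Z}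
    (h : ¬ SameRed r (y z) (y z₀)) : clsInd r y z₀ z = 0 := by
  unfold clsInd
  rw [if_neg h]

/-- the indicator of `U` from functions `e z₁ ∈ S` supported in `U` with `e z₁ z₁ = 1`:
`1_U = 1 - ∏_{z₁ ∈ U} (1 - e z₁)`. -/
theorem IntAux.ind_mem (U : Set Z) (e : Z → Z → K) (he : ∀ z₁, e z₁ ∈ S)
    (h1 : ∀ z₁ ∈ U, e z₁ z₁ = 1) (h0 : ∀ z₁ ∈ U, ∀ z, z ∉ U → e z₁ z = 0) :
    (fun z => by classical exact if z ∈ U then (1 : K) else 0) ∈ S := by
  classical
  cases nonempty_fintype Z
  have key : (fun z => if z ∈ U then (1 : K) else 0) = 1 - ∏ z₁ ∈ U.toFinset, (1 - e z₁) := by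
    funext z
    rw [Pi.sub_apply, Finset.prod_apply, Pi.one_apply]
    by_cases hz : z ∈ U
    · rw [if_pos hz, Finset.prod_eq_zero (Set.mem_toFinset.2 hz), sub_zero]
      rw [Pi.sub_apply, Pi.one_apply, h1 z hz, sub_self]
    · rw [if_neg hz, Finset.prod_eq_one, sub_self]
      intro z₁ hz₁
      rw [Pi.sub_apply, Pi.one_apply, h0 z₁ (Set.mem_toFinset.1 hz₁) z hz, sub_zero]
  have hmem : (1 - ∏ z₁ ∈ U.toFinset, (1 - e z₁) : Z → K) ∈ S :=
    S.sub_mem S.one_mem (Subring.prod_mem _ fun z₁ _ => S.sub_mem S.one_mem (he z₁))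
  rw [← key] at hmem
  convert hmem

/-- Gluing of integral families along a partition whose indicators lie in `S`. -/
theorem IsIntFam.glue {J : Type*} [Finite J] (c : Z → J)
    (hc : ∀ j, (fun z => by classical exact if c z = j then (1 : K) else 0) ∈ S) {χ : Chart R r}
    (Y : J → Z → Divisor K F) (hY : ∀ j, IsIntFam S χ (Y j)) :
    IsIntFam S χ (fun z => Y (c z) z) := by
  classical
  cases nonempty_fintype J
  choose P hP hpr using hY
  refine ⟨fun i z => P (c z) i z, fun i => ⟨fun z => (hP (c z) i).fib z, fun f hf => ?_⟩,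
    fun z => hpr (c z) z⟩
  have key : (fun z => ev (P (c z) i z) f) =
      ∑ j, (fun z => if c z = j then (1 : K) else 0) * (fun z => ev (P j i z) f) := by
    funext z
    rw [Finset.sum_apply, Finset.sum_eq_single (c z)]
    · rw [Pi.mul_apply, if_pos rfl, one_mul]
    · intro j _ hj
      rw [Pi.mul_apply, if_neg (Ne.symm hj), zero_mul]
    · intro h
      exact absurd (Finset.mem_univ _) h
  rw [key]
  refine Subring.sum_mem _ fun j _ => S.mul_mem ?_ ((hP j i).mem f hf)
  convert hc j

/-- The indicator of a union of residue classes lies in `S`. -/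
theorem ind_mem_of_saturated {y : Z → Divisor K F} (h : ∀ z₀, clsInd r y z₀ ∈ S) (U : Set Z)
    (hU : ∀ z z', z ∈ U → SameRed r (y z') (y z) → z' ∈ U) :
    (fun z => by classical exact if z ∈ U then (1 : K) else 0) ∈ S := by
  refine IntAux.ind_mem U (clsInd r y) h (fun z₁ _ => IntAux.clsInd_of_sameRed (SameRed.refl _))
    (fun z₁ hz₁ z hz => IntAux.clsInd_of_not fun hs => hz (hU z₁ z hz₁ hs))

/-- Integrality can be tested / used in any adapted chart. -/
theorem IsInt.fam_all (G : Good R r) (hS : IsOrd (constRing R) S) {y : Z → Divisor K F}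
    (hy : ∀ z, Divisor.degree (y z) = 0) (h : IsInt R r S y) (z₀ : Z) (χ : Chart R r)
    (hχ : χ.Adapted (y z₀)) : IsIntFam S χ (freeze r y z₀) := by
  obtain ⟨χ₀, h₀⟩ := h.fam z₀
  exact h₀.change G hS (IntAux.degree_freeze hy z₀)
    (fun z => hχ.of_sameRed (sameRed_freeze y z₀ z).symm)

theorem IsInt.add (G : Good R r) (hS : IsOrd (constRing R) S) {y y' : Z → Divisor K F}
    (hy : ∀ z, Divisor.degree (y z) = 0) (hy' : ∀ z, Divisor.degree (y' z) = 0)
    (h : IsInt R r S y) (h' : IsInt R r S y') : IsInt R r S (fun z => y z + y' z) := by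
  classical
  -- the finer equivalence relation
  let st : Setoid Z :=
    { r := fun z z' => SameRed r (y z) (y z') ∧ SameRed r (y' z) (y' z')
      iseqv :=
        ⟨fun z => ⟨SameRed.refl _, SameRed.refl _⟩, fun h => ⟨h.1.symm, h.2.symm⟩,
          fun h₁ h₂ => ⟨h₁.1.trans h₂.1, h₁.2.trans h₂.2⟩⟩ }
  have hst : ∀ z z', st.r z z' ↔ SameRed r (y z) (y z') ∧ SameRed r (y' z) (y' z') :=
    fun _ _ => Iff.rfl
  -- the indicators of the finer classes
  set e : Z → Z → K := fun z₁ => clsInd r y z₁ * clsInd r y' z₁ with he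
  have heS : ∀ z₁, e z₁ ∈ S := fun z₁ => S.mul_mem (h.ind z₁) (h'.ind z₁)
  have he1 : ∀ z₁ z, st.r z z₁ → e z₁ z = 1 := by
    intro z₁ z hz
    show clsInd r y z₁ z * clsInd r y' z₁ z = 1
    rw [IntAux.clsInd_of_sameRed hz.1, IntAux.clsInd_of_sameRed hz.2, one_mul]
  have he0 : ∀ z₁ z, ¬ st.r z z₁ → e z₁ z = 0 := by
    intro z₁ z hz
    show clsInd r y z₁ z * clsInd r y' z₁ z = 0
    by_cases h1 : SameRed r (y z) (y z₁)
    · have h2 : ¬ SameRed r (y' z) (y' z₁) := fun h2 => hz ⟨h1, h2⟩
      rw [IntAux.clsInd_of_not h2, mul_zero]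
    · rw [IntAux.clsInd_of_not h1, zero_mul]
  have hsat : ∀ z z', st.r z z' → SameRed r (y z + y' z) (y z' + y' z') :=
    fun z z' hz => hz.1.add hz.2
  refine ⟨fun z₀ => ?_, fun z₀ => ?_⟩
  · -- the indicator
    have := IntAux.ind_mem (S := S) {z | SameRed r (y z + y' z) (y z₀ + y' z₀)} e heS
      (fun z₁ _ => he1 z₁ z₁ (st.refl _))
      (fun z₁ hz₁ z hz => he0 z₁ z fun hs => hz ((hsat z z₁ hs).trans hz₁))
    exact this
  · obtain ⟨χ, hχ, -, -⟩ := exists_chart G (y z₀ + y' z₀)
      (by rw [map_add, hy, hy', add_zero]) ∅ Set.finite_empty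
    refine ⟨χ, ?_⟩
    -- representatives
    set rp : Z → Z := fun z => (Quotient.mk st z).out with hrp
    have hrp1 : ∀ z, st.r (rp z) z := fun z => Quotient.mk_out (s := st) z
    have hrp2 : ∀ z z', st.r z z' → rp z = rp z' := by
      intro z z' hz
      rw [hrp]
      show (Quotient.mk st z).out = (Quotient.mk st z').out
      rw [Quotient.sound (s := st) hz]
    set Y : Z → Z → Divisor K F := fun j =>
      if SameRed r (y j + y' j) (y z₀ + y' z₀) then
        fun z => freeze r y j z + freeze r y' j z
      else fun _ => y z₀ + y' z₀ with hY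
    have hglue := IsIntFam.glue (S := S) (χ := χ) rp
      (by
        intro j
        by_cases hj : rp j = j
        · have : (fun z => if rp z = j then (1 : K) else 0) = e j := by
            funext z
            by_cases hz : st.r z j
            · rw [he1 j z hz, if_pos (by rw [hrp2 z j hz, hj])]
            · rw [he0 j z hz, if_neg]
              intro hzj
              exact hz (hzj ▸ st.symm (hrp1 z))
          have h2 := heS j
          rw [← this] at h2
          convert h2
        · have : (fun z => if rp z = j then (1 : K) else 0) = 0 := by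
            funext z
            rw [if_neg, Pi.zero_apply]
            intro hzj
            apply hj
            rw [← hzj]
            exact hrp2 _ _ (hrp1 z)
          have h2 := S.zero_mem
          rw [← this] at h2
          convert h2)
      Y
      (by
        intro j
        rw [hY]
        show IsIntFam S χ (if SameRed r (y j + y' j) (y z₀ + y' z₀) then
          fun z => freeze r y j z + freeze r y' j z else fun _ => y z₀ + y' z₀)
        split_ifs with hj
        · obtain ⟨χ₁, h₁⟩ := h.fam j
          obtain ⟨χ₂, h₂⟩ := h'.fam j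
          refine h₁.add G hS (IntAux.degree_freeze hy j) (IntAux.degree_freeze hy' j) h₂
            (fun z => hχ.of_sameRed ?_)
          exact (((sameRed_freeze y j z).add (sameRed_freeze y' j z)).trans hj).symm
        · exact IsIntFam.const G hS (by rw [map_add, hy, hy', add_zero]) hχ)
    have hfin : (fun z => Y (rp z) z) = freeze r (fun z => y z + y' z) z₀ := by
      funext z
      have hz := hrp1 z
      by_cases hU : SameRed r (y z + y' z) (y z₀ + y' z₀)
      · have hU' : SameRed r (y (rp z) + y' (rp z)) (y z₀ + y' z₀) := (hsat _ _ hz).trans hU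
        rw [IntAux.freeze_of_sameRed (y := fun z => y z + y' z) hU, hY]
        show (if SameRed r (y (rp z) + y' (rp z)) (y z₀ + y' z₀) then
          fun z' => freeze r y (rp z) z' + freeze r y' (rp z) z' else fun _ => y z₀ + y' z₀) z = _
        rw [if_pos hU', IntAux.freeze_of_sameRed hz.1.symm, IntAux.freeze_of_sameRed hz.2.symm]
      · have hU' : ¬ SameRed r (y (rp z) + y' (rp z)) (y z₀ + y' z₀) :=
          fun h3 => hU ((hsat _ _ (st.symm hz)).trans h3)
        rw [IntAux.freeze_of_not (y := fun z => y z + y' z) hU, hY]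
        show (if SameRed r (y (rp z) + y' (rp z)) (y z₀ + y' z₀) then
          fun z' => freeze r y (rp z) z' + freeze r y' (rp z) z' else fun _ => y z₀ + y' z₀) z = _
        rw [if_neg hU']
    rw [← hfin]
    exact hglue

theorem IsInt.neg (G : Good R r) (hS : IsOrd (constRing R) S) {y : Z → Divisor K F}
    (hy : ∀ z, Divisor.degree (y z) = 0) (h : IsInt R r S y) : IsInt R r S (fun z => - y z) := by
  have hiff : ∀ z z₀, SameRed r (- y z) (- y z₀) ↔ SameRed r (y z) (y z₀) := by
    intro z z₀
    refine ⟨fun h1 => ?_, fun h1 => h1.neg⟩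
    have := h1.neg
    rwa [neg_neg, neg_neg] at this
  refine ⟨fun z₀ => ?_, fun z₀ => ?_⟩
  · have : clsInd r (fun z => - y z) z₀ = clsInd r y z₀ := by
      funext z
      by_cases h1 : SameRed r (y z) (y z₀)
      · rw [IntAux.clsInd_of_sameRed h1,
          IntAux.clsInd_of_sameRed (y := fun z => - y z) ((hiff z z₀).2 h1)]
      · rw [IntAux.clsInd_of_not h1,
          IntAux.clsInd_of_not (y := fun z => - y z) (fun h2 => h1 ((hiff z z₀).1 h2))]
    rw [this]
    exact h.ind z₀
  · obtain ⟨χ, hχ, -, -⟩ := exists_chart G (- y z₀) (by rw [map_neg, hy, neg_zero]) ∅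
      Set.finite_empty
    obtain ⟨χ₁, h₁⟩ := h.fam z₀
    have : freeze r (fun z => - y z) z₀ = fun z => - freeze r y z₀ z := by
      funext z
      by_cases h1 : SameRed r (y z) (y z₀)
      · rw [IntAux.freeze_of_sameRed h1,
          IntAux.freeze_of_sameRed (y := fun z => - y z) ((hiff z z₀).2 h1)]
      · rw [IntAux.freeze_of_not h1,
          IntAux.freeze_of_not (y := fun z => - y z) (fun h2 => h1 ((hiff z z₀).1 h2))]
    rw [this]
    exact ⟨χ, h₁.neg G hS (IntAux.degree_freeze hy z₀)
      (fun z => hχ.of_sameRed (sameRed_freeze y z₀ z).neg.symm)⟩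

theorem IsInt.const (G : Good R r) (hS : IsOrd (constRing R) S) {D : Divisor K F}
    (hD : Divisor.degree D = 0) : IsInt R r S (fun _ : Z => D) := by
  refine ⟨fun z₀ => ?_, fun z₀ => ?_⟩
  · have : clsInd r (fun _ : Z => D) z₀ = 1 := by
      funext z
      exact IntAux.clsInd_of_sameRed (y := fun _ : Z => D) (SameRed.refl _)
    rw [this]
    exact S.one_mem
  · obtain ⟨χ, hχ, -, -⟩ := exists_chart G D hD ∅ Set.finite_empty
    have : freeze r (fun _ : Z => D) z₀ = fun _ => D := by
      funext z
      exact IntAux.freeze_of_sameRed (y := fun _ : Z => D) (SameRed.refl _)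
    rw [this]
    exact ⟨χ, IsIntFam.const G hS hD hχ⟩

theorem IsInt.congr (G : Good R r) {y y' : Z → Divisor K F}
    (hyy' : ∀ z, Divisor.IsPrincipal (y z - y' z)) (h : IsInt R r S y) : IsInt R r S y' := by
  have hs : ∀ z, SameRed r (y z) (y' z) := fun z => sameRed_of_isPrincipal G (hyy' z)
  have hiff : ∀ z z₀, SameRed r (y' z) (y' z₀) ↔ SameRed r (y z) (y z₀) := by
    intro z z₀
    exact ⟨fun h1 => ((hs z).trans h1).trans (hs z₀).symm,
      fun h1 => ((hs z).symm.trans h1).trans (hs z₀)⟩
  refine ⟨fun z₀ => ?_, fun z₀ => ?_⟩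
  · have : clsInd r y' z₀ = clsInd r y z₀ := by
      funext z
      by_cases h1 : SameRed r (y z) (y z₀)
      · rw [IntAux.clsInd_of_sameRed h1, IntAux.clsInd_of_sameRed ((hiff z z₀).2 h1)]
      · rw [IntAux.clsInd_of_not h1, IntAux.clsInd_of_not (fun h2 => h1 ((hiff z z₀).1 h2))]
    rw [this]
    exact h.ind z₀
  · obtain ⟨χ₁, h₁⟩ := h.fam z₀
    refine ⟨χ₁, h₁.congr fun z => ?_⟩
    by_cases h1 : SameRed r (y z) (y z₀)
    · rw [IntAux.freeze_of_sameRed h1, IntAux.freeze_of_sameRed ((hiff z z₀).2 h1)]
      exact hyy' z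
    · rw [IntAux.freeze_of_not h1, IntAux.freeze_of_not (fun h2 => h1 ((hiff z z₀).1 h2))]
      exact hyy' z₀

theorem IsInt.comp {Z' : Type*} {S' : Subring (Z' → K)} {y : Z → Divisor K F}
    (h : IsInt R r S y) (ν : Z' → Z) (hν : ∀ φ ∈ S, (fun z' => φ (ν z')) ∈ S') :
    IsInt R r S' (fun z' => y (ν z')) :=
  ⟨fun z₀ => hν _ (h.ind (ν z₀)), fun z₀ => by
    obtain ⟨χ, hχ⟩ := h.fam (ν z₀)
    exact ⟨χ, hχ.comp ν hν⟩⟩

end

end Fermat.Agent.FFG
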