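import Mathlib

/-!
# FFG / Order : orders in the split algebra `Z → K` over a valuation ring `A` of `K`   [WP ORD]

`Z` is a finite set, `A` a valuation ring of the field `K` ("rank one": `IsArch`).
An *order* is a subring `S` of `Z → K` containing the constants of `A`, consisting of `A`-valued
functions, and containing `π • (Z → A)` for some `π ≠ 0`.

Everything in this file is elementary valuation-ring algebra (Mathlib only).

PAPER PROOFS.
* `mem_of_approx`: let `π₀` be the conductor of `S`; by `IsArch` pick `n` with `v(π^n) ≤ v(π₀)`;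
  `φ - ψ_n = π₀ * (A-valued)`, which lies in `S`.
* `inv_mem`: `γ⁻¹` is `A`-valued, hence a root of `∏_z (X - γ⁻¹ z) ∈ A[X]` (monic, degree `n`);
  multiply the equation by `γ^(n-1)`: `γ⁻¹ = -(a₁ + a₂ γ + ... + a_n γ^(n-1)) ∈ S`.
  (Alternative: `γ` is a root of the monic `χ = ∏ (X - γ z)` whose constant term `± ∏ γ z` is a unit
  of `A`: `γ * (χ(γ) - χ(0))/γ = -χ(0)`.)
* `exists_bound`: take the element of largest valuation (finite family; if the family is empty take
  `π = 0`).
* `newton`: see the docstring.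
* `exists_solve`: `det N` is in `S` and is `≡ 1`, so it is a unit of `S` (`inv_mem`); use the
  adjugate.
* `isOrd_genOrd`: `δ_z * ∏_{z' ≠ z} (φ_{z,z'} z - φ_{z,z'} z') = ∏_{z' ≠ z} (φ_{z,z'} - const)`.
-/

set_option autoImplicit false
set_option linter.unusedSectionVars false

namespace Fermat.Agent.FFG

open scoped BigOperators

variable {K : Type*} [Field K] (A : ValuationSubring K)

/-- The valuation ring `A` has rank one (archimedean value group). -/
def IsArch : Prop :=
  ∀ π c : K, A.valuation π < 1 → c ≠ 0 → ∃ n : ℕ, A.valuation (π ^ n) ≤ A.valuation c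

/-- `S` is an `A`-order of the split algebra `Z → K`. -/
structure IsOrd {Z : Type*} (S : Subring (Z → K)) : Prop where
  const : ∀ a ∈ A, (fun _ : Z => a) ∈ S
  int : ∀ φ ∈ S, ∀ z, φ z ∈ A
  cond : ∃ π : K, π ≠ 0 ∧ ∀ φ : Z → K, (∀ z, φ z ∈ A) → (fun z => π * φ z) ∈ S

/-- The subring generated by the constants of `A` and a set of functions. -/
def genOrd {Z : Type*} (X : Set (Z → K)) : Subring (Z → K) :=
  Subring.closure ({φ | ∃ a ∈ A, φ = fun _ => a} ∪ X)

/-- The "tensor product" of two subrings of functions. -/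
def prodOrd {Z₁ Z₂ : Type*} (S₁ : Subring (Z₁ → K)) (S₂ : Subring (Z₂ → K)) :
    Subring (Z₁ × Z₂ → K) :=
  Subring.closure ({φ | ∃ a ∈ S₁, φ = fun p => a p.1} ∪ {φ | ∃ b ∈ S₂, φ = fun p => b p.2})

variable {A}
variable {Z : Type*} [Finite Z] {S : Subring (Z → K)}

namespace OrdAux

omit [Finite Z] in
lemma exists_mul_of_val_le {x c : K} (h : A.valuation x ≤ A.valuation c) :
    ∃ a ∈ A, x = c * a := by
  by_cases hc : c = 0
  · subst hc
    rw [map_zero, le_zero_iff, map_eq_zero] at h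
    exact ⟨0, A.zero_mem, by rw [h, mul_zero]⟩
  · refine ⟨x / c, ?_, by field_simp⟩
    rw [← A.valuation_le_one_iff, map_div₀]
    exact div_le_one_of_le₀ h zero_le

omit [Finite Z] in
lemma val_le_of_eq_mul {x c a : K} (ha : a ∈ A) (h : x = c * a) :
    A.valuation x ≤ A.valuation c := by
  rw [h, map_mul]
  exact mul_le_of_le_one_right zero_le ((A.valuation_le_one_iff a).2 ha)

omit [Finite Z] in
lemma smul_mem (hS : IsOrd A S) {a : K} (ha : a ∈ A) {φ : Z → K} (hφ : φ ∈ S) :
    (fun z => a * φ z) ∈ S :=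
  S.mul_mem (hS.const a ha) hφ

end OrdAux

open OrdAux

/-- An order is closed for the `π`-adic topology. -/
theorem IsOrd.mem_of_approx (hS : IsOrd A S) (harch : IsArch A) {π : K}
    (hπ : A.valuation π < 1) (φ : Z → K)
    (h : ∀ n : ℕ, ∃ ψ ∈ S, ∀ z, ∃ a ∈ A, φ z - ψ z = π ^ n * a) : φ ∈ S := by
  obtain ⟨π₀, hπ₀, hc⟩ := hS.cond
  obtain ⟨n, hn⟩ := harch π π₀ hπ hπ₀
  obtain ⟨ψ, hψ, hd⟩ := h n
  have h1 : ∀ z, (φ z - ψ z) / π₀ ∈ A := by
    intro z
    obtain ⟨a, ha, e⟩ := hd z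
    rw [← A.valuation_le_one_iff, map_div₀]
    exact div_le_one_of_le₀ ((val_le_of_eq_mul ha e).trans hn) zero_le
  have h2 := S.add_mem hψ (hc _ h1)
  have h3 : ψ + (fun z => π₀ * ((φ z - ψ z) / π₀)) = φ := by
    funext z
    simp only [Pi.add_apply]
    field_simp
    ring
  rwa [h3] at h2

omit [Finite Z] in
lemma OrdAux.aeval_mem (hS : IsOrd A S) {γ : Z → K} (hγ : γ ∈ S) (p : Polynomial K)
    (hp : ∀ i, p.coeff i ∈ A) : Polynomial.aeval γ p ∈ S := by
  rw [Polynomial.aeval_eq_sum_range]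
  refine S.sum_mem fun i _ => ?_
  have : p.coeff i • γ ^ i = (fun _ : Z => p.coeff i) * γ ^ i := by
    funext z; simp [smul_eq_mul]
  rw [this]
  exact S.mul_mem (hS.const _ (hp i)) (S.pow_mem hγ i)

/-- An element of an order which is a unit of `Z → A` is a unit of the order. -/
theorem IsOrd.inv_mem (hS : IsOrd A S) {γ : Z → K} (hγ : γ ∈ S)
    (hu : ∀ z, A.valuation (γ z) = 1) : (fun z => (γ z)⁻¹) ∈ S := by
  classical
  have := Fintype.ofFinite Z
  set P : Polynomial K := ∏ z : Z, (Polynomial.X - Polynomial.C (γ z)) with hP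
  have hPl : P ∈ Polynomial.lifts A.subtype := by
    refine Subsemiring.prod_mem _ fun z _ => ?_
    rw [sub_eq_add_neg, ← Polynomial.C_neg]
    exact add_mem (Polynomial.X_mem_lifts _) (Polynomial.C_mem_lifts A.subtype
      (⟨-γ z, A.neg_mem _ (hS.int γ hγ z)⟩ : A))
  have hPc : ∀ i, P.coeff i ∈ A := by
    intro i
    obtain ⟨c, hc⟩ := (Polynomial.lifts_iff_coeff_lifts P).1 hPl i
    rw [← hc]; exact c.2
  have hq : ∀ i, P.divX.coeff i ∈ A := fun i => by rw [Polynomial.coeff_divX]; exact hPc _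
  have hqS := aeval_mem hS hγ P.divX hq
  have hc0 : A.valuation (P.coeff 0) = 1 := by
    rw [Polynomial.coeff_zero_eq_eval_zero, hP, Polynomial.eval_prod, map_prod]
    refine Finset.prod_eq_one fun z _ => ?_
    simp [hu z]
  have hc0' : P.coeff 0 ≠ 0 := by
    intro h; rw [h, map_zero] at hc0; exact zero_ne_one hc0
  have heval : ∀ z, (Polynomial.aeval γ P.divX) z * γ z + P.coeff 0 = 0 := by
    intro z
    have h1 : Polynomial.eval (γ z) P = 0 := by
      rw [hP, Polynomial.eval_prod]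
      exact Finset.prod_eq_zero (Finset.mem_univ z) (by simp)
    have h2 : (Polynomial.aeval γ P.divX) z = Polynomial.eval (γ z) P.divX := by
      have := Polynomial.aeval_algHom_apply (Pi.evalAlgHom K (fun _ : Z => K) z) γ P.divX
      rw [Pi.evalAlgHom_apply, Pi.evalAlgHom_apply] at this
      rw [← this, Polynomial.coe_aeval_eq_eval]
    rw [h2]
    conv_rhs => rw [← h1, ← Polynomial.divX_mul_X_add P]
    simp
  have hinv : (-(P.coeff 0)⁻¹) ∈ A := by
    rw [← A.valuation_le_one_iff, Valuation.map_neg, map_inv₀, hc0, inv_one]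
  have h3 := smul_mem hS hinv hqS
  have h4 : (fun z => -(P.coeff 0)⁻¹ * (Polynomial.aeval γ P.divX) z) = fun z => (γ z)⁻¹ := by
    funext z
    have hz : γ z ≠ 0 := by
      intro h; have := hu z; rw [h, map_zero] at this; exact zero_ne_one this
    have := heval z
    field_simp
    linear_combination -this
  rwa [h4] at h3

/-- Finitely many elements of the maximal ideal lie in a principal proper ideal. -/
theorem exists_bound {ι : Type*} [Finite ι] (a : ι → K) (ha : ∀ i, A.valuation (a i) < 1) :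
    ∃ π : K, A.valuation π < 1 ∧ ∀ i, ∃ b ∈ A, a i = π * b := by
  rcases isEmpty_or_nonempty ι with h | h
  · exact ⟨0, by simp, fun i => h.elim i⟩
  · obtain ⟨i₀, hi₀⟩ := Finite.exists_max fun i => A.valuation (a i)
    exact ⟨a i₀, ha i₀, fun i => exists_mul_of_val_le (hi₀ i)⟩

omit [Finite Z] in
lemma OrdAux.val_pow_sub_pow_le {x y : K} {g : A.ValueGroup} (hg : g ≤ 1)
    (hx : A.valuation x ≤ g) (hy : A.valuation y ≤ g) (k : ℕ) :
    A.valuation (x ^ (k + 2) - y ^ (k + 2)) ≤ A.valuation (x - y) * g := by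
  induction k with
  | zero =>
    have : x ^ (0 + 2) - y ^ (0 + 2) = (x - y) * (x + y) := by ring
    rw [this, map_mul]
    exact mul_le_mul_right ((A.valuation.map_add x y).trans (max_le hx hy)) _
  | succ k ih =>
    have : x ^ (k + 1 + 2) - y ^ (k + 1 + 2)
        = x * (x ^ (k + 2) - y ^ (k + 2)) + (x - y) * y ^ (k + 2) := by ring
    rw [this]
    refine (A.valuation.map_add _ _).trans (max_le ?_ ?_)
    · rw [map_mul]
      calc A.valuation x * A.valuation (x ^ (k + 2) - y ^ (k + 2))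
          ≤ 1 * (A.valuation (x - y) * g) := mul_le_mul' (hx.trans hg) ih
        _ = _ := one_mul _
    · rw [map_mul, map_pow]
      refine mul_le_mul_right ?_ _
      calc A.valuation y ^ (k + 2) = A.valuation y ^ (k + 1) * A.valuation y := pow_succ _ _
        _ ≤ 1 * g := mul_le_mul' (pow_le_one' (hy.trans hg) _) hy
        _ = g := one_mul _

/-- **Newton iteration inside an order.**  `ρ` is a function with values in the maximal ideal which
is, for every `n`, a root modulo `ρ^n` of the "power series" `∑ γ_i X^i` with coefficients in `S`,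
`γ_1` a unit.  Then `ρ ∈ S`.

Proof.  `γ_0 z = -(ρ z) * ω` (take `n = 1`), so `γ_0` has values in the maximal ideal.  Pick `π`
(`exists_bound`) with `ρ z ∈ π A` for all `z`.  Fix `n`, put
`Φ(X) = -γ_1⁻¹ (γ_0 + ∑_{2 ≤ i < n} γ_i X^i)` (`γ_1⁻¹ ∈ S` by `inv_mem`), `ρ_0 = 0`,
`ρ_{t+1} = Φ(ρ_t) ∈ S`.  By induction `ρ_t ∈ π (Z → A)` and `ρ - ρ_t ∈ π^(min (t+1) n) (Z → A)`, because
`ρ - ρ_{t+1} = (Φ ρ - Φ ρ_t) - γ_1⁻¹ ρ^n ω` and `X^i - Y^i = (X - Y) * (...)` with `(...) ∈ π (Z → A)`
for `i ≥ 2`.  Conclude by `mem_of_approx` (with `ψ = ρ_{n}` for the polynomial of degree `< n + 1`). -/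
theorem IsOrd.newton (hS : IsOrd A S) (harch : IsArch A) (ρ : Z → K)
    (hρ : ∀ z, A.valuation (ρ z) < 1) (γ : ℕ → Z → K) (hγ : ∀ i, γ i ∈ S)
    (hγ1 : ∀ z, A.valuation (γ 1 z) = 1)
    (heq : ∀ (n : ℕ) (z : Z), ∃ ω ∈ A,
      ∑ i ∈ Finset.range n, γ i z * ρ z ^ i + ρ z ^ n * ω = 0) : ρ ∈ S := by
  obtain ⟨π, hπ, hπρ⟩ := exists_bound ρ hρ
  have hρπ : ∀ z, A.valuation (ρ z) ≤ A.valuation π := fun z => by
    obtain ⟨b, hb, e⟩ := hπρ z
    exact val_le_of_eq_mul hb e
  have hu := hS.inv_mem (hγ 1) hγ1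
  have key : ∀ t : ℕ, ∃ ψ ∈ S, (∀ z, A.valuation (ψ z) ≤ A.valuation π) ∧
      ∀ z, A.valuation (ρ z - ψ z) ≤ A.valuation π ^ (t + 1) := by
    intro t
    induction t with
    | zero =>
      exact ⟨0, S.zero_mem, fun z => by simp, fun z => by simpa using hρπ z⟩
    | succ t ih =>
      obtain ⟨ψ, hψ, hψ1, hψ2⟩ := ih
      set ψ' : Z → K := -((fun z => (γ 1 z)⁻¹) *
        (γ 0 + ∑ i ∈ Finset.range t, γ (i + 2) * ψ ^ (i + 2))) with hψ'
      have hψ'S : ψ' ∈ S :=
        S.neg_mem (S.mul_mem hu (S.add_mem (hγ 0) (S.sum_mem fun i _ =>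
          S.mul_mem (hγ _) (S.pow_mem hψ _))))
      have hdiff : ∀ z, A.valuation (ρ z - ψ' z) ≤ A.valuation π ^ (t + 1 + 1) := by
        intro z
        obtain ⟨ω, hω, e⟩ := heq (t + 2) z
        rw [Finset.sum_range_succ', Finset.sum_range_succ'] at e
        have hz : γ 1 z ≠ 0 := by
          intro h; have := hγ1 z; rw [h, map_zero] at this; exact zero_ne_one this
        have e2 : ρ z - ψ' z = -(γ 1 z)⁻¹ * (∑ i ∈ Finset.range t,
            γ (i + 2) z * (ρ z ^ (i + 2) - ψ z ^ (i + 2)) + ρ z ^ (t + 2) * ω) := by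
          have e3 : ψ' z = -((γ 1 z)⁻¹ * (γ 0 z + ∑ i ∈ Finset.range t,
              γ (i + 2) z * ψ z ^ (i + 2))) := by
            simp [hψ', Finset.sum_apply]
          rw [e3]
          simp only [mul_sub, Finset.sum_sub_distrib]
          field_simp
          simp only [zero_add, pow_zero, pow_one, mul_one] at e
          linear_combination e
        rw [e2, map_mul, Valuation.map_neg, map_inv₀, hγ1 z, inv_one, one_mul]
        refine (A.valuation.map_add _ _).trans (max_le ?_ ?_)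
        · refine A.valuation.map_sum_le fun i _ => ?_
          rw [map_mul]
          calc A.valuation (γ (i + 2) z) * A.valuation (ρ z ^ (i + 2) - ψ z ^ (i + 2))
              ≤ 1 * (A.valuation (ρ z - ψ z) * A.valuation π) :=
                mul_le_mul' ((A.valuation_le_one_iff _).2 (hS.int _ (hγ _) z))
                  (val_pow_sub_pow_le hπ.le (hρπ z) (hψ1 z) i)
            _ ≤ A.valuation π ^ (t + 1) * A.valuation π := by
                rw [one_mul]; exact mul_le_mul_left (hψ2 z) _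
            _ = _ := (pow_succ _ _).symm
        · rw [map_mul, map_pow]
          calc A.valuation (ρ z) ^ (t + 2) * A.valuation ω
              ≤ A.valuation π ^ (t + 2) * 1 :=
                mul_le_mul' (pow_le_pow_left₀ zero_le (hρπ z) _) ((A.valuation_le_one_iff _).2 hω)
            _ = _ := mul_one _
      refine ⟨ψ', hψ'S, fun z => ?_, hdiff⟩
      have : ψ' z = ρ z - (ρ z - ψ' z) := by ring
      rw [this]
      refine (A.valuation.map_sub _ _).trans (max_le (hρπ z) ((hdiff z).trans ?_))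
      calc A.valuation π ^ (t + 1 + 1) = A.valuation π ^ (t + 1) * A.valuation π := pow_succ _ _
        _ ≤ 1 * A.valuation π := mul_le_mul_left (pow_le_one' hπ.le _) _
        _ = _ := one_mul _
  refine hS.mem_of_approx harch hπ ρ fun n => ?_
  obtain ⟨ψ, hψ, -, h2⟩ := key n
  refine ⟨ψ, hψ, fun z => exists_mul_of_val_le ?_⟩
  rw [map_pow]
  calc A.valuation (ρ z - ψ z) ≤ A.valuation π ^ (n + 1) := h2 z
    _ = A.valuation π ^ n * A.valuation π := pow_succ _ _
    _ ≤ A.valuation π ^ n * 1 := mul_le_mul_right hπ.le _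
    _ = _ := mul_one _

namespace OrdAux

omit [Finite Z] in
/-- evaluation at `z`, as a ring hom from an order to `A` -/
def evA (hS : IsOrd A S) (z : Z) : S →+* A where
  toFun φ := ⟨(φ : Z → K) z, hS.int φ φ.2 z⟩
  map_one' := rfl
  map_mul' _ _ := rfl
  map_zero' := rfl
  map_add' _ _ := rfl

omit [Finite Z] in
lemma coe_evA (hS : IsOrd A S) (z : Z) (φ : S) : ((evA hS z φ : A) : K) = (φ : Z → K) z := rfl

omit [Finite Z] in
lemma residue_evA_eq_zero_iff (hS : IsOrd A S) (z : Z) (φ : S) :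
    IsLocalRing.residue A (evA hS z φ) = 0 ↔ A.valuation ((φ : Z → K) z) < 1 := by
  rw [IsLocalRing.residue_eq_zero_iff, A.valuation_lt_one_iff]
  rfl

end OrdAux

/-- Cramer's rule in an order, for a matrix congruent to the identity. -/
theorem IsOrd.exists_solve (hS : IsOrd A S) {s : ℕ} (N : Fin s → Fin s → Z → K)
    (hN : ∀ l j, N l j ∈ S)
    (hN1 : ∀ l j z, A.valuation (N l j z - if l = j then 1 else 0) < 1)
    (b : Fin s → Z → K) (hb : ∀ l, b l ∈ S) (hb0 : ∀ l z, A.valuation (b l z) < 1) :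
    ∃ c : Fin s → Z → K, (∀ j, c j ∈ S) ∧ (∀ j z, A.valuation (c j z) < 1) ∧
      ∀ l z, ∑ j, N l j z * c j z = b l z := by
  classical
  let M : Matrix (Fin s) (Fin s) S := Matrix.of fun l j => ⟨N l j, hN l j⟩
  let b' : Fin s → S := fun l => ⟨b l, hb l⟩
  let r : Z → S →+* IsLocalRing.ResidueField A := fun z => (IsLocalRing.residue A).comp (evA hS z)
  have hrM : ∀ z, (r z).mapMatrix M = 1 := by
    intro z
    ext l j
    rw [RingHom.mapMatrix_apply, Matrix.map_apply, Matrix.one_apply]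
    have h1 : r z (M l j - if l = j then 1 else 0) = 0 := by
      change IsLocalRing.residue A (evA hS z _) = 0
      rw [residue_evA_eq_zero_iff]
      have : ((M l j - if l = j then 1 else 0 : S) : Z → K) z
          = N l j z - if l = j then 1 else 0 := by
        split_ifs <;> simp [M]
      rw [this]
      exact hN1 l j z
    rw [map_sub, sub_eq_zero] at h1
    rw [h1]
    split_ifs <;> simp
  have hdet : ∀ z, A.valuation ((M.det : Z → K) z) = 1 := by
    intro z
    have h1 : r z M.det = 1 := by rw [RingHom.map_det, hrM, Matrix.det_one]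
    have h2 : ¬ A.valuation ((M.det : Z → K) z) < 1 := by
      rw [← residue_evA_eq_zero_iff hS z M.det]
      change ¬ r z M.det = 0
      rw [h1]
      exact one_ne_zero
    exact le_antisymm ((A.valuation_le_one_iff _).2 (hS.int _ M.det.2 z)) (not_lt.1 h2)
  have hinv := hS.inv_mem M.det.2 hdet
  let e : S := ⟨_, hinv⟩
  have he : e * M.det = 1 := by
    apply Subtype.ext
    funext z
    have hz : (M.det : Z → K) z ≠ 0 := by
      intro h; have := hdet z; rw [h, map_zero] at this; exact zero_ne_one this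
    exact inv_mul_cancel₀ hz
  let c' : Fin s → S := e • (M.adjugate.mulVec b')
  have hMc : M.mulVec c' = b' := by
    rw [Matrix.mulVec_smul, Matrix.mulVec_mulVec, Matrix.mul_adjugate, Matrix.smul_mulVec,
      Matrix.one_mulVec, smul_smul, he, one_smul]
  refine ⟨fun j => (c' j : Z → K), fun j => (c' j).2, fun j z => ?_, fun l z => ?_⟩
  · rw [← residue_evA_eq_zero_iff hS z (c' j)]
    change r z (c' j) = 0
    have hb' : ∀ k, r z (b' k) = 0 := fun k => (residue_evA_eq_zero_iff hS z (b' k)).2 (hb0 k z)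
    simp only [c', Pi.smul_apply, smul_eq_mul, Matrix.mulVec, dotProduct, map_mul, map_sum, hb',
      mul_zero, Finset.sum_const_zero]
  · have h1 := congrArg (fun x : S => (x : Z → K) z) (congrFun hMc l)
    simp only [Matrix.mulVec, dotProduct, b'] at h1
    rw [← h1]
    simp [M, Finset.sum_apply]

/-- the subring of `A`-valued functions -/
def OrdAux.intSub (A : ValuationSubring K) (Z : Type*) : Subring (Z → K) where
  carrier := {φ | ∀ z, φ z ∈ A}
  mul_mem' ha hb z := A.mul_mem _ _ (ha z) (hb z)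
  one_mem' _ := A.one_mem
  add_mem' ha hb z := A.add_mem _ _ (ha z) (hb z)
  zero_mem' _ := A.zero_mem
  neg_mem' ha z := A.neg_mem _ (ha z)

/-- The subring generated by `A` and a separating family of `A`-valued functions is an order. -/
theorem isOrd_genOrd (X : Set (Z → K)) (hX : ∀ φ ∈ X, ∀ z, φ z ∈ A)
    (hsep : ∀ z z' : Z, z ≠ z' → ∃ φ ∈ X, φ z ≠ φ z') : IsOrd A (genOrd A X) := by
  classical
  have := Fintype.ofFinite Z
  have hconst : ∀ a ∈ A, (fun _ : Z => a) ∈ genOrd A X := fun a ha =>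
    Subring.subset_closure (Or.inl ⟨a, ha, rfl⟩)
  have hXmem : ∀ φ ∈ X, φ ∈ genOrd A X := fun φ h => Subring.subset_closure (Or.inr h)
  have hint : ∀ φ ∈ genOrd A X, ∀ z, φ z ∈ A := by
    have : genOrd A X ≤ OrdAux.intSub A Z := by
      rw [genOrd, Subring.closure_le]
      rintro φ (⟨a, ha, rfl⟩ | hφ)
      · exact fun z => ha
      · exact fun z => hX φ hφ z
    exact fun φ hφ z => this hφ z
  refine ⟨hconst, hint, ?_⟩
  choose! F hF hF' using hsep
  let f : Z → Z → K := fun z => ∏ z' ∈ Finset.univ.erase z, (F z z' - fun _ => F z z' z')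
  have hf : ∀ z, f z ∈ genOrd A X := fun z => Subring.prod_mem _ fun z' hz' =>
    Subring.sub_mem _ (hXmem _ (hF z z' (Finset.ne_of_mem_erase hz').symm))
      (hconst _ (hX _ (hF z z' (Finset.ne_of_mem_erase hz').symm) z'))
  have hfa : ∀ z w, f z w = ∏ z' ∈ Finset.univ.erase z, (F z z' w - F z z' z') := by
    intro z w
    simp only [f, Finset.prod_apply, Pi.sub_apply]
  have hc : ∀ z, f z z ≠ 0 := by
    intro z
    rw [hfa, Finset.prod_ne_zero_iff]
    intro z' hz'
    exact sub_ne_zero.2 (hF' z z' (Finset.ne_of_mem_erase hz').symm)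
  have hf0 : ∀ z w, w ≠ z → f z w = 0 := by
    intro z w hw
    rw [hfa]
    exact Finset.prod_eq_zero (Finset.mem_erase.2 ⟨hw, Finset.mem_univ w⟩) (sub_self _)
  refine ⟨∏ z, f z z, Finset.prod_ne_zero_iff.2 fun z _ => hc z, fun φ hφ => ?_⟩
  have e : (fun w => (∏ z, f z z) * φ w)
      = ∑ z, (fun _ => φ z * ∏ z'' ∈ Finset.univ.erase z, f z'' z'') * f z := by
    funext w
    rw [Finset.sum_apply, Finset.sum_eq_single w]
    · simp only [Pi.mul_apply]
      rw [← Finset.mul_prod_erase Finset.univ (fun z => f z z) (Finset.mem_univ w)]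
      ring
    · intro z _ hz
      simp [hf0 z w hz.symm]
    · simp
  rw [e]
  exact Subring.sum_mem _ fun z _ => Subring.mul_mem _
    (hconst _ (A.mul_mem _ _ (hφ z) (prod_mem fun z'' _ => hint _ (hf z'') z''))) (hf z)

theorem genOrd_le {X : Set (Z → K)} (hS : IsOrd A S) (hX : X ⊆ S) : genOrd A X ≤ S := by
  rw [genOrd, Subring.closure_le]
  rintro φ (⟨a, ha, rfl⟩ | hφ)
  · exact hS.const a ha
  · exact hX hφ

/-- Elements of `genOrd A X` are `A`-linear combinations of monomials in `X`. -/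
theorem mem_genOrd_iff {X : Set (Z → K)} {φ : Z → K} :
    φ ∈ genOrd A X ↔ ∃ (n : ℕ) (a : Fin n → K) (m : Fin n → Z → K), (∀ i, a i ∈ A) ∧
      (∀ i, m i ∈ Submonoid.closure X) ∧ ∀ z, φ z = ∑ i, a i * m i z := by
  have h1 : genOrd A X = (Algebra.adjoin A X).toSubring := by
    rw [Algebra.adjoin_eq_ring_closure, genOrd]
    congr 2
    ext ψ
    constructor
    · rintro ⟨a, ha, rfl⟩
      exact ⟨⟨a, ha⟩, rfl⟩
    · rintro ⟨a, rfl⟩
      exact ⟨a, a.2, rfl⟩
  have h2 : φ ∈ genOrd A X ↔ φ ∈ Submodule.span A (Submonoid.closure X : Set (Z → K)) := by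
    rw [h1, ← Algebra.adjoin_eq_span]
    rfl
  rw [h2, Submodule.mem_span_set']
  constructor
  · rintro ⟨n, f, g, rfl⟩
    refine ⟨n, fun i => (f i : K), fun i => (g i : Z → K), fun i => (f i).2, fun i => (g i).2,
      fun z => ?_⟩
    rw [Finset.sum_apply]
    rfl
  · rintro ⟨n, a, m, ha, hm, h⟩
    refine ⟨n, fun i => ⟨a i, ha i⟩, fun i => ⟨m i, hm i⟩, ?_⟩
    funext z
    rw [Finset.sum_apply, h z]
    rfl

variable {Z₁ Z₂ : Type*} [Finite Z₁] [Finite Z₂] {S₁ : Subring (Z₁ → K)} {S₂ : Subring (Z₂ → K)}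

theorem isOrd_prodOrd (h₁ : IsOrd A S₁) (h₂ : IsOrd A S₂) : IsOrd A (prodOrd S₁ S₂) := by
  classical
  have := Fintype.ofFinite Z₁
  have := Fintype.ofFinite Z₂
  have hl : ∀ a ∈ S₁, (fun p : Z₁ × Z₂ => a p.1) ∈ prodOrd S₁ S₂ := fun a ha =>
    Subring.subset_closure (Or.inl ⟨a, ha, rfl⟩)
  have hr : ∀ b ∈ S₂, (fun p : Z₁ × Z₂ => b p.2) ∈ prodOrd S₁ S₂ := fun b hb =>
    Subring.subset_closure (Or.inr ⟨b, hb, rfl⟩)
  refine ⟨fun a ha => hl _ (h₁.const a ha), ?_, ?_⟩
  · have : prodOrd S₁ S₂ ≤ OrdAux.intSub A (Z₁ × Z₂) := by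
      rw [prodOrd, Subring.closure_le]
      rintro φ (⟨a, ha, rfl⟩ | ⟨b, hb, rfl⟩)
      · exact fun p => h₁.int a ha p.1
      · exact fun p => h₂.int b hb p.2
    exact fun φ hφ z => this hφ z
  · obtain ⟨π₁, hπ₁, hc₁⟩ := h₁.cond
    obtain ⟨π₂, hπ₂, hc₂⟩ := h₂.cond
    refine ⟨π₁ * π₂, mul_ne_zero hπ₁ hπ₂, fun φ hφ => ?_⟩
    have e : (fun p => π₁ * π₂ * φ p) = ∑ q : Z₁ × Z₂,
        (fun p : Z₁ × Z₂ => (fun z₁ => π₁ * (if z₁ = q.1 then φ q else 0)) p.1)
          * (fun p : Z₁ × Z₂ => (fun z₂ => π₂ * (if z₂ = q.2 then 1 else 0)) p.2) := by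
      funext p
      rw [Finset.sum_apply, Finset.sum_eq_single p]
      · simp only [Pi.mul_apply, if_true]
        ring
      · intro q _ hq
        simp only [Pi.mul_apply]
        by_cases h1 : p.1 = q.1
        · have h2 : p.2 ≠ q.2 := fun h2 => hq (Prod.ext h1 h2).symm
          rw [if_neg h2]; ring
        · rw [if_neg h1]; ring
      · simp
    rw [e]
    refine Subring.sum_mem _ fun q _ => Subring.mul_mem _
      (hl _ (hc₁ (fun z₁ => if z₁ = q.1 then φ q else 0) fun z₁ => ?_))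
      (hr _ (hc₂ (fun z₂ => if z₂ = q.2 then 1 else 0) fun z₂ => ?_))
    · split_ifs
      · exact hφ q
      · exact A.zero_mem
    · split_ifs
      · exact A.one_mem
      · exact A.zero_mem

theorem mem_prodOrd_iff {φ : Z₁ × Z₂ → K} :
    φ ∈ prodOrd S₁ S₂ ↔ ∃ (n : ℕ) (a : Fin n → Z₁ → K) (b : Fin n → Z₂ → K),
      (∀ i, a i ∈ S₁) ∧ (∀ i, b i ∈ S₂) ∧ ∀ p, φ p = ∑ i, a i p.1 * b i p.2 := by
  constructor
  · intro h
    rw [prodOrd, Subring.mem_closure_iff, ← Submodule.span_int_eq_addSubgroupClosure,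
      Submodule.mem_toAddSubgroup, Submodule.mem_span_set'] at h
    obtain ⟨n, f, g, rfl⟩ := h
    have hpure : ∀ ψ ∈ Submonoid.closure ({φ : Z₁ × Z₂ → K | ∃ a ∈ S₁, φ = fun p => a p.1} ∪
        {φ | ∃ b ∈ S₂, φ = fun p => b p.2}), ∃ a ∈ S₁, ∃ b ∈ S₂, ψ = fun p => a p.1 * b p.2 := by
      intro ψ hψ
      induction hψ using Submonoid.closure_induction with
      | mem x hx =>
        rcases hx with ⟨a, ha, rfl⟩ | ⟨b, hb, rfl⟩
        · exact ⟨a, ha, 1, S₂.one_mem, by funext p; simp⟩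
        · exact ⟨1, S₁.one_mem, b, hb, by funext p; simp⟩
      | one => exact ⟨1, S₁.one_mem, 1, S₂.one_mem, by funext p; simp⟩
      | mul x y _ _ hx hy =>
        obtain ⟨a, ha, b, hb, rfl⟩ := hx
        obtain ⟨a', ha', b', hb', rfl⟩ := hy
        exact ⟨a * a', S₁.mul_mem ha ha', b * b', S₂.mul_mem hb hb', by
          funext p; simp only [Pi.mul_apply]; ring⟩
    choose a ha b hb e using fun i => hpure (g i) (g i).2
    refine ⟨n, fun i => f i • a i, b, fun i => S₁.zsmul_mem (ha i) _, hb, fun p => ?_⟩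
    rw [Finset.sum_apply]
    refine Finset.sum_congr rfl fun i _ => ?_
    rw [Pi.smul_apply, e i]
    simp only [Pi.smul_apply, smul_mul_assoc]
  · rintro ⟨n, a, b, ha, hb, h⟩
    have e : φ = ∑ i, (fun p : Z₁ × Z₂ => a i p.1) * (fun p : Z₁ × Z₂ => b i p.2) := by
      funext p
      rw [Finset.sum_apply, h p]
      rfl
    rw [e]
    exact Subring.sum_mem _ fun i _ => Subring.mul_mem _
      (Subring.subset_closure (Or.inl ⟨a i, ha i, rfl⟩))
      (Subring.subset_closure (Or.inr ⟨b i, hb i, rfl⟩))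

end Fermat.Agent.FFG
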