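import Fermat.Agent.FFG.Chart

/-!
# FFG / Trans : two flips = integrality of translations, change of charts, addition, inverse
                                                                                  [WP TRANS]
PAPER PROOFS.
* `trans`.  If `Z` is empty everything is trivial.  Choose (`exists_nonspecial45` + `G.param`) a non-special
  system `γ` of `g` points with local parameters avoiding `range Qs`, `range χ.pt` and `r (supp C)`.
  Choose `Db ∼ sumP Qs + sumP γ` avoiding `range Qs ∪ range γ ∪ range χ.pt` (`exists_equiv_avoid`) and lift it to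
  `D₁` (`exists_lift_divisor`).  `flip` (points `Qs`, residual points `γ`, divisor `D₁`) gives `S`-integral
  families `P♭` over `γ` with `∑ P + ∑ P♭ ∼ D₁`.  `D₂ := D₁ + C` avoids the discs of `γ` and of `χ.pt`, and
  `r_* D₂ ∼ sumP Qs + sumP γ + r_* C ∼ sumP γ + sumP χ.pt`.  `flip` (points `γ`, residual points `χ.pt`,
  divisor `D₂`) gives `P''` with `∑ P♭ + ∑ P'' ∼ D₂`; hence `∑ P'' ∼ ∑ P + C`.
* `IsIntFam.change`: pick an auxiliary chart `χ*` adapted to `y z₀` with `χ*.pt ∉ r (supp χ.a)` and `χ*.a` away from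
  the discs of `χ'.pt` (`exists_chart` with `T := r (supp χ.a) ∪ range χ'.pt`).  `trans` with `C := χ*.a - χ.a`
  (target `χ*`), then `trans` with `C := χ'.a - χ*.a` (target `χ'`).  The hypothesis `hC` of `trans` follows from
  the two `Adapted` hypotheses at one point `z₀`.
* `IsIntFam.add`: by `change` we may assume that the points of `χ` and `χ'` are distinct
  (`exists_chart` with `T ⊇ range χ.pt`).  `Qs := Fin.append χ.pt χ'.pt` (`s = g + g`), auxiliary target `χ*` whose
  points avoid `r (supp χ.a ∪ supp χ'.a)`, `C := χ*.a - χ.a - χ'.a`; then `change` to `χ''`.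
* `IsIntFam.neg`: one `flip`: `γ`, `D₁` as in `trans` (with `γ` also avoiding `r (supp χ.a)`); `∑ P + ∑ P♭ ∼ D₁` means
  `-(∑ P - χ.a) ∼ ∑ P♭ - (D₁ - χ.a)`: this is integrality in the chart `(γ, D₁ - χ.a)`; then `change`.
* `IsIntFam.const`: a constant family; its coordinates are constants of `A` (`ev_mem_constRing`).
-/

set_option autoImplicit false
set_option linter.unusedSectionVars false

open AlgebraicCurve

namespace Fermat.Agent.FFG

open Fermat.Agent.RED Fermat.Agent.S24

noncomputable section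

variable {K F k Fb : Type*} [Field K] [Field F] [Algebra K F] [Field k] [Field Fb] [Algebra k Fb]
variable [IsAlgClosed K] [IsAlgClosed k]
variable {R : RedData K F k Fb} {r : Place K F → Place k Fb}
variable {Z : Type*} [Finite Z] {S : Subring (Z → K)}

namespace TransAux

section

variable {E E' : Type*} [Field E] [Field E'] [Algebra E E']

/-- the class of a divisor in `Pic`. -/
def cl : Divisor E E' →+ Pic E E' := QuotientAddGroup.mk' _

theorem cl_eq_zero {D : Divisor E E'} : cl D = 0 ↔ Divisor.IsPrincipal D :=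
  QuotientAddGroup.eq_zero_iff D

theorem sumP_append {m n : ℕ} (a : Fin m → Place E E') (b : Fin n → Place E E') :
    sumP (Fin.append a b) = sumP a + sumP b := by
  unfold sumP
  rw [Fin.sum_univ_add]
  simp only [Fin.append_left, Fin.append_right]

end

/-- the class of the reduction of a divisor. -/
def clr (r : Place K F → Place k Fb) : Divisor K F →+ Pic k Fb :=
  cl.comp (Finsupp.mapDomain.addMonoidHom r)

theorem clr_apply (D : Divisor K F) : clr r D = cl (D.mapDomain r) := rfl

theorem clr_eq_zero (G : Good R r) {D : Divisor K F} (h : cl D = 0) : clr r D = 0 := by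
  rw [clr_apply, cl_eq_zero]
  exact isPrincipal_mapDomain G (cl_eq_zero.1 h)

theorem clr_sumP {n : ℕ} (p : Fin n → Place K F) : clr r (sumP p) = cl (sumP fun i => r (p i)) := by
  rw [clr_apply, Flip.mapDomain_sumP]

theorem adapted_iff {χ : Chart R r} {D : Divisor K F} :
    χ.Adapted D ↔ clr r D + clr r χ.a = cl (sumP χ.pt) := by
  unfold Chart.Adapted
  rw [← cl_eq_zero, map_sub, ← clr_apply, map_add, sub_eq_zero]

theorem apply_eq_zero_of_not_mem_image (C : Divisor K F) {T : Set (Place k Fb)}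
    (hT : r '' (C.support : Set (Place K F)) ⊆ T) {P : Place K F} (hP : r P ∉ T) : C P = 0 := by
  by_contra hne
  exact hP (hT ⟨P, Finsupp.mem_support_iff.2 hne, rfl⟩)

theorem finite_image_support (C : Divisor K F) : (r '' (C.support : Set (Place K F))).Finite :=
  C.support.finite_toSet.image r

/-- everything is integral over the empty parameter set. -/
theorem isIntFam_of_isEmpty [IsEmpty Z] (G : Good R r) (χ : Chart R r) (y : Z → Divisor K F) :
    IsIntFam S χ y := by
  refine ⟨fun _ z => isEmptyElim z, fun i => ⟨fun z => isEmptyElim z, fun f _ => ?_⟩,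
    fun z => isEmptyElim z⟩
  have : (fun z : Z => ev ((fun z => isEmptyElim z : Z → Place K F) z) f) = 0 := by
    funext z; exact isEmptyElim z
  rw [this]
  exact S.zero_mem

/-- the class of the reduction of an integral family is given by the chart. -/
theorem IsIntFam.adapted (G : Good R r) {χ : Chart R r} {y : Z → Divisor K F}
    (h : IsIntFam S χ y) (z : Z) : χ.Adapted (y z) := by
  obtain ⟨P, hP, hpr⟩ := h
  exact χ.adapted_of_pts G (fun i => (hP i).fib z) (hpr z)

end TransAux

open TransAux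

/-- **[TWOSTEP]** -/
theorem trans (G : Good R r) (hS : IsOrd (constRing R) S) {s : ℕ} (Qs : Fin s → Place k Fb)
    (hQ : Function.Injective Qs) (χ : Chart R r) (C : Divisor K F)
    (hCav : ∀ P i, r P = χ.pt i → C P = 0)
    (hC : Divisor.IsPrincipal (sumP Qs + C.mapDomain r - sumP χ.pt))
    (P : Fin s → Z → Place K F) (hP : ∀ l, IsFam R r S (Qs l) (P l)) :
    ∃ P'' : Fin (gN K F) → Z → Place K F, (∀ i, IsFam R r S (χ.pt i) (P'' i)) ∧
      ∀ z, Divisor.IsPrincipal (sumP (fun i => P'' i z) - sumP (fun l => P l z) - C) := by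
  classical
  obtain ⟨y₀, hy⟩ := G.sepb
  obtain ⟨B, hB, hpar⟩ := G.param
  have hgen : (gN K F : ℤ) ≤ gR k Fb := by rw [gN_eq G]; exact G.genus
  obtain ⟨γ, hγinj, hγT, hγns⟩ := hy.exists_nonspecial45
    (B ∪ Set.range Qs ∪ Set.range χ.pt ∪ r '' (C.support : Set (Place K F)))
    (((hB.union (Set.finite_range _)).union (Set.finite_range _)).union (finite_image_support C))
    (gN K F) hgen
  have hγB : ∀ i, γ i ∉ B := fun i h => hγT i (Or.inl (Or.inl (Or.inl h)))
  have hγQ : ∀ l i, Qs l ≠ γ i := fun l i h => hγT i (Or.inl (Or.inl (Or.inr ⟨l, h⟩)))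
  have hγχ : ∀ l i, γ l ≠ χ.pt i := fun l i h => hγT l (Or.inl (Or.inr ⟨i, h.symm⟩))
  have hγC : ∀ P i, r P = γ i → C P = 0 := by
    intro P i hP
    by_contra hne
    exact hγT i (Or.inr ⟨P, Finsupp.mem_support_iff.2 hne, hP⟩)
  obtain ⟨Db, hDb, hDbav⟩ := exists_equiv_avoid hy (sumP Qs + sumP γ)
    (Set.range Qs ∪ Set.range γ ∪ Set.range χ.pt)
    (((Set.finite_range _).union (Set.finite_range _)).union (Set.finite_range _))
  obtain ⟨D₁, hD₁, hD₁av⟩ := exists_lift_divisor G Db
  have hD₁Q : ∀ P l, r P = Qs l → D₁ P = 0 := fun P l h =>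
    hD₁av P (by rw [h]; exact hDbav _ (Or.inl (Or.inl ⟨l, rfl⟩)))
  have hD₁γ : ∀ P i, r P = γ i → D₁ P = 0 := fun P i h =>
    hD₁av P (by rw [h]; exact hDbav _ (Or.inl (Or.inr ⟨i, rfl⟩)))
  have hD₁χ : ∀ P i, r P = χ.pt i → D₁ P = 0 := fun P i h =>
    hD₁av P (by rw [h]; exact hDbav _ (Or.inr ⟨i, rfl⟩))
  rw [← cl_eq_zero, map_sub, map_add] at hDb
  rw [← cl_eq_zero, map_sub, map_add] at hC
  obtain ⟨Pb, hPb, hPbpr⟩ := flip G hS Qs γ hQ hγinj hγQ (fun i => hpar _ (hγB i)) hγns D₁
    hD₁Q hD₁γ (by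
      rw [hD₁, ← cl_eq_zero, map_sub, map_sub]
      linear_combination (norm := abel) hDb) P hP
  obtain ⟨P'', hP'', hpr''⟩ := flip G hS γ χ.pt hγinj χ.inj hγχ χ.par χ.ns (D₁ + C)
    (fun P l h => by rw [Finsupp.add_apply, hD₁γ P l h, hγC P l h, add_zero])
    (fun P i h => by rw [Finsupp.add_apply, hD₁χ P i h, hCav P i h, add_zero])
    (by
      rw [Finsupp.mapDomain_add, hD₁, ← cl_eq_zero, map_sub, map_sub, map_add]
      linear_combination (norm := abel) hDb + hC) Pb hPb
  refine ⟨P'', hP'', fun z => ?_⟩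
  have h1 := hPbpr z
  have h2 := hpr'' z
  rw [← cl_eq_zero, map_sub, map_add] at h1
  rw [← cl_eq_zero, map_sub, map_add, map_add] at h2
  rw [← cl_eq_zero, map_sub, map_sub]
  linear_combination (norm := abel) h2 - h1

/-- **[INDEP]** integrality does not depend on the chart. -/
theorem IsIntFam.change (G : Good R r) (hS : IsOrd (constRing R) S) {χ χ' : Chart R r}
    {y : Z → Divisor K F} (hy : ∀ z, Divisor.degree (y z) = 0) (h : IsIntFam S χ y)
    (hχ' : ∀ z, χ'.Adapted (y z)) : IsIntFam S χ' y := by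
  classical
  rcases isEmpty_or_nonempty Z with hZ | ⟨⟨z₀⟩⟩
  · exact isIntFam_of_isEmpty G χ' y
  have had := adapted_iff.1 (TransAux.IsIntFam.adapted G h z₀)
  have had' := adapted_iff.1 (hχ' z₀)
  obtain ⟨P, hP, hpr⟩ := h
  obtain ⟨χs, hχs, hχsT, hχsa⟩ := exists_chart G (y z₀) (hy z₀)
    (r '' (χ.a.support : Set (Place K F)) ∪ Set.range χ'.pt)
    ((finite_image_support χ.a).union (Set.finite_range _))
  have hads := adapted_iff.1 hχs
  obtain ⟨Ps, hPs, hprs⟩ := trans G hS χ.pt χ.inj χs (χs.a - χ.a)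
    (fun Q i h => by
      rw [Finsupp.sub_apply, χs.avoid Q i h,
        apply_eq_zero_of_not_mem_image (r := r) χ.a Set.subset_union_left (h ▸ hχsT i),
        sub_zero])
    (by
      rw [← cl_eq_zero, map_sub, map_add, ← clr_apply, map_sub]
      linear_combination (norm := abel) hads - had) P hP
  obtain ⟨P'', hP'', hpr''⟩ := trans G hS χs.pt χs.inj χ' (χ'.a - χs.a)
    (fun Q i h => by
      rw [Finsupp.sub_apply, χ'.avoid Q i h, hχsa Q (by rw [h]; exact Or.inr ⟨i, rfl⟩), sub_zero])
    (by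
      rw [← cl_eq_zero, map_sub, map_add, ← clr_apply, map_sub]
      linear_combination (norm := abel) had' - hads) Ps hPs
  refine ⟨P'', hP'', fun z => ?_⟩
  have h1 := hpr z
  have h2 := hprs z
  have h3 := hpr'' z
  rw [← cl_eq_zero, map_sub, map_sub] at h1
  rw [← cl_eq_zero, map_sub, map_sub, map_sub] at h2 h3
  rw [← cl_eq_zero, map_sub, map_sub]
  linear_combination (norm := abel) h1 + h2 + h3

/-- **[ADD]** -/
theorem IsIntFam.add (G : Good R r) (hS : IsOrd (constRing R) S) {χ χ' χ'' : Chart R r}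
    {y y' : Z → Divisor K F} (hy : ∀ z, Divisor.degree (y z) = 0)
    (hy' : ∀ z, Divisor.degree (y' z) = 0) (h : IsIntFam S χ y) (h' : IsIntFam S χ' y')
    (hχ'' : ∀ z, χ''.Adapted (y z + y' z)) : IsIntFam S χ'' (fun z => y z + y' z) := by
  classical
  rcases isEmpty_or_nonempty Z with hZ | ⟨⟨z₀⟩⟩
  · exact isIntFam_of_isEmpty G χ'' _
  -- move `χ'` away from `χ`
  obtain ⟨χ₁, hχ₁, hχ₁T, -⟩ := exists_chart G (y' z₀) (hy' z₀) (Set.range χ.pt)
    (Set.finite_range _)
  have h₁ : IsIntFam S χ₁ y' := by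
    refine IsIntFam.change G hS hy' h' fun z => ?_
    have e1 := adapted_iff.1 (TransAux.IsIntFam.adapted G h' z)
    have e2 := adapted_iff.1 (TransAux.IsIntFam.adapted G h' z₀)
    have e3 := adapted_iff.1 hχ₁
    rw [adapted_iff]
    linear_combination (norm := abel) e3 + e1 - e2
  have had := adapted_iff.1 (TransAux.IsIntFam.adapted G h z₀)
  have had₁ := adapted_iff.1 hχ₁
  obtain ⟨P, hP, hpr⟩ := h
  obtain ⟨P', hP', hpr'⟩ := h₁
  have hdeg : ∀ z, Divisor.degree (y z + y' z) = 0 := fun z => by rw [map_add, hy, hy', add_zero]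
  obtain ⟨χs, hχs, hχsT, -⟩ := exists_chart G (y z₀ + y' z₀) (hdeg z₀)
    (r '' (χ.a.support : Set (Place K F)) ∪ r '' (χ₁.a.support : Set (Place K F)))
    ((finite_image_support χ.a).union (finite_image_support χ₁.a))
  have hads := adapted_iff.1 hχs
  have hinj : Function.Injective (Fin.append χ.pt χ₁.pt) := by
    rw [Fin.append_injective_iff]
    refine ⟨χ.inj, χ₁.inj, ?_⟩
    intro i j hij
    exact hχ₁T j ⟨i, hij⟩
  obtain ⟨Ps, hPs, hprs⟩ := trans G hS (Fin.append χ.pt χ₁.pt) hinj χs (χs.a - χ.a - χ₁.a)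
    (fun Q i h => by
      rw [Finsupp.sub_apply, Finsupp.sub_apply, χs.avoid Q i h,
        apply_eq_zero_of_not_mem_image (r := r) χ.a Set.subset_union_left (h ▸ hχsT i),
        apply_eq_zero_of_not_mem_image (r := r) χ₁.a Set.subset_union_right (h ▸ hχsT i),
        sub_zero, sub_zero])
    (by
      rw [sumP_append, ← cl_eq_zero, map_sub, map_add, map_add, ← clr_apply, map_sub, map_sub]
      rw [map_add] at hads
      linear_combination (norm := abel) hads - had - had₁)
    (Fin.append P P') (fun l => by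
      refine Fin.addCases (fun i => ?_) (fun i => ?_) l
      · rw [Fin.append_left, Fin.append_left]; exact hP i
      · rw [Fin.append_right, Fin.append_right]; exact hP' i)
  have hs : IsIntFam S χs (fun z => y z + y' z) := by
    refine ⟨Ps, hPs, fun z => ?_⟩
    have h1 := hpr z
    have h2 := hpr' z
    have h3 := hprs z
    have e : (fun l => Fin.append P P' l z) = Fin.append (fun i => P i z) (fun i => P' i z) := by
      funext l
      refine Fin.addCases (fun i => ?_) (fun i => ?_) l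
      · rw [Fin.append_left, Fin.append_left]
      · rw [Fin.append_right, Fin.append_right]
    rw [e, sumP_append] at h3
    rw [← cl_eq_zero, map_sub, map_sub] at h1 h2
    rw [← cl_eq_zero, map_sub, map_sub, map_sub, map_sub, map_add] at h3
    rw [← cl_eq_zero, map_sub, map_sub, map_add]
    linear_combination (norm := abel) h1 + h2 + h3
  exact IsIntFam.change G hS hdeg hs hχ''

/-- **[NEG]** -/
theorem IsIntFam.neg (G : Good R r) (hS : IsOrd (constRing R) S) {χ χ' : Chart R r}
    {y : Z → Divisor K F} (hy : ∀ z, Divisor.degree (y z) = 0) (h : IsIntFam S χ y)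
    (hχ' : ∀ z, χ'.Adapted (- y z)) : IsIntFam S χ' (fun z => - y z) := by
  classical
  obtain ⟨y₀, hy₀⟩ := G.sepb
  obtain ⟨B, hB, hpar⟩ := G.param
  have hgen : (gN K F : ℤ) ≤ gR k Fb := by rw [gN_eq G]; exact G.genus
  obtain ⟨P, hP, hpr⟩ := h
  obtain ⟨γ, hγinj, hγT, hγns⟩ := hy₀.exists_nonspecial45
    (B ∪ Set.range χ.pt ∪ r '' (χ.a.support : Set (Place K F)))
    ((hB.union (Set.finite_range _)).union (finite_image_support χ.a))
    (gN K F) hgen
  have hγB : ∀ i, γ i ∉ B := fun i h => hγT i (Or.inl (Or.inl h))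
  have hγQ : ∀ l i, χ.pt l ≠ γ i := fun l i h => hγT i (Or.inl (Or.inr ⟨l, h⟩))
  have hγa : ∀ Q i, r Q = γ i → χ.a Q = 0 := by
    intro Q i hQ
    by_contra hne
    exact hγT i (Or.inr ⟨Q, Finsupp.mem_support_iff.2 hne, hQ⟩)
  obtain ⟨Db, hDb, hDbav⟩ := exists_equiv_avoid hy₀ (sumP χ.pt + sumP γ)
    (Set.range χ.pt ∪ Set.range γ) ((Set.finite_range _).union (Set.finite_range _))
  obtain ⟨D₁, hD₁, hD₁av⟩ := exists_lift_divisor G Db
  have hD₁Q : ∀ Q l, r Q = χ.pt l → D₁ Q = 0 := fun Q l h =>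
    hD₁av Q (by rw [h]; exact hDbav _ (Or.inl ⟨l, rfl⟩))
  have hD₁γ : ∀ Q i, r Q = γ i → D₁ Q = 0 := fun Q i h =>
    hD₁av Q (by rw [h]; exact hDbav _ (Or.inr ⟨i, rfl⟩))
  have hdegD₁ : Divisor.degree D₁ = gN K F + gN K F := by
    rw [← degree_mapDomain G D₁, hD₁]
    have h0 := hy₀.degree_eq_zero_of_isPrincipal hDb
    rw [map_sub, map_add, Flip.degree_sumP hy₀, Flip.degree_sumP hy₀] at h0
    linarith
  obtain ⟨Pb, hPb, hPbpr⟩ := flip G hS χ.pt γ χ.inj hγinj hγQ (fun i => hpar _ (hγB i)) hγns D₁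
    hD₁Q hD₁γ (by
      rw [← cl_eq_zero, map_sub, map_add] at hDb
      rw [hD₁, ← cl_eq_zero, map_sub, map_sub]
      linear_combination (norm := abel) hDb) P hP
  let χb : Chart R r :=
    { pt := γ
      inj := hγinj
      ns := hγns
      par := fun i => hpar _ (hγB i)
      a := D₁ - χ.a
      deg_a := by rw [map_sub, hdegD₁, χ.deg_a]; ring
      avoid := fun Q i h => by rw [Finsupp.sub_apply, hD₁γ Q i h, hγa Q i h, sub_zero] }
  have hb : IsIntFam S χb (fun z => - y z) := by
    refine ⟨Pb, hPb, fun z => ?_⟩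
    have h1 := hpr z
    have h2 := hPbpr z
    rw [← cl_eq_zero, map_sub, map_sub] at h1
    rw [← cl_eq_zero, map_sub, map_add] at h2
    change Divisor.IsPrincipal (sumP (fun i => Pb i z) - (D₁ - χ.a) - - y z)
    rw [← cl_eq_zero, map_sub, map_sub, map_sub, map_neg]
    linear_combination (norm := abel) h2 - h1
  exact IsIntFam.change G hS (fun z => by rw [map_neg, hy, neg_zero]) hb hχ'

/-- Constant families are integral. -/
theorem IsIntFam.const (G : Good R r) (hS : IsOrd (constRing R) S) {χ : Chart R r}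
    {D : Divisor K F} (hD : Divisor.degree D = 0) (hχ : χ.Adapted D) :
    IsIntFam S χ (fun _ : Z => D) := by
  obtain ⟨P, hP, hpr⟩ := χ.exists_pts G hD hχ
  exact ⟨fun i _ => P i, fun i => ⟨fun _ => hP i,
    fun f hf => hS.const _ (ev_mem_constRing G hf (hP i))⟩, fun _ => hpr⟩

/-- Integrality only depends on the divisor classes. -/
theorem IsIntFam.congr {χ : Chart R r} {y y' : Z → Divisor K F}
    (hyy' : ∀ z, Divisor.IsPrincipal (y z - y' z)) (h : IsIntFam S χ y) : IsIntFam S χ y' := by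
  obtain ⟨P, hP, hpr⟩ := h
  refine ⟨P, hP, fun z => ?_⟩
  have h1 := hpr z
  have h2 := hyy' z
  rw [← cl_eq_zero, map_sub, map_sub] at h1
  rw [← cl_eq_zero, map_sub] at h2
  rw [← cl_eq_zero, map_sub, map_sub]
  linear_combination (norm := abel) h1 + h2

/-- Base change of the order / of the parameter set. -/
theorem IsIntFam.comp {Z' : Type*} {S' : Subring (Z' → K)} {χ : Chart R r} {y : Z → Divisor K F}
    (h : IsIntFam S χ y) (ν : Z' → Z) (hν : ∀ φ ∈ S, (fun z' => φ (ν z')) ∈ S') :
    IsIntFam S' χ (fun z' => y (ν z')) := by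
  obtain ⟨P, hP, hpr⟩ := h
  exact ⟨fun i z' => P i (ν z'), fun i => ⟨fun z' => (hP i).fib (ν z'),
    fun f hf => hν _ ((hP i).mem f hf)⟩, fun z' => hpr (ν z')⟩

end

end Fermat.Agent.FFG
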